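/-
IHARA track, package [TWIST] (helper8), part 0: **coset operators are sums of conjugations on deep
principal congruence subgroups**.

For a two-group coset system `S : T2fSys₂ Γ Γ' ι` with `Γ(K) ≤ Γ` and `δ ∈ Γ' ∩ Γ(D n)` (`D` a multiple
of `K` and of all `det (rep i)`), one has `rep i * δ = ε_i * rep i` with `ε_i ∈ Γ ∩ Γ(n)`, hence
`S.cor c δ = ∑ i, c (ε_i)`: the operator is "local" (`IhtLoc`).  Local operators compose (product of
the representatives), and two local operators whose representatives agree up to a bijection, scalars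
and left multiplication by `Γ` are EQUAL on torsion-free coefficients (a homomorphism to a
torsion-free group which vanishes on `Γ' ∩ Γ(n)` vanishes).  This reduces all the commutation
relations of the twisting operator to matrix identities.
-/
import Mathlib
import Fermat.Agent.Lib.T2.F.Coset2

set_option autoImplicit false
set_option linter.unusedSectionVars false
set_option linter.unusedVariables false
set_option linter.style.haveILetI false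

namespace Fermat.Agent.Ihara

open Matrix MatrixGroups CongruenceSubgroup ModularCurve ModularCurve.Period
open Fermat.Agent.T1 Fermat.Agent.T2

/-! ### Principal congruence subgroups -/

/-- `γ ∈ Γ(n)` iff `γ = 1 + n X` -/
theorem iht_mem_Gamma_iff {n : ℕ} {γ : SL(2, ℤ)} :
    γ ∈ Gamma n ↔ ∃ X : Matrix (Fin 2) (Fin 2) ℤ,
      (γ : Matrix (Fin 2) (Fin 2) ℤ) = 1 + (n : ℤ) • X := by
  rw [Gamma_mem]
  constructor
  · rintro ⟨h00, h01, h10, h11⟩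
    have e00 : (n : ℤ) ∣ γ 0 0 - 1 := by
      rw [← ZMod.intCast_zmod_eq_zero_iff_dvd]; push_cast; rw [h00, sub_self]
    have e01 : (n : ℤ) ∣ γ 0 1 := by
      rw [← ZMod.intCast_zmod_eq_zero_iff_dvd]; exact h01
    have e10 : (n : ℤ) ∣ γ 1 0 := by
      rw [← ZMod.intCast_zmod_eq_zero_iff_dvd]; exact h10
    have e11 : (n : ℤ) ∣ γ 1 1 - 1 := by
      rw [← ZMod.intCast_zmod_eq_zero_iff_dvd]; push_cast; rw [h11, sub_self]
    obtain ⟨a, ha⟩ := e00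
    obtain ⟨b, hb⟩ := e01
    obtain ⟨c, hc⟩ := e10
    obtain ⟨d, hd⟩ := e11
    refine ⟨!![a, b; c, d], ?_⟩
    ext i j
    fin_cases i <;> fin_cases j <;> simp <;> linarith
  · rintro ⟨X, hX⟩
    have h : ∀ i j, ((γ i j : ℤ) : ZMod n) = ((1 : Matrix (Fin 2) (Fin 2) ℤ) i j : ℤ) := by
      intro i j
      have := congrFun (congrFun hX i) j
      rw [this, Matrix.add_apply, Matrix.smul_apply]
      push_cast
      simp
    refine ⟨?_, ?_, ?_, ?_⟩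
    · simpa using h 0 0
    · simpa using h 0 1
    · simpa using h 1 0
    · simpa using h 1 1

theorem iht_Gamma_le_of_dvd {m n : ℕ} (h : m ∣ n) : Gamma n ≤ Gamma m := by
  intro γ hγ
  obtain ⟨X, hX⟩ := iht_mem_Gamma_iff.mp hγ
  obtain ⟨k, rfl⟩ := h
  refine iht_mem_Gamma_iff.mpr ⟨(k : ℤ) • X, ?_⟩
  rw [hX, smul_smul]
  push_cast
  rfl

/-- conjugation by an integral matrix of determinant `D` maps `Γ(D n)` into `Γ(n)` -/
theorem iht_conj_principal (ρ : Matrix (Fin 2) (Fin 2) ℤ) {D : ℕ} (hD : ρ.det = (D : ℤ))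
    (hD0 : D ≠ 0) (n : ℕ) (δ : SL(2, ℤ)) (hδ : δ ∈ Gamma (D * n)) :
    ∃ ε : SL(2, ℤ), ε ∈ Gamma n ∧
      ρ * (δ : Matrix (Fin 2) (Fin 2) ℤ) = (ε : Matrix (Fin 2) (Fin 2) ℤ) * ρ := by
  obtain ⟨X, hX⟩ := iht_mem_Gamma_iff.mp hδ
  set E : Matrix (Fin 2) (Fin 2) ℤ := 1 + (n : ℤ) • (ρ * X * ρ.adjugate) with hE
  have hmul : ρ * (δ : Matrix (Fin 2) (Fin 2) ℤ) = E * ρ := by
    rw [hX, hE, Matrix.mul_add, Matrix.mul_one, Matrix.add_mul, Matrix.one_mul, Matrix.smul_mul,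
      Matrix.mul_assoc (ρ * X), Matrix.adjugate_mul, hD, Matrix.mul_smul, Matrix.mul_smul,
      Matrix.mul_one, smul_smul]
    push_cast
    rw [mul_comm (n : ℤ) (D : ℤ)]
  have hρ0 : ρ.det ≠ 0 := by rw [hD]; exact_mod_cast hD0
  have hdet : E.det = 1 := by
    have h1 := congrArg Matrix.det hmul
    rw [Matrix.det_mul, Matrix.det_mul, δ.2, mul_one] at h1
    have h2 : E.det * ρ.det = 1 * ρ.det := by rw [one_mul]; exact h1.symm
    exact mul_right_cancel₀ hρ0 h2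
  exact ⟨⟨E, hdet⟩, iht_mem_Gamma_iff.mpr ⟨ρ * X * ρ.adjugate, rfl⟩, hmul⟩

/-- some positive power of an element of `SL₂(ℤ)` lies in `Γ(n)` (`n ≠ 0`) -/
theorem iht_exists_pow_mem_Gamma {n : ℕ} (hn : n ≠ 0) (γ : SL(2, ℤ)) :
    ∃ k : ℕ, 0 < k ∧ γ ^ k ∈ Gamma n := by
  haveI : NeZero n := ⟨hn⟩
  haveI : Finite (SL(2, ZMod n)) := Subtype.finite
  set f := Matrix.SpecialLinearGroup.map (n := Fin 2) (Int.castRingHom (ZMod n)) with hf
  obtain ⟨k, hk0, hk⟩ := isOfFinOrder_iff_pow_eq_one.mp (isOfFinOrder_of_finite (f γ))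
  refine ⟨k, hk0, ?_⟩
  show f (γ ^ k) = 1
  rw [map_pow, hk]

/-- a homomorphism to a torsion-free group which vanishes on `Γ' ∩ Γ(n)` is zero -/
theorem iht_hom_eq_zero_of_deep {Γ' : Subgroup SL(2, ℤ)} {A : Type*} [AddCommGroup A]
    [NoZeroSMulDivisors ℕ A] (φ : Additive Γ' →+ A) {n : ℕ} (hn : n ≠ 0)
    (h : ∀ δ : Γ', (δ : SL(2, ℤ)) ∈ Gamma n → φ (Additive.ofMul δ) = 0) : φ = 0 := by
  refine AddMonoidHom.ext fun δ' => ?_
  obtain ⟨δ, rfl⟩ := Additive.ofMul.surjective δ'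
  obtain ⟨k, hk0, hk⟩ := iht_exists_pow_mem_Gamma hn (δ : SL(2, ℤ))
  have h1 : φ (Additive.ofMul (δ ^ k)) = 0 := h (δ ^ k) (by rw [Subgroup.coe_pow]; exact hk)
  rw [ofMul_pow, map_nsmul] at h1
  rcases smul_eq_zero.mp h1 with h2 | h2
  · exact absurd h2 hk0.ne'
  · exact h2

theorem iht_hom_ext_of_deep {Γ' : Subgroup SL(2, ℤ)} {A : Type*} [AddCommGroup A]
    [NoZeroSMulDivisors ℕ A] (φ ψ : Additive Γ' →+ A) {n : ℕ} (hn : n ≠ 0)
    (h : ∀ δ : Γ', (δ : SL(2, ℤ)) ∈ Gamma n → φ (Additive.ofMul δ) = ψ (Additive.ofMul δ)) :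
    φ = ψ := by
  have := iht_hom_eq_zero_of_deep (φ - ψ) hn fun δ hδ => by
    rw [AddMonoidHom.sub_apply, h δ hδ, sub_self]
  exact sub_eq_zero.mp this

theorem iht_SL_inv_mul_cancel (a : SL(2, ℤ)) (X : Matrix (Fin 2) (Fin 2) ℤ) :
    ((a⁻¹ : SL(2, ℤ)) : Matrix (Fin 2) (Fin 2) ℤ) * ((a : Matrix (Fin 2) (Fin 2) ℤ) * X) = X := by
  rw [← Matrix.mul_assoc, ← Matrix.SpecialLinearGroup.coe_mul, inv_mul_cancel,
    Matrix.SpecialLinearGroup.coe_one, Matrix.one_mul]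

theorem iht_SL_mul_inv_cancel (a : SL(2, ℤ)) (X : Matrix (Fin 2) (Fin 2) ℤ) :
    (a : Matrix (Fin 2) (Fin 2) ℤ) * (((a⁻¹ : SL(2, ℤ)) : Matrix (Fin 2) (Fin 2) ℤ) * X) = X := by
  rw [← Matrix.mul_assoc, ← Matrix.SpecialLinearGroup.coe_mul, mul_inv_cancel,
    Matrix.SpecialLinearGroup.coe_one, Matrix.one_mul]

/-! ### Local operators -/

section Loc

variable {Γ Γ' Γ'' : Subgroup SL(2, ℤ)} {A : Type*} [AddCommGroup A]

/-- `f : Hom(Γ, A) → Hom(Γ', A)` is, on deep principal congruence subgroups, the sum of the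
conjugations by the matrices `ρ i` -/
def IhtLoc {ι : Type} [Fintype ι] (f : (Additive Γ →+ A) → (Additive Γ' →+ A))
    (ρ : ι → Matrix (Fin 2) (Fin 2) ℤ) : Prop :=
  ∃ D : ℕ, D ≠ 0 ∧ ∀ (n : ℕ) (δ : Γ'), (δ : SL(2, ℤ)) ∈ Gamma (D * n) →
    ∃ ε : ι → Γ, (∀ i, ρ i * ((δ : SL(2, ℤ)) : Matrix (Fin 2) (Fin 2) ℤ)
        = ((ε i : SL(2, ℤ)) : Matrix (Fin 2) (Fin 2) ℤ) * ρ i) ∧
      (∀ i, (ε i : SL(2, ℤ)) ∈ Gamma n) ∧
      ∀ c : Additive Γ →+ A, f c (Additive.ofMul δ) = ∑ i, c (Additive.ofMul (ε i))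

/-- the depth can be increased -/
theorem IhtLoc.exists_depth {ι : Type} [Fintype ι] {f : (Additive Γ →+ A) → (Additive Γ' →+ A)}
    {ρ : ι → Matrix (Fin 2) (Fin 2) ℤ} (h : IhtLoc f ρ) (m : ℕ) (hm : m ≠ 0) :
    ∃ D : ℕ, D ≠ 0 ∧ m ∣ D ∧ ∀ (n : ℕ) (δ : Γ'), (δ : SL(2, ℤ)) ∈ Gamma (D * n) →
      ∃ ε : ι → Γ, (∀ i, ρ i * ((δ : SL(2, ℤ)) : Matrix (Fin 2) (Fin 2) ℤ)
          = ((ε i : SL(2, ℤ)) : Matrix (Fin 2) (Fin 2) ℤ) * ρ i) ∧
        (∀ i, (ε i : SL(2, ℤ)) ∈ Gamma n) ∧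
        ∀ c : Additive Γ →+ A, f c (Additive.ofMul δ) = ∑ i, c (Additive.ofMul (ε i)) := by
  obtain ⟨D, hD0, hD⟩ := h
  refine ⟨D * m, Nat.mul_ne_zero hD0 hm, Dvd.intro_left D rfl, fun n δ hδ => ?_⟩
  obtain ⟨ε, h1, h2, h3⟩ := hD (m * n) δ (by rwa [← Nat.mul_assoc])
  exact ⟨ε, h1, fun i => iht_Gamma_le_of_dvd (Dvd.intro_left m rfl) (h2 i), h3⟩

/-- a two-group coset system is local, provided `Γ` is a congruence subgroup -/
theorem IhtLoc.of_sys₂ {ι : Type} [Fintype ι] (S : T2fSys₂ Γ Γ' ι) {K : ℕ} (hK0 : K ≠ 0)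
    (hK : Gamma K ≤ Γ) : IhtLoc (A := A) (S.cor A) S.rep := by
  classical
  set P : ℕ := ∏ i, (S.rep i).det.natAbs with hP
  have hP0 : P ≠ 0 :=
    Finset.prod_ne_zero_iff.mpr fun i _ => Int.natAbs_ne_zero.mpr (S.det_ne_zero i)
  refine ⟨K * P, Nat.mul_ne_zero hK0 hP0, fun n δ hδ => ?_⟩
  have key : ∀ i, ∃ ε : SL(2, ℤ), ε ∈ Gamma (K * n) ∧
      S.rep i * ((δ : SL(2, ℤ)) : Matrix (Fin 2) (Fin 2) ℤ)
        = (ε : Matrix (Fin 2) (Fin 2) ℤ) * S.rep i := by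
    intro i
    have hd : (S.rep i).det = (((S.rep i).det.natAbs : ℕ) : ℤ) :=
      (Int.natAbs_of_nonneg (S.det_pos i).le).symm
    obtain ⟨q, hq⟩ : (S.rep i).det.natAbs ∣ P := Finset.dvd_prod_of_mem _ (Finset.mem_univ i)
    refine iht_conj_principal (S.rep i) hd (Int.natAbs_ne_zero.mpr (S.det_ne_zero i)) (K * n)
      (δ : SL(2, ℤ)) ?_
    exact iht_Gamma_le_of_dvd ⟨q, by rw [hq]; ring⟩ hδ
  choose ε hε1 hε2 using key
  have hmem : ∀ i, ε i ∈ Γ := fun i => hK (iht_Gamma_le_of_dvd (Dvd.intro n rfl) (hε1 i))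
  refine ⟨fun i => ⟨ε i, hmem i⟩, hε2,
    fun i => iht_Gamma_le_of_dvd (Dvd.intro_left K rfl) (hε1 i), fun c => ?_⟩
  rw [T2fSys₂.cor_apply]
  refine Finset.sum_congr rfl fun i _ => ?_
  have := (S.eq_of_rep_mul (δ := δ) (i := i) (j := i) (ε := ⟨ε i, hmem i⟩) (hε2 i)).2
  rw [← this]

/-- a one-group coset system is local, provided `Γ` is a congruence subgroup -/
theorem IhtLoc.of_sys {ι : Type} [Fintype ι] (S : tdmCosetSys Γ ι) {K : ℕ} (hK0 : K ≠ 0)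
    (hK : Gamma K ≤ Γ) : IhtLoc (A := A) (S.hom A) S.rep := by
  classical
  set P : ℕ := ∏ i, (S.rep i).det.natAbs with hP
  have hP0 : P ≠ 0 :=
    Finset.prod_ne_zero_iff.mpr fun i _ => Int.natAbs_ne_zero.mpr (S.det_ne_zero i)
  refine ⟨K * P, Nat.mul_ne_zero hK0 hP0, fun n δ hδ => ?_⟩
  have key : ∀ i, ∃ ε : SL(2, ℤ), ε ∈ Gamma (K * n) ∧
      S.rep i * ((δ : SL(2, ℤ)) : Matrix (Fin 2) (Fin 2) ℤ)
        = (ε : Matrix (Fin 2) (Fin 2) ℤ) * S.rep i := by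
    intro i
    have hd : (S.rep i).det = (((S.rep i).det.natAbs : ℕ) : ℤ) :=
      (Int.natAbs_of_nonneg (S.det_pos i).le).symm
    obtain ⟨q, hq⟩ : (S.rep i).det.natAbs ∣ P := Finset.dvd_prod_of_mem _ (Finset.mem_univ i)
    refine iht_conj_principal (S.rep i) hd (Int.natAbs_ne_zero.mpr (S.det_ne_zero i)) (K * n)
      (δ : SL(2, ℤ)) ?_
    exact iht_Gamma_le_of_dvd ⟨q, by rw [hq]; ring⟩ hδ
  choose ε hε1 hε2 using key
  have hmem : ∀ i, ε i ∈ Γ := fun i => hK (iht_Gamma_le_of_dvd (Dvd.intro n rfl) (hε1 i))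
  refine ⟨fun i => ⟨ε i, hmem i⟩, hε2,
    fun i => iht_Gamma_le_of_dvd (Dvd.intro_left K rfl) (hε1 i), fun c => ?_⟩
  rw [tdmCosetSys.hom_apply]
  refine Finset.sum_congr rfl fun i _ => ?_
  have := (S.eq_of_rep_mul (δ := δ) (i := i) (j := i) (ε := ⟨ε i, hmem i⟩) (hε2 i)).2
  rw [← this]

/-- restriction is local -/
theorem IhtLoc.res (h : Γ ≤ Γ') :
    IhtLoc (A := A) (t2fRes h A) (fun _ : Unit => (1 : Matrix (Fin 2) (Fin 2) ℤ)) := by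
  refine ⟨1, one_ne_zero, fun n δ hδ => ⟨fun _ => Subgroup.inclusion h δ, fun _ => ?_, fun _ => ?_,
    fun c => ?_⟩⟩
  · rw [Matrix.one_mul, Matrix.mul_one]; rfl
  · rw [one_mul] at hδ; exact hδ
  · rw [Finset.univ_unique, Finset.sum_singleton]; rfl

/-- composition of local operators, with representatives of the inner operator depending on the
index of the outer one -/
theorem IhtLoc.comp' {ι ι' : Type} [Fintype ι] [Fintype ι']
    {f : (Additive Γ →+ A) → (Additive Γ' →+ A)} {g : (Additive Γ' →+ A) → (Additive Γ'' →+ A)}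
    {ρ : ι' → ι → Matrix (Fin 2) (Fin 2) ℤ} {ρ' : ι' → Matrix (Fin 2) (Fin 2) ℤ}
    (hf : ∀ j, IhtLoc f (ρ j)) (hg : IhtLoc g ρ') :
    IhtLoc (fun c => g (f c)) (fun p : ι × ι' => ρ p.2 p.1 * ρ' p.2) := by
  classical
  obtain ⟨Dg, hDg0, hDg⟩ := hg
  choose Df hDf0 hDf using hf
  set P : ℕ := ∏ j, Df j with hP
  have hP0 : P ≠ 0 := Finset.prod_ne_zero_iff.mpr fun j _ => hDf0 j
  refine ⟨Dg * P, Nat.mul_ne_zero hDg0 hP0, fun n δ hδ => ?_⟩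
  obtain ⟨ε', h1', h2', h3'⟩ := hDg (P * n) δ (by rwa [← Nat.mul_assoc])
  have key : ∀ j, ∃ ε : ι → Γ, (∀ i, ρ j i * (((ε' j : Γ') : SL(2, ℤ)) : Matrix (Fin 2) (Fin 2) ℤ)
        = ((ε i : SL(2, ℤ)) : Matrix (Fin 2) (Fin 2) ℤ) * ρ j i) ∧
      (∀ i, (ε i : SL(2, ℤ)) ∈ Gamma n) ∧
      ∀ c : Additive Γ →+ A, f c (Additive.ofMul (ε' j)) = ∑ i, c (Additive.ofMul (ε i)) := by
    intro j
    obtain ⟨q, hq⟩ : Df j ∣ P := Finset.dvd_prod_of_mem _ (Finset.mem_univ j)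
    obtain ⟨ε, e1, e2, e3⟩ := hDf j (q * n) (ε' j) (by rw [← Nat.mul_assoc, ← hq]; exact h2' j)
    exact ⟨ε, e1, fun i => iht_Gamma_le_of_dvd (Dvd.intro_left q rfl) (e2 i), e3⟩
  choose ε e1 e2 e3 using key
  refine ⟨fun p => ε p.2 p.1, fun p => ?_, fun p => e2 p.2 p.1, fun c => ?_⟩
  · rw [Matrix.mul_assoc, h1' p.2, ← Matrix.mul_assoc, e1 p.2 p.1, Matrix.mul_assoc]
  · rw [h3' (f c), Fintype.sum_prod_type_right]
    exact Finset.sum_congr rfl fun j _ => e3 j c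

/-- composition of local operators -/
theorem IhtLoc.comp {ι ι' : Type} [Fintype ι] [Fintype ι']
    {f : (Additive Γ →+ A) → (Additive Γ' →+ A)} {g : (Additive Γ' →+ A) → (Additive Γ'' →+ A)}
    {ρ : ι → Matrix (Fin 2) (Fin 2) ℤ} {ρ' : ι' → Matrix (Fin 2) (Fin 2) ℤ}
    (hf : IhtLoc f ρ) (hg : IhtLoc g ρ') :
    IhtLoc (fun c => g (f c)) (fun p : ι × ι' => ρ p.1 * ρ' p.2) :=
  IhtLoc.comp' (ρ := fun _ => ρ) (fun _ => hf) hg

/-- reindexing -/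
theorem IhtLoc.reindex {ι ι' : Type} [Fintype ι] [Fintype ι'] (e : ι' ≃ ι)
    {f : (Additive Γ →+ A) → (Additive Γ' →+ A)} {ρ : ι → Matrix (Fin 2) (Fin 2) ℤ}
    (hf : IhtLoc f ρ) : IhtLoc f (fun j => ρ (e j)) := by
  obtain ⟨D, hD0, hD⟩ := hf
  refine ⟨D, hD0, fun n δ hδ => ?_⟩
  obtain ⟨ε, h1, h2, h3⟩ := hD n δ hδ
  refine ⟨fun j => ε (e j), fun j => h1 (e j), fun j => h2 (e j), fun c => ?_⟩
  rw [h3 c]
  exact (Equiv.sum_comp e fun i => c (Additive.ofMul (ε i))).symm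

/-- change of the representatives by scalars and left multiplication with `Γ` -/
theorem IhtLoc.congr_left {ι : Type} [Fintype ι]
    {f : (Additive Γ →+ A) → (Additive Γ' →+ A)} {ρ ρ' : ι → Matrix (Fin 2) (Fin 2) ℤ}
    (hf : IhtLoc f ρ)
    (h : ∀ i, ∃ (γ : Γ) (s s' : ℤ), s ≠ 0 ∧
      s • ρ' i = s' • (((γ : SL(2, ℤ)) : Matrix (Fin 2) (Fin 2) ℤ) * ρ i)) :
    IhtLoc f ρ' := by
  obtain ⟨D, hD0, hD⟩ := hf
  choose γ s s' hs hγ using h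
  refine ⟨D, hD0, fun n δ hδ => ?_⟩
  obtain ⟨ε, h1, h2, h3⟩ := hD n δ hδ
  refine ⟨fun i => γ i * ε i * (γ i)⁻¹, fun i => ?_, fun i => ?_, fun c => ?_⟩
  · apply smul_right_injective (Matrix (Fin 2) (Fin 2) ℤ) (hs i)
    have hL : s i • (ρ' i * ((δ : SL(2, ℤ)) : Matrix (Fin 2) (Fin 2) ℤ))
        = s' i • (((γ i : SL(2, ℤ)) : Matrix (Fin 2) (Fin 2) ℤ)
          * (((ε i : SL(2, ℤ)) : Matrix (Fin 2) (Fin 2) ℤ) * ρ i)) := by
      rw [← Matrix.smul_mul, hγ i, Matrix.smul_mul, Matrix.mul_assoc, h1 i]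
    have hR : s i • ((((γ i * ε i * (γ i)⁻¹ : Γ) : SL(2, ℤ)) : Matrix (Fin 2) (Fin 2) ℤ) * ρ' i)
        = s' i • (((γ i : SL(2, ℤ)) : Matrix (Fin 2) (Fin 2) ℤ)
          * (((ε i : SL(2, ℤ)) : Matrix (Fin 2) (Fin 2) ℤ) * ρ i)) := by
      rw [← Matrix.mul_smul, hγ i, Matrix.mul_smul]
      congr 1
      simp only [Subgroup.coe_mul, Subgroup.coe_inv, Matrix.SpecialLinearGroup.coe_mul,
        Matrix.mul_assoc]
      rw [iht_SL_inv_mul_cancel]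
    exact hL.trans hR.symm
  · rw [Subgroup.coe_mul, Subgroup.coe_mul, Subgroup.coe_inv]
    exact (Gamma_normal n).conj_mem _ (h2 i) _
  · rw [h3 c]
    refine Finset.sum_congr rfl fun i _ => ?_
    rw [ofMul_mul, ofMul_mul, ofMul_inv, map_add, map_add, map_neg]
    abel

/-- two local operators with the same representatives agree on deep elements -/
theorem IhtLoc.apply_eq {ι : Type} [Fintype ι]
    {f f' : (Additive Γ →+ A) → (Additive Γ' →+ A)} {ρ : ι → Matrix (Fin 2) (Fin 2) ℤ}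
    (hρ : ∀ i, (ρ i).det ≠ 0) (hf : IhtLoc f ρ) (hf' : IhtLoc f' ρ) :
    ∃ D : ℕ, D ≠ 0 ∧ ∀ (δ : Γ'), (δ : SL(2, ℤ)) ∈ Gamma D → ∀ c : Additive Γ →+ A,
      f c (Additive.ofMul δ) = f' c (Additive.ofMul δ) := by
  obtain ⟨D, hD0, hD⟩ := hf
  obtain ⟨D', hD'0, hD'⟩ := hf'
  refine ⟨D * D', Nat.mul_ne_zero hD0 hD'0, fun δ hδ c => ?_⟩
  obtain ⟨ε, h1, -, h3⟩ := hD D' δ hδ
  obtain ⟨ε', h1', -, h3'⟩ := hD' D δ (by rwa [Nat.mul_comm])
  rw [h3 c, h3' c]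
  refine Finset.sum_congr rfl fun i _ => ?_
  have : ε i = ε' i := by
    apply Subtype.ext
    apply Subtype.ext
    exact tdm_mul_right_cancel (hρ i) ((h1 i).symm.trans (h1' i))
  rw [this]

/-- **comparison of local operators**: same representatives (up to a bijection, scalars and left
multiplication by `Γ`) ⟹ equal, on torsion-free coefficients -/
theorem IhtLoc.ext {ι ι' : Type} [Fintype ι] [Fintype ι'] [NoZeroSMulDivisors ℕ A]
    {f f' : (Additive Γ →+ A) → (Additive Γ' →+ A)} {ρ : ι → Matrix (Fin 2) (Fin 2) ℤ}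
    {ρ' : ι' → Matrix (Fin 2) (Fin 2) ℤ} (hρ : ∀ i, (ρ i).det ≠ 0)
    (hf : IhtLoc f ρ) (hf' : IhtLoc f' ρ') (e : ι ≃ ι')
    (h : ∀ i, ∃ (γ : Γ) (s s' : ℤ), s ≠ 0 ∧
      s • ρ i = s' • (((γ : SL(2, ℤ)) : Matrix (Fin 2) (Fin 2) ℤ) * ρ' (e i)))
    (c : Additive Γ →+ A) : f c = f' c := by
  have h1 : IhtLoc f' ρ := (hf'.reindex e).congr_left h
  obtain ⟨D, hD0, hD⟩ := IhtLoc.apply_eq hρ hf h1
  exact iht_hom_ext_of_deep _ _ hD0 fun δ hδ => hD δ hδ c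

/-- `IhtLoc` only depends on the values of the operator -/
theorem IhtLoc.congr_fun {ι : Type} [Fintype ι]
    {f f' : (Additive Γ →+ A) → (Additive Γ' →+ A)} {ρ : ι → Matrix (Fin 2) (Fin 2) ℤ}
    (hf : IhtLoc f ρ) (h : ∀ c, f c = f' c) : IhtLoc f' ρ := by
  have : f = f' := funext h
  rwa [← this]

/-- variant of `IhtLoc.ext` with an injective map between index types of the same cardinality -/
theorem IhtLoc.ext_of_injective {ι ι' : Type} [Fintype ι] [Fintype ι'] [NoZeroSMulDivisors ℕ A]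
    {f f' : (Additive Γ →+ A) → (Additive Γ' →+ A)} {ρ : ι → Matrix (Fin 2) (Fin 2) ℤ}
    {ρ' : ι' → Matrix (Fin 2) (Fin 2) ℤ} (hρ : ∀ i, (ρ i).det ≠ 0)
    (hf : IhtLoc f ρ) (hf' : IhtLoc f' ρ') (e : ι → ι') (he : Function.Injective e)
    (hcard : Fintype.card ι = Fintype.card ι')
    (h : ∀ i, ∃ (γ : Γ) (s s' : ℤ), s ≠ 0 ∧
      s • ρ i = s' • (((γ : SL(2, ℤ)) : Matrix (Fin 2) (Fin 2) ℤ) * ρ' (e i)))
    (c : Additive Γ →+ A) : f c = f' c :=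
  IhtLoc.ext hρ hf hf'
    (Equiv.ofBijective e ((Fintype.bijective_iff_injective_and_card e).mpr ⟨he, hcard⟩)) h c

end Loc

end Fermat.Agent.Ihara
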