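/-
IHARA track, package [TWIST] (helper8), part 1: **the twisting operator at one prime `r ∥ N`**.

`Γ_H = ihfGammaH N H` (source), `Γ'` a congruence subgroup between `Γ(N r)` and `Γ₀(N r)` (target)
whose lower right entries have prime-to-`r` part in `H`.  `ι : (ℤ/r)ˣ → (ℤ/N)ˣ` the CRT section,
`k` an exponent with `ι(u)^(2k) ≡ ι(u) mod H` (a square root on the `r`-part of `(ℤ/N)ˣ/H`, which
exists when that part has odd order), `y(u) = ι(u)^k`.  The representatives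
`β_u = γ_{y(u)} · [[r, u], [0, r]]` (`u ∈ (ℤ/r)ˣ`, `γ_d = dshGammaU N d ∈ Γ₀(N)` with lower right
entry `d`) form a two-group coset system `Γ_H \ ⋃ Γ_H β_u / Γ'`:
for `δ ∈ Γ'` with lower right entry `d`, `β_u δ = ε β_{d² u}` with `ε ∈ Γ₀(N)` of class
`y(u) d y(d² u)⁻¹ = d ι(d)^{-2k} ∈ H`.  On the `ψ`-eigenspace of the diamond operators the operator
`ihtTw` is the classical twist by the character `ψ^{-1/2}` of `(ℤ/r)ˣ`; it lands in level `Γ₀(N r)`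
(no nebentypus at `r`).
-/
import Mathlib
import Fermat.Agent.Lib.Ihara.Fr.GammaH
import Fermat.Agent.Lib.T2.F.Coset2
import Fermat.Agent.Lib.Ihara.Tw.Loc

set_option autoImplicit false
set_option linter.unusedSectionVars false
set_option linter.unusedVariables false
set_option linter.style.haveILetI false

namespace Fermat.Agent.Ihara

open Matrix MatrixGroups CongruenceSubgroup ModularCurve ModularCurve.Period
open Fermat.Agent.DS Fermat.Agent.T1 Fermat.Agent.T1G Fermat.Agent.T2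

section Iota

variable (N r : ℕ) [NeZero N] [hr : Fact r.Prime]

theorem iht_coprime_div (hrN : r ∣ N) (hr2 : ¬ r * r ∣ N) : Nat.Coprime r (N / r) := by
  rw [Nat.Prime.coprime_iff_not_dvd hr.out]
  intro h
  exact hr2 (Nat.mul_dvd_of_dvd_div hrN h)

theorem iht_exists_iota (hrN : r ∣ N) (hr2 : ¬ r * r ∣ N) (u : (ZMod r)ˣ) :
    ∃ x : (ZMod N)ˣ, ZMod.unitsMap hrN x = u ∧ ZMod.unitsMap (Nat.div_dvd_of_dvd hrN) x = 1 := by
  have hcop := iht_coprime_div N r hrN hr2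
  haveI : NeZero r := ⟨hr.out.ne_zero⟩
  set a : ℕ := (u : ZMod r).val with ha
  obtain ⟨z, hz1, hz2⟩ := Nat.chineseRemainder hcop a 1
  have hzr : Nat.Coprime z r := by
    have h1 : Nat.gcd z r = Nat.gcd a r := Nat.ModEq.gcd_eq hz1
    have h2 : Nat.Coprime a r := ZMod.val_coe_unit_coprime u
    exact h1.trans h2
  have hzN' : Nat.Coprime z (N / r) := by
    have h1 : Nat.gcd z (N / r) = Nat.gcd 1 (N / r) := Nat.ModEq.gcd_eq hz2
    rw [Nat.Coprime, h1]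
    exact Nat.gcd_one_left _
  have hzN : Nat.Coprime z N := by
    rw [← Nat.mul_div_cancel' hrN]
    exact Nat.Coprime.mul_right hzr hzN'
  refine ⟨ZMod.unitOfCoprime z hzN, Units.ext ?_, Units.ext ?_⟩
  · rw [ZMod.unitsMap_val, ZMod.coe_unitOfCoprime, ZMod.cast_natCast hrN,
      (ZMod.natCast_eq_natCast_iff z a r).mpr hz1, ha, ZMod.natCast_zmod_val]
  · rw [ZMod.unitsMap_val, ZMod.coe_unitOfCoprime, ZMod.cast_natCast (Nat.div_dvd_of_dvd hrN),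
      (ZMod.natCast_eq_natCast_iff z 1 (N / r)).mpr hz2, Nat.cast_one, Units.val_one]

theorem iht_iota_unique (hrN : r ∣ N) (hr2 : ¬ r * r ∣ N) {x x' : (ZMod N)ˣ}
    (h1 : ZMod.unitsMap hrN x = ZMod.unitsMap hrN x')
    (h2 : ZMod.unitsMap (Nat.div_dvd_of_dvd hrN) x = ZMod.unitsMap (Nat.div_dvd_of_dvd hrN) x') :
    x = x' := by
  have hcop := iht_coprime_div N r hrN hr2
  apply Units.ext
  have e1 : ((x : ZMod N).val : ZMod r) = ((x' : ZMod N).val : ZMod r) := by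
    have := congrArg (fun y : (ZMod r)ˣ => (y : ZMod r)) h1
    simp only [ZMod.unitsMap_val] at this
    rw [ZMod.natCast_val, ZMod.natCast_val]
    exact this
  have e2 : ((x : ZMod N).val : ZMod (N / r)) = ((x' : ZMod N).val : ZMod (N / r)) := by
    have := congrArg (fun y : (ZMod (N / r))ˣ => (y : ZMod (N / r))) h2
    simp only [ZMod.unitsMap_val] at this
    rw [ZMod.natCast_val, ZMod.natCast_val]
    exact this
  rw [ZMod.natCast_eq_natCast_iff] at e1 e2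
  have e3 := (Nat.modEq_and_modEq_iff_modEq_mul hcop).mp ⟨e1, e2⟩
  rw [Nat.mul_div_cancel' hrN] at e3
  have e4 := (ZMod.natCast_eq_natCast_iff _ _ N).mpr e3
  rwa [ZMod.natCast_zmod_val, ZMod.natCast_zmod_val] at e4

/-- **the CRT section** `(ℤ/r)ˣ → (ℤ/N)ˣ` (`r ∥ N`): `ι(u) ≡ u mod r`, `ι(u) ≡ 1 mod N/r` -/
noncomputable def ihtIota (hrN : r ∣ N) (hr2 : ¬ r * r ∣ N) : (ZMod r)ˣ →* (ZMod N)ˣ where
  toFun u := (iht_exists_iota N r hrN hr2 u).choose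
  map_one' := by
    refine iht_iota_unique N r hrN hr2 ?_ ?_
    · rw [(iht_exists_iota N r hrN hr2 1).choose_spec.1, map_one]
    · rw [(iht_exists_iota N r hrN hr2 1).choose_spec.2, map_one]
  map_mul' u v := by
    refine iht_iota_unique N r hrN hr2 ?_ ?_
    · rw [(iht_exists_iota N r hrN hr2 (u * v)).choose_spec.1, map_mul,
        (iht_exists_iota N r hrN hr2 u).choose_spec.1, (iht_exists_iota N r hrN hr2 v).choose_spec.1]
    · rw [(iht_exists_iota N r hrN hr2 (u * v)).choose_spec.2, map_mul,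
        (iht_exists_iota N r hrN hr2 u).choose_spec.2, (iht_exists_iota N r hrN hr2 v).choose_spec.2,
        one_mul]

theorem ihtIota_mod_r (hrN : r ∣ N) (hr2 : ¬ r * r ∣ N) (u : (ZMod r)ˣ) :
    ZMod.unitsMap hrN (ihtIota N r hrN hr2 u) = u :=
  (iht_exists_iota N r hrN hr2 u).choose_spec.1

theorem ihtIota_mod_div (hrN : r ∣ N) (hr2 : ¬ r * r ∣ N) (u : (ZMod r)ˣ) :
    ZMod.unitsMap (Nat.div_dvd_of_dvd hrN) (ihtIota N r hrN hr2 u) = 1 :=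
  (iht_exists_iota N r hrN hr2 u).choose_spec.2

end Iota


/-! ### Matrix lemmas -/

/-- `[[r, u], [0, r]] * D = E * [[r, u'], [0, r]]` -/
theorem iht_alpha_mul {r : ℕ} (D : Matrix (Fin 2) (Fin 2) ℤ) (hD : D.det = 1) (u u' c₁ q : ℤ)
    (hc : D 1 0 = r * c₁) (hq : (r : ℤ) * q = u * D 1 1 - u' * D 0 0 - u * u' * c₁) :
    ∃ E : SL(2, ℤ), !![(r : ℤ), u; 0, (r : ℤ)] * D
        = (E : Matrix (Fin 2) (Fin 2) ℤ) * !![(r : ℤ), u'; 0, (r : ℤ)]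
      ∧ E 1 0 = D 1 0 ∧ E 1 1 = D 1 1 - u' * c₁ := by
  rw [Matrix.det_fin_two] at hD
  have hdet : (!![D 0 0 + u * c₁, q + D 0 1; D 1 0, D 1 1 - u' * c₁] :
      Matrix (Fin 2) (Fin 2) ℤ).det = 1 := by
    rw [Matrix.det_fin_two_of]
    linear_combination hD - q * hc - c₁ * hq
  refine ⟨⟨_, hdet⟩, ?_, rfl, rfl⟩
  ext i j
  fin_cases i <;> fin_cases j
  · simp [Matrix.mul_apply, Fin.sum_univ_two]
    linear_combination u * hc
  · simp [Matrix.mul_apply, Fin.sum_univ_two]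
    linear_combination (-1 : ℤ) * hq
  · simp [Matrix.mul_apply, Fin.sum_univ_two]
    ring
  · simp [Matrix.mul_apply, Fin.sum_univ_two]
    linear_combination (-u') * hc

/-! ### The hypotheses, the representatives, the coset system -/

section Sys

variable (N r : ℕ) [NeZero N] [hr : Fact r.Prime]

/-- the hypotheses for the twist at `r ∥ N` from `Γ_H(N)` to `Γ'` with the square-root exponent `k` -/
structure IhtHyp (H : Subgroup (ZMod N)ˣ) (k : ℕ) (Γ' : Subgroup SL(2, ℤ)) : Prop where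
  dvd : r ∣ N
  not_sq : ¬ r * r ∣ N
  sqrt : ∀ u : (ZMod r)ˣ, ihtIota N r dvd not_sq u * (ihtIota N r dvd not_sq u ^ (2 * k))⁻¹ ∈ H
  le : Γ' ≤ Gamma0 (N * r)
  cong : Gamma (N * r) ≤ Γ'
  tgt : ∀ δ : SL(2, ℤ), δ ∈ Γ' → ∃ h ∈ H, ∃ x : (ZMod r)ˣ, (x : ZMod r) = dshD r δ ∧
    dshD N δ = ((h * ihtIota N r dvd not_sq x : (ZMod N)ˣ) : ZMod N)

variable {N r}
variable {H : Subgroup (ZMod N)ˣ} {k : ℕ} {Γ' : Subgroup SL(2, ℤ)}

theorem iht_dshD_inv {g : SL(2, ℤ)} (hg : g ∈ Gamma0 N) (y : (ZMod N)ˣ)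
    (hy : dshD N g = (y : ZMod N)) : dshD N g⁻¹ = ((y⁻¹ : (ZMod N)ˣ) : ZMod N) := by
  have h1 := dshD_mul_inv hg
  rw [hy] at h1
  rw [← mul_one ((y⁻¹ : (ZMod N)ˣ) : ZMod N), ← h1, ← mul_assoc, Units.inv_mul, one_mul]

/-- `y(u) = ι(u)^k`, the square root of `ι(u)` modulo `H` -/
noncomputable def ihtY (hyp : IhtHyp N r H k Γ') : (ZMod r)ˣ →* (ZMod N)ˣ :=
  (ihtIota N r hyp.dvd hyp.not_sq).comp (powMonoidHom k)

theorem ihtY_apply (hyp : IhtHyp N r H k Γ') (u : (ZMod r)ˣ) :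
    ihtY hyp u = ihtIota N r hyp.dvd hyp.not_sq u ^ k := by
  rw [ihtY, MonoidHom.comp_apply, powMonoidHom_apply, map_pow]

/-- the upper triangular part `[[r, u], [0, r]]` (`= r · [[1, u/r], [0, 1]]`) -/
def ihtAlpha (r : ℕ) (u : ZMod r) : Matrix (Fin 2) (Fin 2) ℤ :=
  !![(r : ℤ), ((u.val : ℕ) : ℤ); 0, (r : ℤ)]

/-- the representatives `β_u = γ_{y(u)} · [[r, u], [0, r]]` -/
noncomputable def ihtRep (hyp : IhtHyp N r H k Γ') (u : (ZMod r)ˣ) : Matrix (Fin 2) (Fin 2) ℤ :=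
  (dshGammaU N (ihtY hyp u) : Matrix (Fin 2) (Fin 2) ℤ) * ihtAlpha r (u : ZMod r)

theorem ihtRep_det (hyp : IhtHyp N r H k Γ') (u : (ZMod r)ˣ) :
    (ihtRep hyp u).det = ((r * r : ℕ) : ℤ) := by
  rw [ihtRep, Matrix.det_mul, (dshGammaU N (ihtY hyp u)).2, ihtAlpha, Matrix.det_fin_two_of]
  push_cast
  ring

omit [NeZero N] in
/-- the key matrix computation: for `δ ∈ Γ₀(N r)` with lower right entry `x mod r`,
`[[r, u], [0, r]] δ = E [[r, x² u], [0, r]]` with `E ∈ Γ₀(N)`, `d(E) ≡ d(δ) mod N` -/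
theorem iht_alpha_exists (hrN : r ∣ N) (δ : SL(2, ℤ)) (hδ0 : δ ∈ Gamma0 (N * r)) (x : (ZMod r)ˣ)
    (hx : (x : ZMod r) = dshD r δ) (u : (ZMod r)ˣ) :
    ∃ E : SL(2, ℤ), E ∈ Gamma0 N ∧ dshD N E = dshD N δ ∧
      ihtAlpha r (u : ZMod r) * (δ : Matrix (Fin 2) (Fin 2) ℤ)
        = (E : Matrix (Fin 2) (Fin 2) ℤ) * ihtAlpha r ((x ^ 2 * u : (ZMod r)ˣ) : ZMod r) := by
  haveI : NeZero r := ⟨hr.out.ne_zero⟩
  set D := (δ : Matrix (Fin 2) (Fin 2) ℤ) with hDdef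
  have hD : D.det = 1 := δ.2
  obtain ⟨c₂, hc₂⟩ : ((N * r : ℕ) : ℤ) ∣ D 1 0 := (tdm_mem_Gamma0_iff _).mp hδ0
  set c₁ : ℤ := N * c₂ with hc₁
  have hc : D 1 0 = r * c₁ := by rw [hc₂, hc₁]; push_cast; ring
  set u' : (ZMod r)ˣ := x ^ 2 * u with hu'
  set uv : ℤ := (((u : ZMod r).val : ℕ) : ℤ) with huv
  set uv' : ℤ := (((u' : ZMod r).val : ℕ) : ℤ) with huv'
  have e11 : ((D 1 1 : ℤ) : ZMod r) = (x : ZMod r) := hx.symm
  have e10 : ((D 1 0 : ℤ) : ZMod r) = 0 := by rw [hc]; push_cast; simp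
  have edet : ((D 0 0 : ℤ) : ZMod r) * (x : ZMod r) = 1 := by
    have h1 := hD
    rw [Matrix.det_fin_two] at h1
    have h2 := congrArg (Int.cast : ℤ → ZMod r) h1
    push_cast at h2
    rw [e10, e11, mul_zero, sub_zero] at h2
    exact h2
  have ec₁ : ((c₁ : ℤ) : ZMod r) = 0 := by
    rw [hc₁]; push_cast
    rw [(ZMod.natCast_eq_zero_iff N r).mpr hrN, zero_mul]
  have euv : ((uv : ℤ) : ZMod r) = (u : ZMod r) := by
    rw [huv, Int.cast_natCast, ZMod.natCast_zmod_val]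
  have euv' : ((uv' : ℤ) : ZMod r) = (x : ZMod r) ^ 2 * (u : ZMod r) := by
    rw [huv', Int.cast_natCast, ZMod.natCast_zmod_val, hu', Units.val_mul, Units.val_pow_eq_pow_val]
  have hdvd : (r : ℤ) ∣ uv * D 1 1 - uv' * D 0 0 - uv * uv' * c₁ := by
    rw [← ZMod.intCast_zmod_eq_zero_iff_dvd]
    push_cast
    rw [euv, euv', e11, ec₁]
    linear_combination (-(x : ZMod r) * (u : ZMod r)) * edet
  obtain ⟨q, hq⟩ := hdvd
  obtain ⟨E, hE, hE10, hE11⟩ := iht_alpha_mul (r := r) D hD uv uv' c₁ q hc hq.symm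
  have hE0 : E ∈ Gamma0 N := by
    rw [tdm_mem_Gamma0_iff, hE10, hc₂]
    push_cast
    exact ⟨(r : ℤ) * c₂, by ring⟩
  have hEd : dshD N E = dshD N δ := by
    show ((E 1 1 : ℤ) : ZMod N) = ((D 1 1 : ℤ) : ZMod N)
    rw [hE11, hc₁]
    push_cast
    rw [ZMod.natCast_self, zero_mul, mul_zero, sub_zero]
  exact ⟨E, hE0, hEd, hE⟩

/-- `β_u δ = ε β_{x² u}` for `δ ∈ Γ₀(N r)` with `d(δ) ≡ z mod N`, `≡ x mod r`;
`ε ∈ Γ₀(N)` with `d(ε) = z · ι(x)^{-2k}` -/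
theorem ihtRep_mul_exists (hyp : IhtHyp N r H k Γ') (δ : SL(2, ℤ)) (hδ0 : δ ∈ Gamma0 (N * r))
    (x : (ZMod r)ˣ) (hx : (x : ZMod r) = dshD r δ) (z : (ZMod N)ˣ) (hz : (z : ZMod N) = dshD N δ)
    (u : (ZMod r)ˣ) :
    ∃ ε : SL(2, ℤ), ε ∈ Gamma0 N ∧
      dshD N ε = ((z * (ihtIota N r hyp.dvd hyp.not_sq x ^ (2 * k))⁻¹ : (ZMod N)ˣ) : ZMod N) ∧
      ihtRep hyp u * (δ : Matrix (Fin 2) (Fin 2) ℤ)
        = (ε : Matrix (Fin 2) (Fin 2) ℤ) * ihtRep hyp (x ^ 2 * u) := by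
  obtain ⟨E, hE0, hEd, hE⟩ := iht_alpha_exists hyp.dvd δ hδ0 x hx u
  set u' : (ZMod r)ˣ := x ^ 2 * u with hu'
  set g := dshGammaU N (ihtY hyp u) with hg
  set g' := dshGammaU N (ihtY hyp u') with hg'
  have hgm : g ∈ Gamma0 N := dshGammaU_mem N _
  have hg'm : g' ∈ Gamma0 N := dshGammaU_mem N _
  have hεm : g * E * g'⁻¹ ∈ Gamma0 N := mul_mem (mul_mem hgm hE0) (inv_mem hg'm)
  refine ⟨g * E * g'⁻¹, hεm, ?_, ?_⟩
  · rw [dshD_mul (mul_mem hgm hE0), dshD_mul hgm, hEd, ← hz, dshD_dshGammaU,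
      iht_dshD_inv hg'm (ihtY hyp u') (dshD_dshGammaU N _), ← Units.val_mul, ← Units.val_mul]
    congr 1
    rw [hu', map_mul, map_pow, ihtY_apply hyp x, ← pow_mul, mul_comm k 2]
    generalize ihtY hyp u = a
    generalize ihtIota N r hyp.dvd hyp.not_sq x = b
    rw [mul_inv, show a * z * ((b ^ (2 * k))⁻¹ * a⁻¹) = z * (b ^ (2 * k))⁻¹ * (a * a⁻¹) by
      ac_rfl, mul_inv_cancel, mul_one]
  · show (g : Matrix (Fin 2) (Fin 2) ℤ) * ihtAlpha r (u : ZMod r) * (δ : Matrix (Fin 2) (Fin 2) ℤ)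
      = ((g * E * g'⁻¹ : SL(2, ℤ)) : Matrix (Fin 2) (Fin 2) ℤ)
        * ((g' : Matrix (Fin 2) (Fin 2) ℤ) * ihtAlpha r (u' : ZMod r))
    rw [Matrix.mul_assoc, hE, Matrix.SpecialLinearGroup.coe_mul, Matrix.SpecialLinearGroup.coe_mul,
      Matrix.mul_assoc, Matrix.mul_assoc, iht_SL_inv_mul_cancel]

/-- the key computation: `β_u δ = ε β_{d² u}` with `ε ∈ Γ_H`, for `δ ∈ Γ'` -/
theorem ihtRep_exists (hyp : IhtHyp N r H k Γ') (δ : Γ') (u : (ZMod r)ˣ) :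
    ∃ (u' : (ZMod r)ˣ) (ε : ihfGammaH N H),
      ihtRep hyp u * ((δ : SL(2, ℤ)) : Matrix (Fin 2) (Fin 2) ℤ)
        = ((ε : SL(2, ℤ)) : Matrix (Fin 2) (Fin 2) ℤ) * ihtRep hyp u' := by
  obtain ⟨h, hh, x, hx, hd⟩ := hyp.tgt δ δ.2
  obtain ⟨ε, hε0, hεd, hε⟩ := ihtRep_mul_exists hyp (δ : SL(2, ℤ)) (hyp.le δ.2) x hx
    (h * ihtIota N r hyp.dvd hyp.not_sq x) hd.symm u
  refine ⟨x ^ 2 * u, ⟨ε, hε0, _, mul_mem hh (hyp.sqrt x), ?_⟩, hε⟩
  rw [hεd, mul_assoc]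

theorem ihtRep_inequiv (hyp : IhtHyp N r H k Γ') (u u' : (ZMod r)ˣ) (γ : ihfGammaH N H)
    (h : ((γ : SL(2, ℤ)) : Matrix (Fin 2) (Fin 2) ℤ) * ihtRep hyp u = ihtRep hyp u') : u = u' := by
  haveI : NeZero r := ⟨hr.out.ne_zero⟩
  set g := dshGammaU N (ihtY hyp u) with hg
  set g' := dshGammaU N (ihtY hyp u') with hg'
  set P : SL(2, ℤ) := g'⁻¹ * (γ : SL(2, ℤ)) * g with hP
  have h1 : (P : Matrix (Fin 2) (Fin 2) ℤ) * ihtAlpha r (u : ZMod r) = ihtAlpha r (u' : ZMod r) := by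
    have h2 : ((γ : SL(2, ℤ)) : Matrix (Fin 2) (Fin 2) ℤ)
        * ((g : Matrix (Fin 2) (Fin 2) ℤ) * ihtAlpha r (u : ZMod r))
        = (g' : Matrix (Fin 2) (Fin 2) ℤ) * ihtAlpha r (u' : ZMod r) := h
    rw [hP, Matrix.SpecialLinearGroup.coe_mul, Matrix.SpecialLinearGroup.coe_mul, Matrix.mul_assoc,
      Matrix.mul_assoc, h2, iht_SL_inv_mul_cancel]
  have hr0 : (r : ℤ) ≠ 0 := by exact_mod_cast hr.out.ne_zero
  have e00 := congrFun (congrFun h1 0) 0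
  have e01 := congrFun (congrFun h1 0) 1
  simp [ihtAlpha, Matrix.mul_apply, Fin.sum_univ_two] at e00 e01
  -- e00 : P 0 0 * r = r ; e01 : P 0 0 * u.val + P 0 1 * r = u'.val
  have hP00 : (P : Matrix (Fin 2) (Fin 2) ℤ) 0 0 = 1 := by
    have : (P : Matrix (Fin 2) (Fin 2) ℤ) 0 0 * (r : ℤ) = 1 * r := by rw [one_mul]; exact e00
    exact mul_right_cancel₀ hr0 this
  rw [hP00, one_mul] at e01
  have h3 := congrArg (Int.cast : ℤ → ZMod r) e01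
  push_cast at h3
  rw [ZMod.natCast_self, mul_zero, add_zero] at h3
  exact Units.ext h3

/-- **the twisting coset system** -/
noncomputable def ihtSys (hyp : IhtHyp N r H k Γ') : T2fSys₂ (ihfGammaH N H) Γ' (ZMod r)ˣ :=
  T2fSys₂.ofInequiv (ihtRep hyp)
    (fun u => by rw [ihtRep_det]; exact_mod_cast Nat.mul_pos hr.out.pos hr.out.pos)
    (ihtRep_inequiv hyp) (ihtRep_exists hyp)

@[simp] theorem ihtSys_rep (hyp : IhtHyp N r H k Γ') : (ihtSys hyp).rep = ihtRep hyp := rfl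

/-- **the twisting operator** `Hom_par(Γ_H(N), A) → Hom_par(Γ', A)` -/
noncomputable def ihtTw (hyp : IhtHyp N r H k Γ') (R : Type*) [Semiring R] (A : Type*)
    [AddCommGroup A] [Module R A] :
    ↥(parabolicHoms R (ihfGammaH N H) A) →ₗ[R] ↥(parabolicHoms R Γ' A) :=
  (ihtSys hyp).corPar R A

theorem ihtTw_coe (hyp : IhtHyp N r H k Γ') (R : Type*) [Semiring R] (A : Type*)
    [AddCommGroup A] [Module R A] (c : ↥(parabolicHoms R (ihfGammaH N H) A)) :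
    ((ihtTw hyp R A c : ↥(parabolicHoms R Γ' A)) : Additive Γ' →+ A)
      = (ihtSys hyp).cor A (c : Additive (ihfGammaH N H) →+ A) := rfl

theorem iht_Gamma_le_GammaH : Gamma N ≤ ihfGammaH N H := by
  intro γ hγ
  apply ihfGamma1_le_GammaH
  rw [Gamma_mem] at hγ
  rw [Gamma1_mem]
  exact ⟨hγ.1, hγ.2.2.2, hγ.2.2.1⟩

/-- the twisting operator is local, with representatives `β_u` -/
theorem ihtSys_loc (hyp : IhtHyp N r H k Γ') (A : Type*) [AddCommGroup A] :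
    IhtLoc (A := A) ((ihtSys hyp).cor A) (ihtRep hyp) :=
  IhtLoc.of_sys₂ (ihtSys hyp) (NeZero.ne N) iht_Gamma_le_GammaH

end Sys

/-! ### The two standard targets -/

section Targets

variable {N r : ℕ} [NeZero N] [hr : Fact r.Prime]

theorem iht_Gamma_le_Gamma0 (M : ℕ) : Gamma M ≤ Gamma0 M := by
  intro γ hγ
  rw [Gamma_mem] at hγ
  rw [Gamma0_mem]
  exact hγ.2.2.1

/-- for `δ ∈ Γ₀(M)` the lower right entry is a unit modulo `M` -/
theorem iht_exists_unit_dshD {M : ℕ} {δ : SL(2, ℤ)} (hδ : δ ∈ Gamma0 M) :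
    ∃ x : (ZMod M)ˣ, (x : ZMod M) = dshD M δ :=
  ⟨(IsUnit.of_mul_eq_one _ (dshD_mul_inv hδ)).unit, rfl⟩

theorem iht_dshD_cast {M M' : ℕ} (h : M ∣ M') (δ : SL(2, ℤ)) :
    ZMod.cast (dshD M' δ) = dshD M δ := by
  rw [dshD, dshD, ZMod.cast_intCast h]

/-- target `Γ₀(N r)` -/
theorem iht_hyp_Gamma0 (hrN : r ∣ N) (hr2 : ¬ r * r ∣ N) (H : Subgroup (ZMod N)ˣ) (k : ℕ)
    (hk : ∀ u : (ZMod r)ˣ, ihtIota N r hrN hr2 u * (ihtIota N r hrN hr2 u ^ (2 * k))⁻¹ ∈ H)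
    (hH : ∀ x : (ZMod N)ˣ, ZMod.unitsMap hrN x = 1 → x ∈ H) :
    IhtHyp N r H k (Gamma0 (N * r)) where
  dvd := hrN
  not_sq := hr2
  sqrt := hk
  le := le_refl _
  cong := iht_Gamma_le_Gamma0 _
  tgt := by
    intro δ hδ
    have hδN : δ ∈ Gamma0 N := by
      rw [tdm_mem_Gamma0_iff] at hδ ⊢
      exact Dvd.dvd.trans (by push_cast; exact Dvd.intro _ rfl) hδ
    have hδr : δ ∈ Gamma0 r := by
      rw [tdm_mem_Gamma0_iff] at hδ ⊢
      exact Dvd.dvd.trans (by push_cast; exact Dvd.intro_left _ rfl) hδ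
    obtain ⟨y, hy⟩ := iht_exists_unit_dshD hδN
    obtain ⟨x, hx⟩ := iht_exists_unit_dshD hδr
    refine ⟨y * (ihtIota N r hrN hr2 x)⁻¹, hH _ ?_, x, hx, ?_⟩
    · rw [map_mul, map_inv, ihtIota_mod_r]
      have : ZMod.unitsMap hrN y = x := by
        apply Units.ext
        rw [ZMod.unitsMap_val, hy, hx, iht_dshD_cast hrN]
      rw [this, mul_inv_cancel]
    · rw [inv_mul_cancel_right, hy]

/-- target `Γ_{H'}(N r)` -/
theorem iht_hyp_GammaH [NeZero (N * r)] (hrN : r ∣ N) (hr2 : ¬ r * r ∣ N)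
    (H : Subgroup (ZMod N)ˣ) (k : ℕ) (H' : Subgroup (ZMod (N * r))ˣ)
    (hk : ∀ u : (ZMod r)ˣ, ihtIota N r hrN hr2 u * (ihtIota N r hrN hr2 u ^ (2 * k))⁻¹ ∈ H)
    (hH' : ∀ x ∈ H', ZMod.unitsMap (Dvd.intro r rfl) x
      * (ihtIota N r hrN hr2 (ZMod.unitsMap (Dvd.intro_left N rfl) x))⁻¹ ∈ H) :
    IhtHyp N r H k (ihfGammaH (N * r) H') where
  dvd := hrN
  not_sq := hr2
  sqrt := hk
  le := ihfGammaH_le_Gamma0
  cong := iht_Gamma_le_GammaH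
  tgt := by
    rintro δ ⟨hδ, x', hx', hd⟩
    refine ⟨_, hH' x' hx', ZMod.unitsMap (Dvd.intro_left N rfl) x', ?_, ?_⟩
    · rw [ZMod.unitsMap_val, ← hd, iht_dshD_cast (Dvd.intro_left N rfl)]
    · rw [inv_mul_cancel_right, ZMod.unitsMap_val, ← hd, iht_dshD_cast (Dvd.intro r rfl)]

end Targets

end Fermat.Agent.Ihara
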