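/-
IHARA package [TWIST] (Tw5′) (helper7), file 1: **transfer of the relations of a Hecke algebra along
an intertwining operator which is injective on the eigenspaces of a finite abelian group**
(abstract part, Mathlib only).

* `ihtr_lift_intertwine` : an additive map `f : V → V'` with `x' i ∘ f = f ∘ x i` intertwines all
  non-commutative polynomials: `P(x') ∘ f = f ∘ P(x)` (`P : FreeAlgebra ℤ ι`);
* `ihtr_sum_char`        : orthogonality `∑_ψ ψ g = 0` (`g ≠ 1`), `= |G|` (`g = 1`) for the characters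
  of a finite abelian group with values in a field with enough roots of unity;
* `ihtr_eq_zero_of_eigen`: a linear map which kills all the eigenvectors of the group action is `0`;
* `ihtr_transfer`        : `P(x') = 0 ⟹ P(x) = 0`;
* `ihtr_exists_ringHom`  : a family satisfying all the relations of a generating family of a
  commutative ring `B` defines a ring homomorphism from `B`.
-/
import Mathlib

set_option autoImplicit false
set_option linter.unusedSectionVars false
set_option linter.unusedVariables false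
set_option linter.style.haveILetI false

namespace Fermat.Agent.Ihara

open Finset

section Intertwine

variable {R R' : Type*} [CommRing R] [CommRing R'] {V V' : Type*} [AddCommGroup V] [Module R V]
  [AddCommGroup V'] [Module R' V'] {ι : Type*}

/-- an additive map intertwining the generators intertwines all non-commutative polynomials -/
theorem ihtr_lift_intertwine (x : ι → Module.End R V) (x' : ι → Module.End R' V') (f : V →+ V')
    (h : ∀ i v, x' i (f v) = f (x i v)) (P : FreeAlgebra ℤ ι) (v : V) :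
    FreeAlgebra.lift ℤ x' P (f v) = f (FreeAlgebra.lift ℤ x P v) := by
  induction P generalizing v with
  | grade0 r =>
    rw [AlgHom.commutes, AlgHom.commutes, algebraMap_int_eq, eq_intCast, eq_intCast,
      Module.End.intCast_apply, Module.End.intCast_apply, map_zsmul]
  | grade1 i => rw [FreeAlgebra.lift_ι_apply, FreeAlgebra.lift_ι_apply, h]
  | mul a b ha hb =>
    rw [map_mul, map_mul, Module.End.mul_apply, Module.End.mul_apply, hb, ha]
  | add a b ha hb =>
    rw [map_add, map_add, LinearMap.add_apply, LinearMap.add_apply, ha, hb, map_add]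

end Intertwine

section Eigen

variable {G : Type*} [CommGroup G] [Finite G] {K : Type*} [Field K]
  [HasEnoughRootsOfUnity K (Monoid.exponent G)]

theorem ihtr_finite_char : Finite (G →* Kˣ) :=
  Finite.of_equiv G
    (CommGroup.monoidHom_mulEquiv_of_hasEnoughRootsOfUnity G K).some.symm.toEquiv

/-- orthogonality of the characters, `g ≠ 1` -/
theorem ihtr_sum_char [Fintype (G →* Kˣ)] {g : G} (hg : g ≠ 1) :
    ∑ ψ : G →* Kˣ, ((ψ g : Kˣ) : K) = 0 := by
  obtain ⟨ψ₀, hψ₀⟩ := CommGroup.exists_apply_ne_one_of_hasEnoughRootsOfUnity G K hg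
  have h1 : ∑ ψ : G →* Kˣ, ((ψ g : Kˣ) : K)
      = ((ψ₀ g : Kˣ) : K) * ∑ ψ : G →* Kˣ, ((ψ g : Kˣ) : K) := by
    rw [Finset.mul_sum, ← Equiv.sum_comp (Equiv.mulLeft ψ₀) fun ψ => ((ψ g : Kˣ) : K)]
    refine Finset.sum_congr rfl fun ψ _ => ?_
    rw [Equiv.coe_mulLeft, MonoidHom.mul_apply, Units.val_mul]
  have h2 : (((ψ₀ g : Kˣ) : K) - 1) * ∑ ψ : G →* Kˣ, ((ψ g : Kˣ) : K) = 0 := by
    rw [sub_mul, one_mul, ← h1, sub_self]
  rcases mul_eq_zero.mp h2 with h3 | h3
  · exfalso
    apply hψ₀
    apply Units.ext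
    rw [Units.val_one]
    exact sub_eq_zero.mp h3
  · exact h3

/-- orthogonality of the characters, `g = 1` -/
theorem ihtr_sum_char_one [Fintype (G →* Kˣ)] :
    ∑ ψ : G →* Kˣ, (((ψ 1 : Kˣ)) : K) = (Nat.card G : K) := by
  have : ∀ ψ : G →* Kˣ, (((ψ 1 : Kˣ)) : K) = 1 := fun ψ => by rw [map_one, Units.val_one]
  rw [Finset.sum_congr rfl fun ψ _ => this ψ, Finset.sum_const, Finset.card_univ,
    ← Nat.card_eq_fintype_card, CommGroup.card_monoidHom_of_hasEnoughRootsOfUnity, nsmul_eq_mul,
    mul_one]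

/-- a linear map which kills all the eigenvectors of the action of a finite abelian group (of
order invertible in `K`, `K` with enough roots of unity) is zero -/
theorem ihtr_eq_zero_of_eigen {V W : Type*} [AddCommGroup V] [Module K V] [AddCommGroup W]
    [Module K W] (hG : (Nat.card G : K) ≠ 0) (ρ : G →* Module.End K V) (t : V →ₗ[K] W)
    (h : ∀ (ψ : G →* Kˣ) (c : V), (∀ g, ρ g c = ((ψ g : Kˣ) : K) • c) → t c = 0) : t = 0 := by
  classical
  haveI : Fintype G := Fintype.ofFinite G
  haveI : Finite (G →* Kˣ) := ihtr_finite_char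
  haveI : Fintype (G →* Kˣ) := Fintype.ofFinite _
  refine LinearMap.ext fun c => ?_
  rw [LinearMap.zero_apply]
  -- the components
  set e : (G →* Kˣ) → V := fun ψ => ∑ g : G, (((ψ g)⁻¹ : Kˣ) : K) • ρ g c with he
  have heig : ∀ ψ h, ρ h (e ψ) = ((ψ h : Kˣ) : K) • e ψ := by
    intro ψ h
    simp only [he, map_sum, map_smul, Finset.smul_sum, smul_smul]
    rw [← Equiv.sum_comp (Equiv.mulLeft h)
      fun g => (((ψ h : Kˣ) : K) * (((ψ g)⁻¹ : Kˣ) : K)) • ρ g c]
    refine Finset.sum_congr rfl fun g _ => ?_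
    rw [Equiv.coe_mulLeft, map_mul ρ, Module.End.mul_apply]
    congr 1
    rw [map_mul, mul_inv, ← Units.val_mul, mul_inv_cancel_left]
  have hte : ∀ ψ, t (e ψ) = 0 := fun ψ => h ψ (e ψ) (heig ψ)
  have hsum : ∑ ψ : G →* Kˣ, e ψ = (Nat.card G : K) • c := by
    simp only [he]
    rw [Finset.sum_comm]
    simp only [← Finset.sum_smul]
    rw [← Finset.add_sum_erase univ _ (mem_univ (1 : G))]
    have h1 : ∑ ψ : G →* Kˣ, ((((ψ 1)⁻¹ : Kˣ)) : K) = (Nat.card G : K) := by
      rw [← ihtr_sum_char_one (G := G) (K := K)]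
      refine Finset.sum_congr rfl fun ψ _ => ?_
      rw [map_one, inv_one]
    rw [h1, map_one, Module.End.one_apply]
    have h2 : ∑ g ∈ univ.erase (1 : G), (∑ ψ : G →* Kˣ, ((((ψ g)⁻¹ : Kˣ)) : K)) • ρ g c = 0 := by
      refine Finset.sum_eq_zero fun g hg => ?_
      have hg1 : g⁻¹ ≠ 1 := inv_ne_one.mpr (Finset.ne_of_mem_erase hg)
      have h3 : ∑ ψ : G →* Kˣ, ((((ψ g)⁻¹ : Kˣ)) : K) = 0 := by
        rw [← ihtr_sum_char (G := G) (K := K) hg1]
        refine Finset.sum_congr rfl fun ψ _ => ?_
        rw [map_inv]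
      rw [h3, zero_smul]
    rw [h2, add_zero]
  have h4 : (Nat.card G : K) • t c = 0 := by
    rw [← map_smul, ← hsum, map_sum]
    exact Finset.sum_eq_zero fun ψ _ => hte ψ
  exact (smul_eq_zero.mp h4).resolve_left hG

/-- **transfer of relations**: if `f` intertwines the families `x`, `x'`, the `x i` commute with
the group action and `f` is injective on the eigenvectors of the group, then every relation between
the `x' i` holds for the `x i`. -/
theorem ihtr_transfer {V V' : Type*} [AddCommGroup V] [Module K V] [AddCommGroup V'] [Module K V']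
    (hG : (Nat.card G : K) ≠ 0) (ρ : G →* Module.End K V) {ι : Type*}
    (x : ι → Module.End K V) (x' : ι → Module.End K V') (f : V →ₗ[K] V')
    (hcomm : ∀ i g v, x i (ρ g v) = ρ g (x i v))
    (hint : ∀ i v, x' i (f v) = f (x i v))
    (hinj : ∀ (ψ : G →* Kˣ) (c : V), (∀ g, ρ g c = ((ψ g : Kˣ) : K) • c) → f c = 0 → c = 0)
    (P : FreeAlgebra ℤ ι) (hP : FreeAlgebra.lift ℤ x' P = 0) : FreeAlgebra.lift ℤ x P = 0 := by
  refine ihtr_eq_zero_of_eigen hG ρ _ fun ψ c hc => ?_
  refine hinj ψ _ (fun g => ?_) ?_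
  · have h1 := ihtr_lift_intertwine x x (ρ g).toAddMonoidHom (fun i v => hcomm i g v) P c
    have h2 : ρ g (FreeAlgebra.lift ℤ x P c) = FreeAlgebra.lift ℤ x P (ρ g c) := h1.symm
    rw [h2, hc g, map_smul]
  · have h1 := ihtr_lift_intertwine x x' f.toAddMonoidHom (fun i v => hint i v) P c
    have h2 : f (FreeAlgebra.lift ℤ x P c) = FreeAlgebra.lift ℤ x' P (f c) := h1.symm
    rw [h2, hP, LinearMap.zero_apply]

end Eigen

section Presentation

/-- a family `x` in a ring `E` satisfying all the (non-commutative polynomial) relations of a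
generating family of a commutative ring `B` defines a ring homomorphism `B → E` -/
theorem ihtr_exists_ringHom {B : Type*} [CommRing B] {E : Type*} [Ring E] {ι : Type*}
    (gens : ι → B) (hgen : Algebra.adjoin ℤ (Set.range gens) = ⊤) (x : ι → E)
    (hx : ∀ P : FreeAlgebra ℤ ι, FreeAlgebra.lift ℤ gens P = 0 → FreeAlgebra.lift ℤ x P = 0) :
    ∃ a : B →+* E, ∀ i, a (gens i) = x i := by
  let α : FreeAlgebra ℤ ι →+* B := (FreeAlgebra.lift ℤ gens : FreeAlgebra ℤ ι →ₐ[ℤ] B).toRingHom
  let β : FreeAlgebra ℤ ι →+* E := (FreeAlgebra.lift ℤ x : FreeAlgebra ℤ ι →ₐ[ℤ] E).toRingHom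
  have hα : Function.Surjective α := by
    intro b
    have hb : b ∈ Algebra.adjoin ℤ (Set.range gens) := by rw [hgen]; exact Algebra.mem_top
    rw [Algebra.adjoin_range_eq_range_freeAlgebra_lift] at hb
    exact hb
  have hk : RingHom.ker α ≤ RingHom.ker β := fun P hP => by
    rw [RingHom.mem_ker] at hP ⊢
    exact hx P hP
  refine ⟨α.liftOfSurjective hα ⟨β, hk⟩, fun i => ?_⟩
  have h1 : α (FreeAlgebra.ι ℤ i) = gens i := FreeAlgebra.lift_ι_apply _ _
  have h2 : β (FreeAlgebra.ι ℤ i) = x i := FreeAlgebra.lift_ι_apply _ _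
  rw [← h1, ← h2]
  exact RingHom.liftOfRightInverse_comp_apply α _ (Function.rightInverse_surjInv hα) ⟨β, hk⟩ _

end Presentation

end Fermat.Agent.Ihara
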