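/-
IHARA package [TWIST] (Tw5′) (helper7), file 2: **the Hecke algebra of level `Γ₀(N')` acts on the Betti
module of `Γ_H(N)` through the twisted operators `T♭_ℓ = T_ℓ ∘ ⟨z ℓ⟩`** — given a twisting operator
`Tw : Hom_par(Γ_H(N), K) → Hom_par(Γ₀(N'), K)` over a field `K ⊇ 𝒪` with enough roots of unity which
intertwines `T♭_ℓ` with `T_ℓ` (Tw1) and is injective on the eigenspaces of the diamond operators (Tw4).

* `ihtr_T_D_comm` : `T_ℓ` commutes with the diamond operators on `Hom(Γ_H(N), A)` (`A` torsion-free);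
* `ihtrCoe`       : coefficient change `Hom_par(Γ, A) → Hom_par(Γ, B)`;
* `ihtrDiam`      : the diamond action as a monoid homomorphism;
* `ihtrOp`        : `T♭_ℓ = T_ℓ ∘ ⟨z ℓ⟩`;
* `ihtr_exists_hom` : the ring homomorphism `heckeAlgebra N' 2 S → End_𝒪 Hom_par(Γ_H(N), 𝒪)`,
                      `T_ℓ ↦ T♭_ℓ`.
-/
import Mathlib
import Fermat.Agent.Lib.Ihara.Tw.Defs
import Fermat.Agent.Lib.Ihara.Tw.Transfer
import Fermat.Agent.Lib.Ihara.H4.HeckeAct

set_option autoImplicit false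
set_option linter.unusedSectionVars false
set_option linter.unusedVariables false
set_option linter.style.haveILetI false

namespace Fermat.Agent.Ihara

open Matrix MatrixGroups CongruenceSubgroup ModularCurve ModularCurve.Period
open Fermat.Agent.DS Fermat.Agent.T1 Fermat.Agent.T1G Fermat.Agent.T2

section Comm

variable {N : ℕ} [NeZero N] (H : Subgroup (ZMod N)ˣ)

/-- `T_ℓ` commutes with the diamond operators on `Hom(Γ_H(N), A)`, `A` torsion-free -/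
theorem ihtr_T_D_comm {l : ℕ} (hl : l.Prime) (hlN : ¬ l ∣ N) (d : (ZMod N)ˣ) {A : Type*}
    [AddCommGroup A] [NoZeroSMulDivisors ℕ A] (φ : Additive (ihfGammaH N H) →+ A) :
    (ihfSysT N H hl hlN).hom A ((ihfSysD N H d).hom A φ)
      = (ihfSysD N H d).hom A ((ihfSysT N H hl hlN).hom A φ) := by
  have hN0 : N ≠ 0 := NeZero.ne N
  have hK : Gamma N ≤ ihfGammaH N H := iht_Gamma_le_GammaH
  have hT : IhtLoc (A := A) ((ihfSysT N H hl hlN).hom A) (ihfSysT N H hl hlN).rep :=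
    IhtLoc.of_sys _ hN0 hK
  have hD : IhtLoc (A := A) ((ihfSysD N H d).hom A) (ihfSysD N H d).rep :=
    IhtLoc.of_sys _ hN0 hK
  have h1 := IhtLoc.comp hD hT
  have h2 := IhtLoc.comp hT hD
  -- the system on `Γ₀(N)` gives the permutation
  set g : SL(2, ℤ) := dshGammaU N d with hg
  have hgmem : g ∈ ihfGammaH N (⊤ : Subgroup (ZMod N)ˣ) :=
    ⟨dshGammaU_mem N d, d, Subgroup.mem_top _, dshD_dshGammaU N d⟩
  set T0 := ihfSysT N (⊤ : Subgroup (ZMod N)ˣ) hl hlN with hT0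
  set σ : Equiv.Perm (Option (Fin l)) := T0.sigma ⟨g, hgmem⟩ with hσ
  let e : Unit × Option (Fin l) ≃ Option (Fin l) × Unit :=
    { toFun := fun p => (σ.symm p.2, ())
      invFun := fun p => ((), σ p.1)
      left_inv := fun p => by simp
      right_inv := fun p => by simp }
  refine IhtLoc.ext (fun p => ?_) h1 h2 e (fun p => ?_) φ
  · rw [Matrix.det_mul]
    exact mul_ne_zero ((ihfSysD N H d).det_ne_zero _) ((ihfSysT N H hl hlN).det_ne_zero _)
  · -- `γ_d ρ_i = γ ρ_{i'} γ_d`, `i' = σ⁻¹ i`, `γ = γ_d ε⁻¹ ∈ Γ₁(N)`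
    obtain ⟨u, i⟩ := p
    set i' := σ.symm i with hi'
    have hrm := T0.rep_mul ⟨g, hgmem⟩ i'
    have hσi : T0.sigma ⟨g, hgmem⟩ i' = i := by rw [← hσ, hi', Equiv.apply_symm_apply]
    rw [hσi] at hrm
    set ε : SL(2, ℤ) := ((T0.eps ⟨g, hgmem⟩ i' : ihfGammaH N (⊤ : Subgroup (ZMod N)ˣ)) : SL(2, ℤ))
      with hε
    have hεmem : ε ∈ Gamma0 N := (T0.eps ⟨g, hgmem⟩ i').2.1
    have hεd : dshD N ε = (d : ZMod N) := by
      rw [hε, hT0, ihfSysT_dshD_eps]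
      exact dshD_dshGammaU N d
    have hγ : g * ε⁻¹ ∈ ihfGammaH N H := by
      apply ihfGamma1_le_GammaH
      exact dsh_mul_inv_mem_Gamma1 (dshGammaU_mem N d) hεmem (by rw [dshD_dshGammaU, hεd])
    refine ⟨⟨g * ε⁻¹, hγ⟩, 1, 1, one_ne_zero, ?_⟩
    rw [one_smul, one_smul]
    show (g : Matrix (Fin 2) (Fin 2) ℤ) * tgmRepT N hl hlN i
      = ((g * ε⁻¹ : SL(2, ℤ)) : Matrix (Fin 2) (Fin 2) ℤ)
        * (tgmRepT N hl hlN i' * (g : Matrix (Fin 2) (Fin 2) ℤ))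
    have hrm' : tgmRepT N hl hlN i' * (g : Matrix (Fin 2) (Fin 2) ℤ)
        = (ε : Matrix (Fin 2) (Fin 2) ℤ) * tgmRepT N hl hlN i := hrm
    rw [hrm', tgm_SL_mul_assoc, tgm_SL_inv_mul_cancel]

end Comm

section Coe

variable (Γ : Subgroup SL(2, ℤ)) (R R' : Type*) [Semiring R] [Semiring R'] {A B : Type*}
  [AddCommGroup A] [Module R A] [AddCommGroup B] [Module R' B]

/-- coefficient change on the parabolic homomorphisms -/
def ihtrCoe (g : A →+ B) : ↥(parabolicHoms R Γ A) →+ ↥(parabolicHoms R' Γ B) where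
  toFun φ := ⟨g.comp φ.1, fun γ hγ => by
    show g (φ.1 (Additive.ofMul γ)) = 0
    rw [φ.2 γ hγ, map_zero]⟩
  map_zero' := by
    apply Subtype.ext
    show g.comp (0 : Additive Γ →+ A) = 0
    exact AddMonoidHom.comp_zero g
  map_add' φ ψ := by
    apply Subtype.ext
    show g.comp (φ.1 + ψ.1) = g.comp φ.1 + g.comp ψ.1
    exact AddMonoidHom.comp_add g φ.1 ψ.1

theorem ihtrCoe_coe (g : A →+ B) (φ : ↥(parabolicHoms R Γ A)) :
    ((ihtrCoe Γ R R' g φ : ↥(parabolicHoms R' Γ B)) : Additive Γ →+ B) = g.comp φ.1 := rfl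

theorem ihtrCoe_injective (g : A →+ B) (hg : Function.Injective g) :
    Function.Injective (ihtrCoe Γ R R' g) := by
  intro φ ψ h
  apply Subtype.ext
  refine AddMonoidHom.ext fun γ => hg ?_
  have := congrArg (fun x : ↥(parabolicHoms R' Γ B) => (x : Additive Γ →+ B) γ) h
  exact this

/-- coefficient change commutes with the operators of coset systems -/
theorem ihtrCoe_homPar {ι : Type} [Fintype ι] (S : tdmCosetSys Γ ι) (g : A →+ B)
    (φ : ↥(parabolicHoms R Γ A)) :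
    S.homPar R' B (ihtrCoe Γ R R' g φ) = ihtrCoe Γ R R' g (S.homPar R A φ) := by
  apply Subtype.ext
  show S.hom B (g.comp φ.1) = g.comp (S.hom A φ.1)
  exact S.hom_comp g φ.1

end Coe

section Inst

variable {N : ℕ} [NeZero N] (H : Subgroup (ZMod N)ˣ)

/-- the diamond action as a monoid homomorphism -/
noncomputable def ihtrDiam (R : Type*) [CommRing R] (A : Type*) [AddCommGroup A] [Module R A] :
    (ZMod N)ˣ →* Module.End R ↥(parabolicHoms R (ihfGammaH N H) A) where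
  toFun d := (ihfSysD N H d).homPar R A
  map_one' := LinearMap.ext fun φ => Subtype.ext (ihfSysD_hom_one N H φ.1)
  map_mul' d d' := LinearMap.ext fun φ => Subtype.ext (ihfSysD_hom_mul N H d d' φ.1)

theorem ihtrDiam_apply (R : Type*) [CommRing R] (A : Type*) [AddCommGroup A] [Module R A]
    (d : (ZMod N)ˣ) : ihtrDiam H R A d = (ihfSysD N H d).homPar R A := rfl

/-- the twisted Hecke operator `T♭_ℓ = T_ℓ ∘ ⟨z ℓ⟩` (`ℓ` prime, `ℓ ∤ N`; `0` otherwise) -/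
noncomputable def ihtrOp (R : Type*) [CommRing R] (A : Type*) [AddCommGroup A] [Module R A]
    (z : ℕ → (ZMod N)ˣ) (l : ℕ) : Module.End R ↥(parabolicHoms R (ihfGammaH N H) A) := by
  classical
  exact if h : l.Prime ∧ ¬ l ∣ N then
    (ihfSysT N H h.1 h.2).homPar R A ∘ₗ (ihfSysD N H (z l)).homPar R A else 0

theorem ihtrOp_of (R : Type*) [CommRing R] (A : Type*) [AddCommGroup A] [Module R A]
    (z : ℕ → (ZMod N)ˣ) {l : ℕ} (hl : l.Prime) (hlN : ¬ l ∣ N) :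
    ihtrOp H R A z l = (ihfSysT N H hl hlN).homPar R A ∘ₗ (ihfSysD N H (z l)).homPar R A := by
  unfold ihtrOp
  rw [dif_pos ⟨hl, hlN⟩]

/-- **the Hecke algebra of level `Γ₀(N')` away from `S` acts on `Hom_par(Γ_H(N), 𝒪)` through the
twisted operators** -/
theorem ihtr_exists_hom (𝒪 : Type*) [CommRing 𝒪] [IsDomain 𝒪] [CharZero 𝒪] (K : Type*) [Field K]
    [CharZero K] [Algebra 𝒪 K] [FaithfulSMul 𝒪 K]
    [HasEnoughRootsOfUnity K (Monoid.exponent (ZMod N)ˣ)]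
    {N' : ℕ} [NeZero N'] (hNN' : N ∣ N') (S : Set ℕ) (hS : ∀ l : ℕ, l.Prime → l ∣ N' → l ∈ S)
    (z : ℕ → (ZMod N)ˣ)
    (Tw : ↥(parabolicHoms K (ihfGammaH N H) K) →ₗ[K] ↥(parabolicHoms K (Gamma0 N') K))
    (hTw1 : ∀ (l : ℕ) (hl : l.Prime) (hlN' : ¬ l ∣ N') (hlN : ¬ l ∣ N)
      (c : ↥(parabolicHoms K (ihfGammaH N H) K)),
      (tdmSysT N' l hl hlN').homPar K K (Tw c)
        = Tw ((ihfSysT N H hl hlN).homPar K K ((ihfSysD N H (z l)).homPar K K c)))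
    (hTw4 : ∀ (ψ : (ZMod N)ˣ →* K) (c : ↥(parabolicHoms K (ihfGammaH N H) K)),
      (∀ x : (ZMod N)ˣ, (ihfSysD N H x).homPar K K c = ψ x • c) → Tw c = 0 → c = 0) :
    ∃ a : CuspForm.heckeAlgebra N' 2 S →+* Module.End 𝒪 ↥(parabolicHoms 𝒪 (ihfGammaH N H) 𝒪),
      ∀ (l : ℕ) (hl : l.Prime) (hlN' : ¬ l ∣ N') (hlS : l ∉ S),
        a (CuspForm.heckeAlgebra.T hl hlN' hlS) = ihtrOp H 𝒪 𝒪 z l := by
  classical
  have hι' : ∀ l : {l : ℕ // l.Prime ∧ l ∉ S}, ¬ l.1 ∣ N' := fun l h => l.2.2 (hS l.1 l.2.1 h)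
  have hι : ∀ l : {l : ℕ // l.Prime ∧ l ∉ S}, ¬ l.1 ∣ N := fun l h => hι' l (h.trans hNN')
  have hgens : ∀ l : {l : ℕ // l.Prime ∧ l ∉ S},
      ih4Gen N' S l = CuspForm.heckeAlgebra.T l.2.1 (hι' l) l.2.2 := fun l => by
    unfold ih4Gen
    rw [dif_neg (hι' l)]
  haveI : NoZeroSMulDivisors ℕ K := inferInstance
  -- the three families
  set x₀ : {l : ℕ // l.Prime ∧ l ∉ S} → Module.End 𝒪 ↥(parabolicHoms 𝒪 (ihfGammaH N H) 𝒪) :=
    fun l => ihtrOp H 𝒪 𝒪 z l.1 with hx₀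
  set x : {l : ℕ // l.Prime ∧ l ∉ S} → Module.End K ↥(parabolicHoms K (ihfGammaH N H) K) :=
    fun l => ihtrOp H K K z l.1 with hx
  set x' : {l : ℕ // l.Prime ∧ l ∉ S} → Module.End K (Ih4H K K N') :=
    fun l => ih4Op K N' l.1 with hx'
  set j : ↥(parabolicHoms 𝒪 (ihfGammaH N H) 𝒪) →+ ↥(parabolicHoms K (ihfGammaH N H) K) :=
    ihtrCoe (ihfGammaH N H) 𝒪 K (algebraMap 𝒪 K).toAddMonoidHom with hjdef
  have hj : Function.Injective j :=
    ihtrCoe_injective _ _ _ _ (FaithfulSMul.algebraMap_injective 𝒪 K)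
  have hjx : ∀ l v, x l (j v) = j (x₀ l v) := by
    intro l v
    simp only [hx, hx₀]
    rw [ihtrOp_of H K K z l.2.1 (hι l), ihtrOp_of H 𝒪 𝒪 z l.2.1 (hι l), LinearMap.comp_apply,
      LinearMap.comp_apply, hjdef, ihtrCoe_homPar, ihtrCoe_homPar]
  -- the relations at level `Γ₀(N')`
  have hrel : ∀ P : FreeAlgebra ℤ {l : ℕ // l.Prime ∧ l ∉ S},
      FreeAlgebra.lift ℤ (ih4Gen N' S) P = 0 → FreeAlgebra.lift ℤ x' P = 0 := by
    intro P hP
    have h1 : ∀ Q : FreeAlgebra ℤ {l : ℕ // l.Prime ∧ l ∉ S},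
        ih4Hecke K N' S (FreeAlgebra.lift ℤ (ih4Gen N' S) Q) = FreeAlgebra.lift ℤ x' Q := by
      intro Q
      induction Q with
      | grade0 r =>
        simp only [eq_intCast, map_intCast]
      | grade1 l =>
        rw [FreeAlgebra.lift_ι_apply, FreeAlgebra.lift_ι_apply]
        exact ih4Hecke_gen K N' S l
      | mul a b ha hb => rw [map_mul, map_mul, map_mul, ha, hb]
      | add a b ha hb => rw [map_add, map_add, map_add, ha, hb]
    rw [← h1, hP, map_zero]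
  -- commutation with the diamonds
  have hcomm : ∀ l g v, x l (ihtrDiam H K K g v) = ihtrDiam H K K g (x l v) := by
    intro l g v
    simp only [hx]
    rw [ihtrOp_of H K K z l.2.1 (hι l), LinearMap.comp_apply, LinearMap.comp_apply, ihtrDiam_apply]
    apply Subtype.ext
    show (ihfSysT N H l.2.1 (hι l)).hom K ((ihfSysD N H (z l.1)).hom K ((ihfSysD N H g).hom K v.1))
      = (ihfSysD N H g).hom K ((ihfSysT N H l.2.1 (hι l)).hom K ((ihfSysD N H (z l.1)).hom K v.1))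
    rw [← ihfSysD_hom_mul, mul_comm, ihfSysD_hom_mul, ihtr_T_D_comm]
  have hint : ∀ l v, x' l (Tw v) = Tw (x l v) := by
    intro l v
    simp only [hx, hx']
    rw [ihtrOp_of H K K z l.2.1 (hι l), ih4Op_of_not_dvd K N' l.2.1 (hι' l)]
    exact hTw1 l.1 l.2.1 (hι' l) (hι l) v
  have hinj : ∀ (ψ : (ZMod N)ˣ →* Kˣ) (c : ↥(parabolicHoms K (ihfGammaH N H) K)),
      (∀ g, ihtrDiam H K K g c = ((ψ g : Kˣ) : K) • c) → Tw c = 0 → c = 0 :=
    fun ψ c hc h => hTw4 ((Units.coeHom K).comp ψ) c hc h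
  have hG : ((Nat.card (ZMod N)ˣ : ℕ) : K) ≠ 0 := Nat.cast_ne_zero.mpr Nat.card_pos.ne'
  have hx₀rel : ∀ P : FreeAlgebra ℤ {l : ℕ // l.Prime ∧ l ∉ S},
      FreeAlgebra.lift ℤ (ih4Gen N' S) P = 0 → FreeAlgebra.lift ℤ x₀ P = 0 := by
    intro P hP
    have h1 : FreeAlgebra.lift ℤ x P = 0 :=
      ihtr_transfer hG (ihtrDiam H K K) x x' Tw hcomm hint hinj P (hrel P hP)
    refine LinearMap.ext fun v => hj ?_
    have h2 := ihtr_lift_intertwine x₀ x j hjx P v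
    rw [LinearMap.zero_apply, map_zero, ← h2, h1]
    rfl
  obtain ⟨a, ha⟩ := ihtr_exists_ringHom (ih4Gen N' S) (ih4Gen_adjoin N' S) x₀ hx₀rel
  refine ⟨a, fun l hl hlN' hlS => ?_⟩
  have := ha ⟨l, hl, hlS⟩
  rw [hgens ⟨l, hl, hlS⟩] at this
  exact this

end Inst

section Inst2

universe u

variable {N : ℕ} [NeZero N] (H : Subgroup (ZMod N)ˣ)

/-- the same with the auxiliary field chosen internally (an algebraic closure of the fraction
field of `𝒪`): it suffices to have the twisting operator over every field of characteristic zero -/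
theorem ihtr_exists_hom' (𝒪 : Type u) [CommRing 𝒪] [IsDomain 𝒪] [CharZero 𝒪]
    {N' : ℕ} [NeZero N'] (hNN' : N ∣ N') (S : Set ℕ) (hS : ∀ l : ℕ, l.Prime → l ∣ N' → l ∈ S)
    (z : ℕ → (ZMod N)ˣ)
    (hTw : ∀ (K : Type u) [Field K] [CharZero K],
      ∃ Tw : ↥(parabolicHoms K (ihfGammaH N H) K) →ₗ[K] ↥(parabolicHoms K (Gamma0 N') K),
        (∀ (l : ℕ) (hl : l.Prime) (hlN' : ¬ l ∣ N') (hlN : ¬ l ∣ N)
          (c : ↥(parabolicHoms K (ihfGammaH N H) K)),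
          (tdmSysT N' l hl hlN').homPar K K (Tw c)
            = Tw ((ihfSysT N H hl hlN).homPar K K ((ihfSysD N H (z l)).homPar K K c))) ∧
        (∀ (ψ : (ZMod N)ˣ →* K) (c : ↥(parabolicHoms K (ihfGammaH N H) K)),
          (∀ x : (ZMod N)ˣ, (ihfSysD N H x).homPar K K c = ψ x • c) → Tw c = 0 → c = 0)) :
    ∃ a : CuspForm.heckeAlgebra N' 2 S →+* Module.End 𝒪 ↥(parabolicHoms 𝒪 (ihfGammaH N H) 𝒪),
      ∀ (l : ℕ) (hl : l.Prime) (hlN' : ¬ l ∣ N') (hlS : l ∉ S),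
        a (CuspForm.heckeAlgebra.T hl hlN' hlS) = ihtrOp H 𝒪 𝒪 z l := by
  let K := AlgebraicClosure (FractionRing 𝒪)
  have hinj : Function.Injective (algebraMap 𝒪 K) := by
    rw [IsScalarTower.algebraMap_eq 𝒪 (FractionRing 𝒪) K]
    exact (algebraMap (FractionRing 𝒪) K).injective.comp (IsFractionRing.injective 𝒪 _)
  haveI : FaithfulSMul 𝒪 K := (faithfulSMul_iff_algebraMap_injective 𝒪 K).mpr hinj
  haveI : CharZero K := charZero_of_injective_algebraMap hinj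
  haveI : NeZero ((Monoid.exponent (ZMod N)ˣ : ℕ) : K) :=
    ⟨Nat.cast_ne_zero.mpr Monoid.exponent_ne_zero_of_finite⟩
  obtain ⟨Tw, h1, h4⟩ := hTw K
  exact ihtr_exists_hom H 𝒪 K hNN' S hS z Tw h1 h4

end Inst2

end Fermat.Agent.Ihara
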