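/-
IHARA track, package [TWIST] (helper8), part 2: **commutation of the one-prime twist with the
diamond operators, `T_ℓ` and `U_q`** ((Tw1a), (Tw1b), (Tw1c) of `Lib/Ihara/Tw/Main.lean`), by the
local-operator machinery of `Lib/Ihara/Tw/Loc.lean`.
-/
import Mathlib
import Fermat.Agent.Lib.Ihara.Tw.Defs

set_option autoImplicit false
set_option linter.unusedSectionVars false
set_option linter.unusedVariables false
set_option linter.style.haveILetI false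

namespace Fermat.Agent.Ihara

open Matrix MatrixGroups CongruenceSubgroup ModularCurve ModularCurve.Period
open Fermat.Agent.DS Fermat.Agent.T1 Fermat.Agent.T1G Fermat.Agent.T2

/-! ### Translations, the shift on `Fin n` -/

/-- the translation `[[1, m], [0, 1]]` -/
def ihtT (m : ℤ) : SL(2, ℤ) := ⟨!![1, m; 0, 1], by rw [Matrix.det_fin_two_of]; ring⟩

theorem ihtT_coe (m : ℤ) : (ihtT m : Matrix (Fin 2) (Fin 2) ℤ) = !![1, m; 0, 1] := rfl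

theorem ihtT_mem_Gamma1 (N : ℕ) (m : ℤ) : ihtT m ∈ Gamma1 N := by
  rw [Gamma1_mem]
  simp [ihtT]

theorem ihtT_mem_Gamma0 (N : ℕ) (m : ℤ) : ihtT m ∈ Gamma0 N := Gamma1_in_Gamma0 N (ihtT_mem_Gamma1 N m)

theorem ihtT_dshD (N : ℕ) (m : ℤ) : dshD N (ihtT m) = 1 := by simp [dshD, ihtT]

/-- the index `((b + w) mod n)` -/
def ihtShift (n : ℕ) [NeZero n] (w : ℤ) (b : Fin n) : Fin n :=
  ⟨((((b : ℕ) : ℤ) + w) % (n : ℤ)).toNat, by
    have h0 : 0 ≤ (((b : ℕ) : ℤ) + w) % (n : ℤ) :=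
      Int.emod_nonneg _ (by exact_mod_cast NeZero.ne n)
    have hlt : (((b : ℕ) : ℤ) + w) % (n : ℤ) < n :=
      Int.emod_lt_of_pos _ (by exact_mod_cast Nat.pos_of_ne_zero (NeZero.ne n))
    omega⟩

theorem ihtShift_coe (n : ℕ) [NeZero n] (w : ℤ) (b : Fin n) :
    (((ihtShift n w b : Fin n) : ℕ) : ℤ) = (((b : ℕ) : ℤ) + w) % (n : ℤ) :=
  Int.toNat_of_nonneg (Int.emod_nonneg _ (by exact_mod_cast NeZero.ne n))

/-- `b + w = shift + n * m` -/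
theorem ihtShift_spec (n : ℕ) [NeZero n] (w : ℤ) (b : Fin n) :
    ((b : ℕ) : ℤ) + w = (((ihtShift n w b : Fin n) : ℕ) : ℤ) + (n : ℤ) * ((((b : ℕ) : ℤ) + w) / n) := by
  rw [ihtShift_coe]
  exact (Int.emod_add_mul_ediv _ _).symm

theorem ihtShift_injective (n : ℕ) [NeZero n] (w : ℤ) : Function.Injective (ihtShift n w) := by
  intro b b' h
  have h1 := ihtShift_spec n w b
  have h2 := ihtShift_spec n w b'
  rw [h] at h1
  refine tdm_fin_eq_of_emod b b' ((((b' : ℕ) : ℤ) + w) / n - (((b : ℕ) : ℤ) + w) / n) ?_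
  linear_combination h2 - h1

/-- `[[r, u], [0, r]] [[1, b], [0, n]] = T^m [[1, i], [0, n]] [[r, u₂], [0, r]]` when
`r w = u n - u₂`, `b + w = i + n m` -/
theorem iht_alpha_mul_aff (r n : ℕ) (u u₂ w b i m : ℤ) (hw : (r : ℤ) * w = u * n - u₂)
    (hb : b + w = i + n * m) :
    !![(r : ℤ), u; 0, (r : ℤ)] * !![1, b; 0, (n : ℤ)]
      = (ihtT m : Matrix (Fin 2) (Fin 2) ℤ) * (!![1, i; 0, (n : ℤ)] * !![(r : ℤ), u₂; 0, (r : ℤ)]) := by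
  rw [ihtT_coe]
  ext a c
  fin_cases a <;> fin_cases c
  · simp [Matrix.mul_apply, Fin.sum_univ_two]
  · simp [Matrix.mul_apply, Fin.sum_univ_two]
    linear_combination (-1 : ℤ) * hw + (r : ℤ) * hb
  · simp [Matrix.mul_apply, Fin.sum_univ_two]
  · simp [Matrix.mul_apply, Fin.sum_univ_two]
    ring

/-- `[[r, u₃], [0, r]] diag(n, 1) = T^m diag(n, 1) [[r, u₂], [0, r]]` when `u₃ = n u₂ + m r` -/
theorem iht_alpha_mul_diag (r n : ℕ) (u₃ u₂ m : ℤ) (h : u₃ = n * u₂ + m * r) :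
    !![(r : ℤ), u₃; 0, (r : ℤ)] * !![(n : ℤ), 0; 0, 1]
      = (ihtT m : Matrix (Fin 2) (Fin 2) ℤ) * (!![(n : ℤ), 0; 0, 1] * !![(r : ℤ), u₂; 0, (r : ℤ)]) := by
  rw [ihtT_coe]
  ext a c
  fin_cases a <;> fin_cases c
  · simp [Matrix.mul_apply, Fin.sum_univ_two]
    ring
  · simp [Matrix.mul_apply, Fin.sum_univ_two]
    linear_combination h
  · simp [Matrix.mul_apply, Fin.sum_univ_two]
  · simp [Matrix.mul_apply, Fin.sum_univ_two]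

section Comm

variable {N r : ℕ} [NeZero N] [hr : Fact r.Prime] {H : Subgroup (ZMod N)ˣ} {k : ℕ}
  {Γ' : Subgroup SL(2, ℤ)} (hyp : IhtHyp N r H k Γ')
  (A : Type*) [AddCommGroup A]

theorem iht_Nr_ne_zero : N * r ≠ 0 := Nat.mul_ne_zero (NeZero.ne N) hr.out.ne_zero

/-- two elements of `Γ₀(N)` with the same lower right entry differ by an element of `Γ_H` -/
theorem iht_mul_inv_mem_GammaH {g₁ g₂ : SL(2, ℤ)} (h₁ : g₁ ∈ Gamma0 N) (h₂ : g₂ ∈ Gamma0 N)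
    (hd : dshD N g₁ = dshD N g₂) : g₁ * g₂⁻¹ ∈ ihfGammaH N H :=
  ihfGamma1_le_GammaH (dsh_mul_inv_mem_Gamma1 h₁ h₂ hd)

theorem ihtRep_det_ne_zero (u : (ZMod r)ˣ) : (ihtRep hyp u).det ≠ 0 := by
  rw [ihtRep_det]
  exact_mod_cast Nat.mul_ne_zero hr.out.ne_zero hr.out.ne_zero

/-- **(Tw1b)** on `Hom` -/
theorem iht_D_tw_hom [NoZeroSMulDivisors ℕ A] (C' : tdmCosetSys Γ' Unit) (g' : SL(2, ℤ))
    (hg' : g' ∈ Gamma0 (N * r)) (hC' : C'.rep () = (g' : Matrix (Fin 2) (Fin 2) ℤ))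
    (x : (ZMod N)ˣ) (xr : (ZMod r)ˣ) (hx : (x : ZMod N) = dshD N g') (hxr : (xr : ZMod r) = dshD r g')
    (c : Additive (ihfGammaH N H) →+ A) :
    C'.hom A ((ihtSys hyp).cor A c)
      = (ihtSys hyp).cor A ((ihfSysD N H
          (x * (ihtIota N r hyp.dvd hyp.not_sq xr ^ (2 * k))⁻¹)).hom A c) := by
  set z : (ZMod N)ˣ := x * (ihtIota N r hyp.dvd hyp.not_sq xr ^ (2 * k))⁻¹ with hz
  have h1 : IhtLoc (A := A) (fun c => C'.hom A ((ihtSys hyp).cor A c))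
      (fun p : (ZMod r)ˣ × Unit => ihtRep hyp p.1 * C'.rep p.2) :=
    IhtLoc.comp (ihtSys_loc hyp A) (IhtLoc.of_sys C' iht_Nr_ne_zero hyp.cong)
  have h2 : IhtLoc (A := A) (fun c => (ihtSys hyp).cor A ((ihfSysD N H z).hom A c))
      (fun p : Unit × (ZMod r)ˣ => (ihfSysD N H z).rep p.1 * ihtRep hyp p.2) :=
    IhtLoc.comp (IhtLoc.of_sys (ihfSysD N H z) (NeZero.ne N) iht_Gamma_le_GammaH)
      (ihtSys_loc hyp A)
  refine IhtLoc.ext (fun p => ?_) h1 h2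
    ((Equiv.prodComm _ _).trans (Equiv.prodCongr (Equiv.refl Unit) (Equiv.mulLeft (xr ^ 2))))
    (fun p => ?_) c
  · rw [Matrix.det_mul, hC', g'.2, mul_one]
    exact ihtRep_det_ne_zero hyp p.1
  · obtain ⟨u, ⟨⟩⟩ := p
    obtain ⟨ε, hε0, hεd, hε⟩ := ihtRep_mul_exists hyp g' hg' xr hxr x hx u
    have hγz : dshGammaU N z ∈ Gamma0 N := dshGammaU_mem N z
    refine ⟨⟨ε * (dshGammaU N z)⁻¹, iht_mul_inv_mem_GammaH hε0 hγz ?_⟩, 1, 1, one_ne_zero, ?_⟩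
    · rw [hεd, dshD_dshGammaU]
    · have hρ' : (ihfSysD N H z).rep () = (dshGammaU N z : Matrix (Fin 2) (Fin 2) ℤ) := rfl
      rw [one_smul, one_smul]
      simp only [Equiv.trans_apply, Equiv.prodComm_apply, Prod.swap_prod_mk, Equiv.prodCongr_apply,
        Prod.map_apply, Equiv.refl_apply, Equiv.coe_mulLeft]
      rw [hC', hε, hρ', Matrix.SpecialLinearGroup.coe_mul, Matrix.mul_assoc, iht_SL_inv_mul_cancel]

end Comm

section TC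

variable {N : ℕ} [NeZero N] (H : Subgroup (ZMod N)ˣ) (A : Type*) [AddCommGroup A]

/-- `T_ℓ` commutes with the conjugation by `g ∈ Γ₀(N)` on `Hom(Γ_H(N), A)` -/
theorem iht_T_C_comm [NoZeroSMulDivisors ℕ A] {ℓ : ℕ} (hℓ : ℓ.Prime) (hℓN : ¬ ℓ ∣ N)
    (g : SL(2, ℤ)) (hg : g ∈ Gamma0 N) (c : Additive (ihfGammaH N H) →+ A) :
    (ihfSysT N H hℓ hℓN).hom A ((ihfSysC N H g hg).hom A c)
      = (ihfSysC N H g hg).hom A ((ihfSysT N H hℓ hℓN).hom A c) := by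
  set T := ihfSysT N H hℓ hℓN with hT
  set C := ihfSysC N H g hg with hC
  set S₀ := ihfSysT N (⊤ : Subgroup (ZMod N)ˣ) hℓ hℓN with hS₀
  have hg₀ : g ∈ ihfGammaH N (⊤ : Subgroup (ZMod N)ˣ) := by rw [ihfGammaH_top]; exact hg
  set g₀ : ihfGammaH N (⊤ : Subgroup (ZMod N)ˣ) := ⟨g, hg₀⟩ with hg₀def
  have h1 : IhtLoc (A := A) (fun c => T.hom A (C.hom A c))
      (fun p : Unit × Option (Fin ℓ) => C.rep p.1 * T.rep p.2) :=
    IhtLoc.comp (IhtLoc.of_sys C (NeZero.ne N) iht_Gamma_le_GammaH)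
      (IhtLoc.of_sys T (NeZero.ne N) iht_Gamma_le_GammaH)
  have h2 : IhtLoc (A := A) (fun c => C.hom A (T.hom A c))
      (fun p : Option (Fin ℓ) × Unit => T.rep p.1 * C.rep p.2) :=
    IhtLoc.comp (IhtLoc.of_sys T (NeZero.ne N) iht_Gamma_le_GammaH)
      (IhtLoc.of_sys C (NeZero.ne N) iht_Gamma_le_GammaH)
  refine IhtLoc.ext (fun p => ?_) h1 h2
    ((Equiv.prodComm _ _).trans (Equiv.prodCongr (S₀.sigma g₀).symm (Equiv.refl Unit)))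
    (fun p => ?_) c
  · rw [Matrix.det_mul]
    exact mul_ne_zero (C.det_ne_zero _) (T.det_ne_zero _)
  · obtain ⟨⟨⟩, i⟩ := p
    set j := (S₀.sigma g₀).symm i with hj
    have hrm := S₀.rep_mul g₀ j
    rw [hj, Equiv.apply_symm_apply] at hrm
    have hεd := ihfSysT_dshD_eps N (⊤ : Subgroup (ZMod N)ˣ) hℓ hℓN g₀ j
    set ε : SL(2, ℤ) := ((S₀.eps g₀ j : ihfGammaH N (⊤ : Subgroup (ZMod N)ˣ)) : SL(2, ℤ)) with hε
    have hε0 : ε ∈ Gamma0 N := (S₀.eps g₀ j).2.1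
    refine ⟨⟨g * ε⁻¹, iht_mul_inv_mem_GammaH hg hε0 hεd.symm⟩, 1, 1, one_ne_zero, ?_⟩
    rw [one_smul, one_smul]
    simp only [Equiv.trans_apply, Equiv.prodComm_apply, Prod.swap_prod_mk, Equiv.prodCongr_apply,
      Prod.map_apply, Equiv.refl_apply]
    have hCrep : C.rep () = (g : Matrix (Fin 2) (Fin 2) ℤ) := rfl
    have hTrep : T.rep = S₀.rep := rfl
    rw [hCrep, hTrep]
    have hrm' : S₀.rep j * (g : Matrix (Fin 2) (Fin 2) ℤ)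
        = (ε : Matrix (Fin 2) (Fin 2) ℤ) * S₀.rep i := hrm
    rw [← hj, hrm', Matrix.SpecialLinearGroup.coe_mul, Matrix.mul_assoc, iht_SL_inv_mul_cancel]

end TC

section TlTw

variable {N r : ℕ} [NeZero N] [hr : Fact r.Prime] {H : Subgroup (ZMod N)ˣ} {k : ℕ}
  {Γ' : Subgroup SL(2, ℤ)} (hyp : IhtHyp N r H k Γ') (A : Type*) [AddCommGroup A]

/-- `γ_{y(u)}` -/
noncomputable def ihtG (u : (ZMod r)ˣ) : SL(2, ℤ) := dshGammaU N (ihtY hyp u)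

theorem ihtG_mem (u : (ZMod r)ˣ) : ihtG hyp u ∈ Gamma0 N := dshGammaU_mem N _

theorem ihtG_dshD (u : (ZMod r)ˣ) : dshD N (ihtG hyp u) = ((ihtY hyp u : (ZMod N)ˣ) : ZMod N) :=
  dshD_dshGammaU N _

theorem ihtRep_eq (u : (ZMod r)ˣ) :
    ihtRep hyp u = (ihtG hyp u : Matrix (Fin 2) (Fin 2) ℤ) * ihtAlpha r (u : ZMod r) := rfl

/-- the operator `T_ℓ ∘ ⟨y(ℓ)⁻¹⟩` is local with representatives `γ_{y(ℓ⁻¹ u₂)} t_i γ_{y(u₂)}⁻¹`,
for every `u₂` -/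
theorem iht_TD_loc [NoZeroSMulDivisors ℕ A] {ℓ : ℕ} (hℓ : ℓ.Prime) (hℓN : ¬ ℓ ∣ N)
    (lb : (ZMod r)ˣ) (u₂ : (ZMod r)ˣ) :
    IhtLoc (A := A) (fun c => (ihfSysT N H hℓ hℓN).hom A ((ihfSysD N H (ihtY hyp lb)⁻¹).hom A c))
      (fun p : (Unit × Option (Fin ℓ)) × Unit =>
        ((ihtG hyp (lb⁻¹ * u₂) : Matrix (Fin 2) (Fin 2) ℤ) * tgmRepT N hℓ hℓN p.1.2)
          * ((ihtG hyp u₂)⁻¹ : SL(2, ℤ))) := by
  set g₁ := ihtG hyp (lb⁻¹ * u₂) with hg₁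
  set g₂ := ihtG hyp u₂ with hg₂
  have h₁ : g₁ ∈ Gamma0 N := ihtG_mem hyp _
  have h₂ : g₂⁻¹ ∈ Gamma0 N := inv_mem (ihtG_mem hyp _)
  set T := ihfSysT N H hℓ hℓN with hT
  have hloc : IhtLoc (A := A)
      (fun c => (ihfSysC N H g₂⁻¹ h₂).hom A (T.hom A ((ihfSysC N H g₁ h₁).hom A c)))
      (fun p : (Unit × Option (Fin ℓ)) × Unit =>
        ((ihfSysC N H g₁ h₁).rep p.1.1 * T.rep p.1.2) * (ihfSysC N H g₂⁻¹ h₂).rep p.2) :=
    IhtLoc.comp (IhtLoc.comp (IhtLoc.of_sys (ihfSysC N H g₁ h₁) (NeZero.ne N) iht_Gamma_le_GammaH)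
      (IhtLoc.of_sys T (NeZero.ne N) iht_Gamma_le_GammaH))
      (IhtLoc.of_sys (ihfSysC N H g₂⁻¹ h₂) (NeZero.ne N) iht_Gamma_le_GammaH)
  refine hloc.congr_fun fun c => ?_
  have hd : dshD N (g₁ * g₂⁻¹) = (((ihtY hyp lb)⁻¹ : (ZMod N)ˣ) : ZMod N) := by
    rw [dshD_mul h₁, hg₁, hg₂, ihtG_dshD, iht_dshD_inv (ihtG_mem hyp u₂) _ (ihtG_dshD hyp u₂),
      ← Units.val_mul, map_mul, map_inv, mul_inv_cancel_right]
  rw [← iht_T_C_comm H A hℓ hℓN g₂⁻¹ h₂, ← ihfSysC_hom_mul N H g₁ g₂⁻¹ h₁ h₂ c,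
    ← ihfSysD_hom_eq N H (ihtY hyp lb)⁻¹ (g₁ * g₂⁻¹) (mul_mem h₁ h₂) hd c]


/-- `r ∣ u ℓ - (ℓ̄ u)` on the level of representatives -/
theorem iht_dvd_shift {n : ℕ} (nb u : (ZMod r)ˣ) (hnb : ((nb : (ZMod r)ˣ) : ZMod r) = (n : ZMod r)) :
    (r : ℤ) ∣ (((u : ZMod r).val : ℕ) : ℤ) * n - ((((nb * u : (ZMod r)ˣ) : ZMod r).val : ℕ) : ℤ) := by
  haveI : NeZero r := ⟨hr.out.ne_zero⟩
  rw [← ZMod.intCast_zmod_eq_zero_iff_dvd]
  push_cast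
  rw [ZMod.natCast_zmod_val, ZMod.natCast_zmod_val, hnb]
  ring

/-- **(Tw1a)** on `Hom` -/
theorem iht_T_tw_hom [NeZero (N * r)] [NoZeroSMulDivisors ℕ A] {ℓ : ℕ} (hℓ : ℓ.Prime)
    (hℓN : ¬ ℓ ∣ N) (hℓNr : ¬ ℓ ∣ N * r) (hℓr : ¬ ℓ ∣ r) (T' : tdmCosetSys Γ' (Option (Fin ℓ)))
    (hT' : ∀ i, ∃ γ : Γ', T'.rep i
      = ((γ : SL(2, ℤ)) : Matrix (Fin 2) (Fin 2) ℤ) * tgmRepT (N * r) hℓ hℓNr i)
    (c : Additive (ihfGammaH N H) →+ A) :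
    T'.hom A ((ihtSys hyp).cor A c)
      = (ihtSys hyp).cor A ((ihfSysT N H hℓ hℓN).hom A
          ((ihfSysD N H (ihtY hyp (dshUnit r hℓ hℓr))⁻¹).hom A c)) := by
  haveI : NeZero r := ⟨hr.out.ne_zero⟩
  haveI : NeZero ℓ := ⟨hℓ.ne_zero⟩
  set lb : (ZMod r)ˣ := dshUnit r hℓ hℓr with hlb
  have hlbc : ((lb : (ZMod r)ˣ) : ZMod r) = (ℓ : ZMod r) := coe_dshUnit r hℓ hℓr
  -- the left hand side
  have locT' : IhtLoc (A := A) (T'.hom A) (tgmRepT (N * r) hℓ hℓNr) := by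
    refine (IhtLoc.of_sys T' iht_Nr_ne_zero hyp.cong).congr_left fun i => ?_
    obtain ⟨γ, hγ⟩ := hT' i
    refine ⟨γ⁻¹, 1, 1, one_ne_zero, ?_⟩
    rw [one_smul, one_smul, hγ, Subgroup.coe_inv, iht_SL_inv_mul_cancel]
  have h1 : IhtLoc (A := A) (fun c => T'.hom A ((ihtSys hyp).cor A c))
      (fun p : (ZMod r)ˣ × Option (Fin ℓ) => ihtRep hyp p.1 * tgmRepT (N * r) hℓ hℓNr p.2) :=
    IhtLoc.comp (ihtSys_loc hyp A) locT'
  -- the right hand side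
  have h2 := IhtLoc.comp' (fun u₂ => iht_TD_loc hyp A hℓ hℓN lb u₂) (ihtSys_loc hyp A)
  -- the shift
  set w : (ZMod r)ˣ → ℤ := fun u =>
    ((((u : ZMod r).val : ℕ) : ℤ) * ℓ - ((((lb * u : (ZMod r)ˣ) : ZMod r).val : ℕ) : ℤ)) / r with hw
  have hwr : ∀ u : (ZMod r)ˣ, (r : ℤ) * w u
      = (((u : ZMod r).val : ℕ) : ℤ) * ℓ - ((((lb * u : (ZMod r)ˣ) : ZMod r).val : ℕ) : ℤ) :=
    fun u => Int.mul_ediv_cancel' (iht_dvd_shift lb u hlbc)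
  refine IhtLoc.ext_of_injective (fun p => ?_) h1 h2
    (fun p => ((((), Option.map (ihtShift ℓ (w p.1)) p.2), ()), lb * p.1)) ?_ ?_ (fun p => ?_) c
  · rw [Matrix.det_mul, tgmRepT_det]
    exact mul_ne_zero (ihtRep_det_ne_zero hyp p.1) (by exact_mod_cast hℓ.ne_zero)
  · rintro ⟨u, j⟩ ⟨u', j'⟩ h
    simp only [Prod.mk.injEq, true_and, and_true] at h
    obtain ⟨h1, h2⟩ := h
    have hu : u = u' := mul_left_cancel h2
    subst hu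
    rw [Option.map_injective (ihtShift_injective ℓ (w u)) h1]
  · simp only [Fintype.card_prod, Fintype.card_unit, mul_one, one_mul]
    exact mul_comm _ _
  · obtain ⟨u, j⟩ := p
    set u₂ : (ZMod r)ˣ := lb * u with hu₂
    have hinv : lb⁻¹ * u₂ = u := by rw [hu₂, inv_mul_cancel_left]
    set uv : ℤ := (((u : ZMod r).val : ℕ) : ℤ) with huv
    set u₂v : ℤ := (((u₂ : ZMod r).val : ℕ) : ℤ) with hu₂v
    rcases j with _ | b
    · -- the representative `γ'_ℓ diag(ℓ, 1)`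
      set gl' := tgmGammaP (N * r) hℓ hℓNr with hgl'
      set gl := tgmGammaP N hℓ hℓN with hgl
      have hgl'm : gl' ∈ Gamma0 (N * r) := tgmGammaP_mem (N * r) hℓ hℓNr
      have hglm : gl ∈ Gamma0 N := tgmGammaP_mem N hℓ hℓN
      have hx : ((lb : (ZMod r)ˣ) : ZMod r) = dshD r gl' := by
        rw [← iht_dshD_cast (Dvd.intro_left N rfl) gl', dshD_tgmGammaP, hlbc, ZMod.cast_natCast
          (Dvd.intro_left N rfl)]
      have hz : ((dshUnit N hℓ hℓN : (ZMod N)ˣ) : ZMod N) = dshD N gl' := by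
        rw [← iht_dshD_cast (Dvd.intro r rfl) gl', dshD_tgmGammaP, coe_dshUnit, ZMod.cast_natCast
          (Dvd.intro r rfl)]
      obtain ⟨ε₃, hε₃0, hε₃d, hε₃⟩ := ihtRep_mul_exists hyp gl' hgl'm lb hx (dshUnit N hℓ hℓN) hz u
      set u₃ : (ZMod r)ˣ := lb ^ 2 * u with hu₃
      set u₃v : ℤ := (((u₃ : ZMod r).val : ℕ) : ℤ) with hu₃v
      have hdvd : (r : ℤ) ∣ u₃v - (ℓ : ℤ) * u₂v := by
        rw [← ZMod.intCast_zmod_eq_zero_iff_dvd]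
        push_cast
        rw [hu₃v, hu₂v]
        push_cast
        rw [ZMod.natCast_zmod_val, ZMod.natCast_zmod_val, hu₃, hu₂, Units.val_mul, Units.val_mul,
          Units.val_pow_eq_pow_val, hlbc]
        ring
      obtain ⟨m, hm⟩ := hdvd
      have hmat := iht_alpha_mul_diag r ℓ u₃v u₂v m (by linear_combination hm)
      set g := ihtG hyp u with hg
      set g₃ := ihtG hyp u₃ with hg₃
      have hgm : g ∈ Gamma0 N := ihtG_mem hyp u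
      have hg₃m : g₃ ∈ Gamma0 N := ihtG_mem hyp u₃
      have hγ : (ε₃ * g₃ * ihtT m) * (g * gl)⁻¹ ∈ ihfGammaH N H := by
        refine iht_mul_inv_mem_GammaH (mul_mem (mul_mem hε₃0 hg₃m) (ihtT_mem_Gamma0 N m))
          (mul_mem hgm hglm) ?_
        rw [dshD_mul (mul_mem hε₃0 hg₃m), dshD_mul hε₃0, ihtT_dshD, mul_one, hε₃d, hg₃, ihtG_dshD,
          dshD_mul hgm, hg, ihtG_dshD, dshD_tgmGammaP, ← coe_dshUnit N hℓ hℓN, ← Units.val_mul,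
          ← Units.val_mul]
        congr 1
        rw [hu₃, map_mul, map_pow, ihtY_apply hyp lb, ← pow_mul, mul_comm k 2]
        generalize ihtIota N r hyp.dvd hyp.not_sq lb ^ (2 * k) = a
        generalize ihtY hyp u = y
        generalize dshUnit N hℓ hℓN = z
        rw [show z * a⁻¹ * (a * y) = y * z * (a⁻¹ * a) by ac_rfl, inv_mul_cancel, mul_one]
      refine ⟨⟨(ε₃ * g₃ * ihtT m) * (g * gl)⁻¹, hγ⟩, 1, 1, one_ne_zero, ?_⟩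
      rw [one_smul, one_smul]
      simp only [Option.map_none]
      rw [hinv]
      show (ihtRep hyp u) * ((gl' : Matrix (Fin 2) (Fin 2) ℤ) * !![(ℓ : ℤ), 0; 0, 1])
        = (((ε₃ * g₃ * ihtT m) * (g * gl)⁻¹ : SL(2, ℤ)) : Matrix (Fin 2) (Fin 2) ℤ)
          * ((((g : Matrix (Fin 2) (Fin 2) ℤ)
                * ((gl : Matrix (Fin 2) (Fin 2) ℤ) * !![(ℓ : ℤ), 0; 0, 1]))
              * ((ihtG hyp u₂)⁻¹ : SL(2, ℤ)))
            * ((ihtG hyp u₂ : Matrix (Fin 2) (Fin 2) ℤ) * ihtAlpha r (u₂ : ZMod r)))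
      have hmat' : ihtAlpha r (u₃ : ZMod r) * !![(ℓ : ℤ), 0; 0, 1]
          = (ihtT m : Matrix (Fin 2) (Fin 2) ℤ)
            * (!![(ℓ : ℤ), 0; 0, 1] * ihtAlpha r (u₂ : ZMod r)) := hmat
      rw [← Matrix.mul_assoc (ihtRep hyp u), hε₃, ihtRep_eq hyp u₃, Matrix.mul_assoc,
        Matrix.mul_assoc, hmat', _root_.mul_inv_rev]
      simp only [Matrix.SpecialLinearGroup.coe_mul, Matrix.mul_assoc]
      rw [iht_SL_inv_mul_cancel, iht_SL_inv_mul_cancel, iht_SL_inv_mul_cancel]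
    · -- the representatives `[[1, b], [0, ℓ]]`
      set i : Fin ℓ := ihtShift ℓ (w u) b with hi
      set m : ℤ := (((b : ℕ) : ℤ) + w u) / ℓ with hm
      have hspec : ((b : ℕ) : ℤ) + w u = ((i : ℕ) : ℤ) + (ℓ : ℤ) * m := ihtShift_spec ℓ (w u) b
      have hmat := iht_alpha_mul_aff r ℓ uv u₂v (w u) ((b : ℕ) : ℤ) ((i : ℕ) : ℤ) m (hwr u) hspec
      set g := ihtG hyp u with hg
      have hgm : g ∈ Gamma0 N := ihtG_mem hyp u
      have hγ : g * ihtT m * g⁻¹ ∈ ihfGammaH N H :=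
        ihfGamma1_le_GammaH (dsh_conj_mem_Gamma1 hgm (ihtT_mem_Gamma1 N m))
      refine ⟨⟨g * ihtT m * g⁻¹, hγ⟩, 1, 1, one_ne_zero, ?_⟩
      rw [one_smul, one_smul]
      simp only [Option.map_some]
      rw [hinv]
      show (g : Matrix (Fin 2) (Fin 2) ℤ) * ihtAlpha r (u : ZMod r) * !![1, ((b : ℕ) : ℤ); 0, (ℓ : ℤ)]
        = ((g * ihtT m * g⁻¹ : SL(2, ℤ)) : Matrix (Fin 2) (Fin 2) ℤ)
          * ((((g : Matrix (Fin 2) (Fin 2) ℤ) * !![1, ((i : ℕ) : ℤ); 0, (ℓ : ℤ)])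
              * ((ihtG hyp u₂)⁻¹ : SL(2, ℤ)))
            * ((ihtG hyp u₂ : Matrix (Fin 2) (Fin 2) ℤ) * ihtAlpha r (u₂ : ZMod r)))
      have hmat' : ihtAlpha r (u : ZMod r) * !![1, ((b : ℕ) : ℤ); 0, (ℓ : ℤ)]
          = (ihtT m : Matrix (Fin 2) (Fin 2) ℤ)
            * (!![1, ((i : ℕ) : ℤ); 0, (ℓ : ℤ)] * ihtAlpha r (u₂ : ZMod r)) := hmat
      rw [Matrix.mul_assoc, hmat']
      simp only [Matrix.SpecialLinearGroup.coe_mul, Matrix.mul_assoc]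
      rw [iht_SL_inv_mul_cancel, iht_SL_inv_mul_cancel]

end TlTw


section UC

variable {N : ℕ} [NeZero N] (H : Subgroup (ZMod N)ˣ) (A : Type*) [AddCommGroup A]

/-- `d (ε_b(δ)) ≡ d(δ) mod N` for the `U_q`-system -/
theorem ihfSysU_dshD_eps' {q : ℕ} (hqN : q ∣ N) (hq0 : q ≠ 0) (δ : ihfGammaH N H) (b : Fin q) :
    dshD N (((ihfSysU N H hqN hq0).eps δ b : ihfGammaH N H) : SL(2, ℤ)) = dshD N (δ : SL(2, ℤ)) := by
  obtain ⟨j, ε, hε, hd, he⟩ := ihf_repU_exists N hqN (δ : SL(2, ℤ)) δ.2.1 b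
  have h := ((ihfSysU N H hqN hq0).eq_of_rep_mul (δ := δ) (i := b) (j := j)
    (ε := ⟨ε, ihf_mem_GammaH_of_dshD_eq δ.2 hε hd⟩) he).2
  rw [← h]
  exact hd

/-- `U_q` commutes with the conjugation by `g ∈ Γ₀(N)` on `Hom(Γ_H(N), A)` -/
theorem iht_U_C_comm [NoZeroSMulDivisors ℕ A] {q : ℕ} (hqN : q ∣ N) (hq0 : q ≠ 0)
    (g : SL(2, ℤ)) (hg : g ∈ Gamma0 N) (c : Additive (ihfGammaH N H) →+ A) :
    (ihfSysU N H hqN hq0).hom A ((ihfSysC N H g hg).hom A c)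
      = (ihfSysC N H g hg).hom A ((ihfSysU N H hqN hq0).hom A c) := by
  set T := ihfSysU N H hqN hq0 with hT
  set C := ihfSysC N H g hg with hC
  set S₀ := ihfSysU N (⊤ : Subgroup (ZMod N)ˣ) hqN hq0 with hS₀
  have hg₀ : g ∈ ihfGammaH N (⊤ : Subgroup (ZMod N)ˣ) := by rw [ihfGammaH_top]; exact hg
  set g₀ : ihfGammaH N (⊤ : Subgroup (ZMod N)ˣ) := ⟨g, hg₀⟩ with hg₀def
  have h1 : IhtLoc (A := A) (fun c => T.hom A (C.hom A c))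
      (fun p : Unit × Fin q => C.rep p.1 * T.rep p.2) :=
    IhtLoc.comp (IhtLoc.of_sys C (NeZero.ne N) iht_Gamma_le_GammaH)
      (IhtLoc.of_sys T (NeZero.ne N) iht_Gamma_le_GammaH)
  have h2 : IhtLoc (A := A) (fun c => C.hom A (T.hom A c))
      (fun p : Fin q × Unit => T.rep p.1 * C.rep p.2) :=
    IhtLoc.comp (IhtLoc.of_sys T (NeZero.ne N) iht_Gamma_le_GammaH)
      (IhtLoc.of_sys C (NeZero.ne N) iht_Gamma_le_GammaH)
  refine IhtLoc.ext (fun p => ?_) h1 h2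
    ((Equiv.prodComm _ _).trans (Equiv.prodCongr (S₀.sigma g₀).symm (Equiv.refl Unit)))
    (fun p => ?_) c
  · rw [Matrix.det_mul]
    exact mul_ne_zero (C.det_ne_zero _) (T.det_ne_zero _)
  · obtain ⟨⟨⟩, i⟩ := p
    set j := (S₀.sigma g₀).symm i with hj
    have hrm := S₀.rep_mul g₀ j
    rw [hj, Equiv.apply_symm_apply] at hrm
    have hεd := ihfSysU_dshD_eps' (⊤ : Subgroup (ZMod N)ˣ) hqN hq0 g₀ j
    set ε : SL(2, ℤ) := ((S₀.eps g₀ j : ihfGammaH N (⊤ : Subgroup (ZMod N)ˣ)) : SL(2, ℤ)) with hε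
    have hε0 : ε ∈ Gamma0 N := (S₀.eps g₀ j).2.1
    refine ⟨⟨g * ε⁻¹, iht_mul_inv_mem_GammaH hg hε0 hεd.symm⟩, 1, 1, one_ne_zero, ?_⟩
    rw [one_smul, one_smul]
    simp only [Equiv.trans_apply, Equiv.prodComm_apply, Prod.swap_prod_mk, Equiv.prodCongr_apply,
      Prod.map_apply, Equiv.refl_apply]
    have hCrep : C.rep () = (g : Matrix (Fin 2) (Fin 2) ℤ) := rfl
    have hTrep : T.rep = S₀.rep := rfl
    rw [hCrep, hTrep]
    have hrm' : S₀.rep j * (g : Matrix (Fin 2) (Fin 2) ℤ)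
        = (ε : Matrix (Fin 2) (Fin 2) ℤ) * S₀.rep i := hrm
    rw [← hj, hrm', Matrix.SpecialLinearGroup.coe_mul, Matrix.mul_assoc, iht_SL_inv_mul_cancel]

end UC

section UqTw

variable {N r : ℕ} [NeZero N] [hr : Fact r.Prime] {H : Subgroup (ZMod N)ˣ} {k : ℕ}
  {Γ' : Subgroup SL(2, ℤ)} (hyp : IhtHyp N r H k Γ') (A : Type*) [AddCommGroup A]

/-- the operator `U_q ∘ ⟨y(q)⁻¹⟩` is local with representatives `γ_{y(q⁻¹ u₂)} t_b γ_{y(u₂)}⁻¹` -/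
theorem iht_UD_loc [NoZeroSMulDivisors ℕ A] {q : ℕ} (hqN : q ∣ N) (hq0 : q ≠ 0)
    (lb : (ZMod r)ˣ) (u₂ : (ZMod r)ˣ) :
    IhtLoc (A := A) (fun c => (ihfSysU N H hqN hq0).hom A ((ihfSysD N H (ihtY hyp lb)⁻¹).hom A c))
      (fun p : (Unit × Fin q) × Unit =>
        ((ihtG hyp (lb⁻¹ * u₂) : Matrix (Fin 2) (Fin 2) ℤ) * tdmRepU q p.1.2)
          * ((ihtG hyp u₂)⁻¹ : SL(2, ℤ))) := by
  set g₁ := ihtG hyp (lb⁻¹ * u₂) with hg₁
  set g₂ := ihtG hyp u₂ with hg₂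
  have h₁ : g₁ ∈ Gamma0 N := ihtG_mem hyp _
  have h₂ : g₂⁻¹ ∈ Gamma0 N := inv_mem (ihtG_mem hyp _)
  set T := ihfSysU N H hqN hq0 with hT
  have hloc : IhtLoc (A := A)
      (fun c => (ihfSysC N H g₂⁻¹ h₂).hom A (T.hom A ((ihfSysC N H g₁ h₁).hom A c)))
      (fun p : (Unit × Fin q) × Unit =>
        ((ihfSysC N H g₁ h₁).rep p.1.1 * T.rep p.1.2) * (ihfSysC N H g₂⁻¹ h₂).rep p.2) :=
    IhtLoc.comp (IhtLoc.comp (IhtLoc.of_sys (ihfSysC N H g₁ h₁) (NeZero.ne N) iht_Gamma_le_GammaH)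
      (IhtLoc.of_sys T (NeZero.ne N) iht_Gamma_le_GammaH))
      (IhtLoc.of_sys (ihfSysC N H g₂⁻¹ h₂) (NeZero.ne N) iht_Gamma_le_GammaH)
  refine hloc.congr_fun fun c => ?_
  have hd : dshD N (g₁ * g₂⁻¹) = (((ihtY hyp lb)⁻¹ : (ZMod N)ˣ) : ZMod N) := by
    rw [dshD_mul h₁, hg₁, hg₂, ihtG_dshD, iht_dshD_inv (ihtG_mem hyp u₂) _ (ihtG_dshD hyp u₂),
      ← Units.val_mul, map_mul, map_inv, mul_inv_cancel_right]
  rw [← iht_U_C_comm H A hqN hq0 g₂⁻¹ h₂, ← ihfSysC_hom_mul N H g₁ g₂⁻¹ h₁ h₂ c,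
    ← ihfSysD_hom_eq N H (ihtY hyp lb)⁻¹ (g₁ * g₂⁻¹) (mul_mem h₁ h₂) hd c]

/-- **(Tw1c)** on `Hom` -/
theorem iht_Uq_tw_hom [NoZeroSMulDivisors ℕ A] {q : ℕ} (hq : q.Prime) (hqN : q ∣ N)
    (hqr : ¬ q ∣ r) (U' : tdmCosetSys Γ' (Fin q)) (hU' : U'.rep = tdmRepU q)
    (c : Additive (ihfGammaH N H) →+ A) :
    U'.hom A ((ihtSys hyp).cor A c)
      = (ihtSys hyp).cor A ((ihfSysU N H hqN hq.ne_zero).hom A
          ((ihfSysD N H (ihtY hyp (dshUnit r hq hqr))⁻¹).hom A c)) := by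
  haveI : NeZero r := ⟨hr.out.ne_zero⟩
  haveI : NeZero q := ⟨hq.ne_zero⟩
  set lb : (ZMod r)ˣ := dshUnit r hq hqr with hlb
  have hlbc : ((lb : (ZMod r)ˣ) : ZMod r) = (q : ZMod r) := coe_dshUnit r hq hqr
  have locU' : IhtLoc (A := A) (U'.hom A) (tdmRepU q) := by
    have := IhtLoc.of_sys (A := A) U' iht_Nr_ne_zero hyp.cong
    rwa [hU'] at this
  have h1 : IhtLoc (A := A) (fun c => U'.hom A ((ihtSys hyp).cor A c))
      (fun p : (ZMod r)ˣ × Fin q => ihtRep hyp p.1 * tdmRepU q p.2) :=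
    IhtLoc.comp (ihtSys_loc hyp A) locU'
  have h2 := IhtLoc.comp' (fun u₂ => iht_UD_loc hyp A hqN hq.ne_zero lb u₂) (ihtSys_loc hyp A)
  set w : (ZMod r)ˣ → ℤ := fun u =>
    ((((u : ZMod r).val : ℕ) : ℤ) * q - ((((lb * u : (ZMod r)ˣ) : ZMod r).val : ℕ) : ℤ)) / r with hw
  have hwr : ∀ u : (ZMod r)ˣ, (r : ℤ) * w u
      = (((u : ZMod r).val : ℕ) : ℤ) * q - ((((lb * u : (ZMod r)ˣ) : ZMod r).val : ℕ) : ℤ) :=
    fun u => Int.mul_ediv_cancel' (iht_dvd_shift lb u hlbc)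
  refine IhtLoc.ext_of_injective (fun p => ?_) h1 h2
    (fun p => ((((), ihtShift q (w p.1) p.2), ()), lb * p.1)) ?_ ?_ (fun p => ?_) c
  · rw [Matrix.det_mul, tdmRepU_det]
    exact mul_ne_zero (ihtRep_det_ne_zero hyp p.1) (by exact_mod_cast hq.ne_zero)
  · rintro ⟨u, j⟩ ⟨u', j'⟩ h
    simp only [Prod.mk.injEq, true_and, and_true] at h
    obtain ⟨h1, h2⟩ := h
    have hu : u = u' := mul_left_cancel h2
    subst hu
    rw [ihtShift_injective q (w u) h1]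
  · simp only [Fintype.card_prod, Fintype.card_unit, mul_one, one_mul]
    exact mul_comm _ _
  · obtain ⟨u, b⟩ := p
    set u₂ : (ZMod r)ˣ := lb * u with hu₂
    have hinv : lb⁻¹ * u₂ = u := by rw [hu₂, inv_mul_cancel_left]
    set uv : ℤ := (((u : ZMod r).val : ℕ) : ℤ) with huv
    set u₂v : ℤ := (((u₂ : ZMod r).val : ℕ) : ℤ) with hu₂v
    set i : Fin q := ihtShift q (w u) b with hi
    set m : ℤ := (((b : ℕ) : ℤ) + w u) / q with hm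
    have hspec : ((b : ℕ) : ℤ) + w u = ((i : ℕ) : ℤ) + (q : ℤ) * m := ihtShift_spec q (w u) b
    have hmat := iht_alpha_mul_aff r q uv u₂v (w u) ((b : ℕ) : ℤ) ((i : ℕ) : ℤ) m (hwr u) hspec
    set g := ihtG hyp u with hg
    have hgm : g ∈ Gamma0 N := ihtG_mem hyp u
    have hγ : g * ihtT m * g⁻¹ ∈ ihfGammaH N H :=
      ihfGamma1_le_GammaH (dsh_conj_mem_Gamma1 hgm (ihtT_mem_Gamma1 N m))
    refine ⟨⟨g * ihtT m * g⁻¹, hγ⟩, 1, 1, one_ne_zero, ?_⟩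
    rw [one_smul, one_smul]
    simp only []
    rw [hinv]
    show (g : Matrix (Fin 2) (Fin 2) ℤ) * ihtAlpha r (u : ZMod r) * !![1, ((b : ℕ) : ℤ); 0, (q : ℤ)]
      = ((g * ihtT m * g⁻¹ : SL(2, ℤ)) : Matrix (Fin 2) (Fin 2) ℤ)
        * ((((g : Matrix (Fin 2) (Fin 2) ℤ) * !![1, ((i : ℕ) : ℤ); 0, (q : ℤ)])
            * ((ihtG hyp u₂)⁻¹ : SL(2, ℤ)))
          * ((ihtG hyp u₂ : Matrix (Fin 2) (Fin 2) ℤ) * ihtAlpha r (u₂ : ZMod r)))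
    have hmat' : ihtAlpha r (u : ZMod r) * !![1, ((b : ℕ) : ℤ); 0, (q : ℤ)]
        = (ihtT m : Matrix (Fin 2) (Fin 2) ℤ)
          * (!![1, ((i : ℕ) : ℤ); 0, (q : ℤ)] * ihtAlpha r (u₂ : ZMod r)) := hmat
    rw [Matrix.mul_assoc, hmat']
    simp only [Matrix.SpecialLinearGroup.coe_mul, Matrix.mul_assoc]
    rw [iht_SL_inv_mul_cancel, iht_SL_inv_mul_cancel]

end UqTw


end Fermat.Agent.Ihara
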