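/-
IHARA package [TWIST] (Tw4′) (helper7), file 1: **the abstract core of the injectivity of the twist
on a `ψ`-eigenpart**.

* `ihti_charSum`   : for a non-trivial multiplicative character `η` of `ZMod r` (`r` prime) and
                     `m ≠ 0`, `∑ t, η⁻¹ t * η (t + m) = -1`;
* `ihti_circulant_one`     : a family `w : ZMod r → V` with `∑_{u ≠ 0} w (u + v) = 0` for all `v`
                             vanishes (`K` a domain of characteristic zero, `V` torsion-free);
* `ihti_circulant_nontriv` : a family `w : ZMod r → V` with `∑ u, η u • w (u + v) = 0` for all `v`,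
                             `η` non-trivial, is constant.
-/
import Mathlib

set_option autoImplicit false
set_option linter.unusedSectionVars false
set_option linter.unusedVariables false
set_option linter.style.haveILetI false

namespace Fermat.Agent.Ihara

open Finset

variable {r : ℕ} [hr : Fact r.Prime] {K : Type*} [CommRing K] [IsDomain K]

/-- the character-sum identity behind `C* C = r - J` -/
theorem ihti_charSum (η : MulChar (ZMod r) K) (hη : η ≠ 1) (m : ZMod r) (hm : m ≠ 0) :
    ∑ t : ZMod r, η⁻¹ t * η (t + m) = -1 := by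
  have hη' : η⁻¹ ≠ 1 := fun h => hη (inv_eq_one.mp h)
  have hJ := jacobiSum_nontrivial_inv hη'
  rw [inv_inv, jacobiSum] at hJ
  -- substitute `t = -m * x`
  have hbij : Function.Bijective (fun x : ZMod r => -m * x) :=
    mulLeft_bijective₀ (-m) (neg_ne_zero.mpr hm)
  rw [← Function.Bijective.sum_comp hbij (fun t => η⁻¹ t * η (t + m))]
  have hmu : IsUnit m := isUnit_iff_ne_zero.mpr hm
  have hmm : η⁻¹ m * η m = 1 := by
    rw [← MulChar.mul_apply, inv_mul_cancel, MulChar.one_apply hmu]
  have hterm : ∀ x : ZMod r, η⁻¹ (-m * x) * η (-m * x + m) =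
      η⁻¹ (-1) * (η⁻¹ x * η (1 - x)) := by
    intro x
    have e : -m * x + m = m * (1 - x) := by ring
    have e' : -m * x = -1 * (m * x) := by ring
    rw [e, e', map_mul, map_mul, map_mul]
    calc η⁻¹ (-1) * (η⁻¹ m * η⁻¹ x) * (η m * η (1 - x))
        = η⁻¹ (-1) * (η⁻¹ m * η m) * (η⁻¹ x * η (1 - x)) := by ring
      _ = η⁻¹ (-1) * (η⁻¹ x * η (1 - x)) := by rw [hmm, mul_one]
  simp only [hterm]
  rw [← Finset.mul_sum, hJ, mul_neg, ← map_mul, neg_one_mul, neg_neg, map_one]

/-- the circulant system for the trivial character -/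
theorem ihti_circulant_one [CharZero K] {V : Type*} [AddCommGroup V] [Module K V]
    [NoZeroSMulDivisors K V]
    (w : ZMod r → V) (h : ∀ v : ZMod r, ∑ u ∈ univ.erase (0 : ZMod r), w (u + v) = 0)
    (v : ZMod r) : w v = 0 := by
  classical
  -- `w v = S` for all `v`
  have hS : ∀ v : ZMod r, w v = ∑ t : ZMod r, w t := by
    intro v
    have h1 : ∑ u : ZMod r, w (u + v) = ∑ t : ZMod r, w t :=
      Function.Bijective.sum_comp (AddGroup.addRight_bijective v) w
    have h2 := Finset.add_sum_erase univ (fun u : ZMod r => w (u + v)) (mem_univ 0)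
    rw [h v, add_zero, zero_add] at h2
    rw [h2, h1]
  set S := ∑ t : ZMod r, w t with hSdef
  have hsum : S = (r : K) • S := by
    conv_lhs => rw [hSdef]
    rw [Finset.sum_congr rfl fun t _ => hS t, Finset.sum_const, Finset.card_univ, ZMod.card,
      ← Nat.cast_smul_eq_nsmul K]
  have h1 : ((r : K) - 1) • S = 0 := by
    rw [sub_smul, one_smul, ← hsum, sub_self]
  have hr1 : ((r : K) - 1) ≠ 0 := by
    have : (1 : K) = ((1 : ℕ) : K) := by norm_num
    rw [this, sub_ne_zero]
    exact fun h => hr.out.one_lt.ne' (Nat.cast_injective h)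
  rw [hS v]
  exact (smul_eq_zero.mp h1).resolve_left hr1

/-- the circulant system for a non-trivial character: the solutions are constant -/
theorem ihti_circulant_nontriv [CharZero K] {V : Type*} [AddCommGroup V] [Module K V]
    [NoZeroSMulDivisors K V]
    (η : MulChar (ZMod r) K) (hη : η ≠ 1) (w : ZMod r → V)
    (h : ∀ v : ZMod r, ∑ u : ZMod r, η u • w (u + v) = 0) (b b' : ZMod r) : w b = w b' := by
  classical
  -- reindex: `∑ t, η (t - v) • w t = 0`
  have h' : ∀ v : ZMod r, ∑ t : ZMod r, η (t - v) • w t = 0 := by
    intro v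
    rw [← h v]
    rw [← Function.Bijective.sum_comp (AddGroup.addRight_bijective v)
      (fun t => η (t - v) • w t)]
    refine Finset.sum_congr rfl fun u _ => ?_
    simp only [add_sub_cancel_right]
  -- `r • w b = S` for all `b`
  have key : ∀ b : ZMod r, (r : K) • w b = ∑ t : ZMod r, w t := by
    intro b
    have h1 : ∑ v : ZMod r, η⁻¹ (b - v) • ∑ t : ZMod r, η (t - v) • w t = 0 := by
      refine Finset.sum_eq_zero fun v _ => ?_
      rw [h' v, smul_zero]
    simp only [Finset.smul_sum, smul_smul] at h1
    rw [Finset.sum_comm] at h1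
    have h2 : ∀ t : ZMod r, ∑ v : ZMod r, (η⁻¹ (b - v) * η (t - v)) • w t =
        (if t = b then ((r : K) - 1) else -1) • w t := by
      intro t
      rw [← Finset.sum_smul]
      congr 1
      -- substitute `x = b - v`
      have hbij : Function.Bijective (fun x : ZMod r => b - x) :=
        (Equiv.subLeft b).bijective
      rw [← Function.Bijective.sum_comp hbij (fun v => η⁻¹ (b - v) * η (t - v))]
      simp only [sub_sub_cancel]
      have e : ∀ x : ZMod r, t - (b - x) = x + (t - b) := fun x => by ring
      simp only [e]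
      split_ifs with htb
      · subst htb
        simp only [sub_self, add_zero]
        have : ∀ x : ZMod r, η⁻¹ x * η x = if x = 0 then 0 else 1 := by
          intro x
          split_ifs with hx
          · rw [hx, MulChar.map_zero, zero_mul]
          · rw [← MulChar.mul_apply, inv_mul_cancel,
              MulChar.one_apply (isUnit_iff_ne_zero.mpr hx)]
        simp only [this]
        rw [Finset.sum_ite, Finset.sum_const_zero, zero_add, Finset.sum_const, nsmul_eq_mul,
          mul_one]
        have hcard : (univ.filter fun x : ZMod r => ¬ x = 0).card = r - 1 := by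
          rw [Finset.filter_not, Finset.filter_eq' , if_pos (mem_univ _), Finset.card_sdiff_of_subset
            (Finset.subset_univ _), Finset.card_univ, ZMod.card, Finset.card_singleton]
        rw [hcard, Nat.cast_sub hr.out.one_lt.le, Nat.cast_one]
      · exact ihti_charSum η hη (t - b) (sub_ne_zero.mpr htb)
    simp only [h2] at h1
    rw [← Finset.add_sum_erase univ _ (mem_univ b)] at h1
    rw [if_pos rfl] at h1
    have h3 : ∑ t ∈ univ.erase b, (if t = b then ((r : K) - 1) else -1) • w t =
        - ∑ t ∈ univ.erase b, w t := by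
      rw [← Finset.sum_neg_distrib]
      refine Finset.sum_congr rfl fun t ht => ?_
      rw [if_neg (Finset.ne_of_mem_erase ht), neg_one_smul]
    rw [h3, sub_smul, one_smul] at h1
    rw [← Finset.add_sum_erase univ w (mem_univ b)]
    have h4 : (r : K) • w b = w b + ∑ t ∈ univ.erase b, w t := by
      have := h1
      rw [sub_add_eq_add_sub, ← sub_eq_add_neg, sub_sub, sub_eq_zero] at this
      rw [this, add_comm]
    exact h4
  have hr0 : (r : K) ≠ 0 := Nat.cast_ne_zero.mpr hr.out.ne_zero
  have h5 : (r : K) • w b = (r : K) • w b' := by rw [key b, key b']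
  have h6 : (r : K) • (w b - w b') = 0 := by rw [smul_sub, h5, sub_self]
  exact sub_eq_zero.mp ((smul_eq_zero.mp h6).resolve_left hr0)

end Fermat.Agent.Ihara
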