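/-
IHARA package [TWIST] (Tw4) (helper7), file 2: **the matrices `R_j = [[r, j], [0, r]]`, the
conjugates of a deep element by all `R_j`, and Li's decomposition**.

* `ihtiR r j = [[r, j], [0, r]]` (`= r τ^j`, `τ = [[1, 1/r], [0, 1]]`); `ihtAlpha r u = ihtiR r u.val`;
* `ihti_exists_family` : for `δ ∈ Γ(r² n)` there is a family `E : ℤ → Γ(n)` with `R_j δ = E_j R_j`;
* `ihti_family_shift`  : `E (j + r) = T E_j T⁻¹`, `T = [[1, 1], [0, 1]]`;
* `ihti_family_comm`   : `R_i E_v = E_{i + v} R_i`;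
* `ihti_li`            : for `x ∈ (ℤ/r)ˣ` there are `w : ℤ`, `g' ∈ Γ₁(N)` and `P ∈ Γ₀(N)` with
                         `d(P) = ι(x)` and `R_1 g' R_w = r² P`.
-/
import Mathlib
import Fermat.Agent.Lib.Ihara.Tw.Defs

set_option autoImplicit false
set_option linter.unusedSectionVars false
set_option linter.unusedVariables false
set_option linter.style.haveILetI false

namespace Fermat.Agent.Ihara

open Matrix MatrixGroups CongruenceSubgroup
open Fermat.Agent.DS Fermat.Agent.T1 Fermat.Agent.T1G Fermat.Agent.T2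

/-- `R_j = [[r, j], [0, r]] = r τ^j` -/
def ihtiR (r : ℕ) (j : ℤ) : Matrix (Fin 2) (Fin 2) ℤ := !![(r : ℤ), j; 0, (r : ℤ)]

theorem ihtiR_det (r : ℕ) (j : ℤ) : (ihtiR r j).det = ((r * r : ℕ) : ℤ) := by
  rw [ihtiR, Matrix.det_fin_two_of]
  push_cast
  ring

theorem ihtiR_det_ne_zero {r : ℕ} (hr : r ≠ 0) (j : ℤ) : (ihtiR r j).det ≠ 0 := by
  rw [ihtiR_det]
  exact_mod_cast Nat.mul_ne_zero hr hr

theorem ihtiR_mul (r : ℕ) (i j : ℤ) : ihtiR r i * ihtiR r j = (r : ℤ) • ihtiR r (i + j) := by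
  ext a b
  fin_cases a <;> fin_cases b <;> simp [ihtiR, Matrix.mul_apply, Fin.sum_univ_two] <;> ring

theorem ihtiR_zero (r : ℕ) : ihtiR r 0 = (r : ℤ) • (1 : Matrix (Fin 2) (Fin 2) ℤ) := by
  ext a b
  fin_cases a <;> fin_cases b <;> simp [ihtiR]

theorem ihtAlpha_eq_ihtiR (r : ℕ) (u : ZMod r) : ihtAlpha r u = ihtiR r ((u.val : ℕ) : ℤ) := rfl

theorem ihti_T_mul_R (r : ℕ) (j : ℤ) :
    (ModularGroup.T : Matrix (Fin 2) (Fin 2) ℤ) * ihtiR r j = ihtiR r (j + r) := by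
  ext a b
  fin_cases a <;> fin_cases b <;>
    simp [ihtiR, ModularGroup.coe_T, Matrix.mul_apply, Fin.sum_univ_two]

theorem ihti_T_mem_Gamma1 (N : ℕ) : ModularGroup.T ∈ Gamma1 N := by
  rw [Gamma1_mem]
  simp [ModularGroup.coe_T]

/-- the conjugates of a deep element by all the `R_j` -/
theorem ihti_exists_family {r : ℕ} (hr : r ≠ 0) (n : ℕ) (δ : SL(2, ℤ))
    (hδ : δ ∈ Gamma (r * r * n)) :
    ∃ E : ℤ → SL(2, ℤ), (∀ j, E j ∈ Gamma n) ∧
      ∀ j, ihtiR r j * (δ : Matrix (Fin 2) (Fin 2) ℤ) = (E j : Matrix (Fin 2) (Fin 2) ℤ) * ihtiR r j := by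
  have key : ∀ j : ℤ, ∃ ε : SL(2, ℤ), ε ∈ Gamma n ∧
      ihtiR r j * (δ : Matrix (Fin 2) (Fin 2) ℤ) = (ε : Matrix (Fin 2) (Fin 2) ℤ) * ihtiR r j :=
    fun j => iht_conj_principal (ihtiR r j) (ihtiR_det r j) (Nat.mul_ne_zero hr hr) n δ hδ
  choose E h1 h2 using key
  exact ⟨E, h1, h2⟩

section Family

variable {r : ℕ} (hr : r ≠ 0) {δ : SL(2, ℤ)} {E : ℤ → SL(2, ℤ)}
  (hE : ∀ j, ihtiR r j * (δ : Matrix (Fin 2) (Fin 2) ℤ)
    = (E j : Matrix (Fin 2) (Fin 2) ℤ) * ihtiR r j)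

include hr hE

theorem ihti_family_unique {j : ℤ} {ε : SL(2, ℤ)}
    (h : ihtiR r j * (δ : Matrix (Fin 2) (Fin 2) ℤ) = (ε : Matrix (Fin 2) (Fin 2) ℤ) * ihtiR r j) :
    ε = E j :=
  Subtype.ext (tdm_mul_right_cancel (ihtiR_det_ne_zero hr j) (h.symm.trans (hE j)))

theorem ihti_family_zero : E 0 = δ := by
  refine (ihti_family_unique hr hE ?_).symm
  rw [ihtiR_zero, Matrix.smul_mul, Matrix.one_mul, Matrix.mul_smul, Matrix.mul_one]

theorem ihti_family_shift (j : ℤ) : E (j + r) = ModularGroup.T * E j * ModularGroup.T⁻¹ := by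
  refine (ihti_family_unique hr hE ?_).symm
  rw [← ihti_T_mul_R, Matrix.mul_assoc, hE j, tgm_SL_mul_assoc, tgm_SL_mul_assoc,
    tgm_SL_inv_mul_cancel]

theorem ihti_family_comm (i v : ℤ) :
    ihtiR r i * (E v : Matrix (Fin 2) (Fin 2) ℤ) = (E (i + v) : Matrix (Fin 2) (Fin 2) ℤ) * ihtiR r i := by
  apply tdm_mul_right_cancel (ihtiR_det_ne_zero hr v)
  rw [Matrix.mul_assoc, ← hE v, ← Matrix.mul_assoc, ihtiR_mul, Matrix.smul_mul, hE (i + v),
    Matrix.mul_assoc, ihtiR_mul, Matrix.mul_smul]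

end Family

/-- **Li's decomposition**: for `x ∈ (ℤ/r)ˣ` there are `w : ℤ`, `g' ∈ Γ₁(N)` and `P ∈ Γ₀(N)` with
lower right entry `ι(x)` and `R_1 g' R_w = r² P`. -/
theorem ihti_li {N r : ℕ} [NeZero N] [hr : Fact r.Prime] (hrN : r ∣ N) (hr2 : ¬ r * r ∣ N)
    (x : (ZMod r)ˣ) :
    ∃ (w : ℤ) (g' P : SL(2, ℤ)), g' ∈ Gamma1 N ∧ P ∈ Gamma0 N ∧
      dshD N P = ((ihtIota N r hrN hr2 x : (ZMod N)ˣ) : ZMod N) ∧
      ihtiR r 1 * (g' : Matrix (Fin 2) (Fin 2) ℤ) * ihtiR r w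
        = ((r * r : ℕ) : ℤ) • (P : Matrix (Fin 2) (Fin 2) ℤ) := by
  haveI : NeZero r := ⟨hr.out.ne_zero⟩
  have hcop : Nat.Coprime r (N / r) := iht_coprime_div N r hrN hr2
  have hNr : r * (N / r) = N := Nat.mul_div_cancel' hrN
  set M₁ : ℕ := N / r with hM₁
  -- an inverse `m` of `M₁` modulo `r`
  have hM0 : (M₁ : ZMod r) ≠ 0 := by
    rw [Ne, ZMod.natCast_eq_zero_iff]
    exact (Nat.Prime.coprime_iff_not_dvd hr.out).mp hcop
  set m : ℤ := ((((M₁ : ZMod r))⁻¹).val : ℤ) with hm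
  have hmr : ((m : ℤ) : ZMod r) = ((M₁ : ZMod r))⁻¹ := by
    rw [hm]; push_cast; rw [ZMod.natCast_zmod_val]
  have hMm : (M₁ : ZMod r) * ((m : ℤ) : ZMod r) = 1 := by
    rw [hmr, mul_inv_cancel₀ hM0]
  have hx0 : (x : ZMod r) ≠ 0 := x.ne_zero
  set xt : ℤ := (((x : ZMod r)).val : ℤ) with hxt
  set xi : ℤ := ((((x : ZMod r))⁻¹).val : ℤ) with hxi
  have hxtr : ((xt : ℤ) : ZMod r) = (x : ZMod r) := by
    rw [hxt]; push_cast; rw [ZMod.natCast_zmod_val]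
  have hxir : ((xi : ℤ) : ZMod r) = ((x : ZMod r))⁻¹ := by
    rw [hxi]; push_cast; rw [ZMod.natCast_zmod_val]
  have hxx : (x : ZMod r) * ((x : ZMod r))⁻¹ = 1 := mul_inv_cancel₀ hx0
  obtain ⟨w, hw⟩ : ∃ w : ℤ, w = -xt := ⟨_, rfl⟩
  have hwr : ((w : ℤ) : ZMod r) = -(x : ZMod r) := by
    rw [hw]; push_cast; rw [hxtr]
  obtain ⟨s, hs⟩ : ∃ s : ℤ, s = (M₁ : ℤ) * (m * (xi - 1)) := ⟨_, rfl⟩
  have hsr : ((s : ℤ) : ZMod r) = ((x : ZMod r))⁻¹ - 1 := by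
    rw [hs]
    push_cast
    rw [← mul_assoc, hMm, one_mul, hxir]
  -- the upper right entry
  have hdvd : (r : ℤ) ∣ w * (1 + s) + 1 := by
    rw [← ZMod.intCast_zmod_eq_zero_iff_dvd]
    push_cast
    rw [hsr, hwr]
    linear_combination (-1 : ZMod r) * hxx
  obtain ⟨b, hb⟩ := hdvd
  have hdetP : (!![1 + s, b; (r : ℤ) * s, s * w + 1] : Matrix (Fin 2) (Fin 2) ℤ).det = 1 := by
    rw [Matrix.det_fin_two_of]
    linear_combination s * hb
  have hdetg : (!![1, 0; (r : ℤ) * s, 1] : Matrix (Fin 2) (Fin 2) ℤ).det = 1 := by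
    rw [Matrix.det_fin_two_of]
    ring
  have hcN : (((r : ℤ) * s : ℤ) : ZMod N) = 0 := by
    rw [ZMod.intCast_zmod_eq_zero_iff_dvd]
    refine ⟨m * (xi - 1), ?_⟩
    rw [hs, ← hNr]
    push_cast
    ring
  set P : SL(2, ℤ) := ⟨!![1 + s, b; (r : ℤ) * s, s * w + 1], hdetP⟩ with hP
  set g' : SL(2, ℤ) := ⟨!![1, 0; (r : ℤ) * s, 1], hdetg⟩ with hg'
  have hPmem : P ∈ Gamma0 N := by
    rw [Gamma0_mem]
    exact hcN
  refine ⟨w, g', P, ?_, hPmem, ?_, ?_⟩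
  · rw [Gamma1_mem]
    refine ⟨?_, ?_, hcN⟩
    · show (((1 : ℤ)) : ZMod N) = 1
      push_cast; rfl
    · show (((1 : ℤ)) : ZMod N) = 1
      push_cast; rfl
  · -- the lower right entry is `ι(x)`
    have hd : dshD N P = ((s * w + 1 : ℤ) : ZMod N) := rfl
    have e : ihfUnitHom N ⟨P, hPmem⟩ = ihtIota N r hrN hr2 x := by
      refine iht_iota_unique N r hrN hr2 ?_ ?_
      · rw [ihtIota_mod_r]
        apply Units.ext
        rw [ZMod.unitsMap_val, ihfUnitHom_coe, hd, ZMod.cast_intCast hrN]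
        push_cast
        rw [hsr, hwr]
        linear_combination (-1 : ZMod r) * hxx
      · rw [ihtIota_mod_div]
        apply Units.ext
        rw [ZMod.unitsMap_val, ihfUnitHom_coe, hd, ZMod.cast_intCast (Nat.div_dvd_of_dvd hrN),
          Units.val_one]
        have : ((s : ℤ) : ZMod (N / r)) = 0 := by
          rw [ZMod.intCast_zmod_eq_zero_iff_dvd]
          exact ⟨m * (xi - 1), by rw [hs]⟩
        push_cast
        rw [this, zero_mul, zero_add]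
    rw [← e, ihfUnitHom_coe]
  · show ihtiR r 1 * !![1, 0; (r : ℤ) * s, 1] * ihtiR r w
      = ((r * r : ℕ) : ℤ) • !![1 + s, b; (r : ℤ) * s, s * w + 1]
    ext i j
    fin_cases i <;> fin_cases j
    · simp [ihtiR, Matrix.mul_apply, Fin.sum_univ_two]
      ring
    · simp [ihtiR, Matrix.mul_apply, Fin.sum_univ_two]
      linear_combination (r : ℤ) * hb
    · simp [ihtiR, Matrix.mul_apply, Fin.sum_univ_two]
      ring
    · simp [ihtiR, Matrix.mul_apply, Fin.sum_univ_two]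
      ring

end Fermat.Agent.Ihara
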