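/-
IHARA package [TWIST] (Tw4) (helper7), file 3: **the twist is injective on every eigenspace of the
diamond operators** (`ihti_tw_injective` = the statement `iht_tw_injective` of `Tw/Main.lean`).

Let `φ : Γ_H(N) → A` be a `ψ`-eigenvector of the diamond operators with `Tw φ = 0`.  For a deep
`δ` let `E_j = R_j δ R_j⁻¹` (`R_j = [[r, j], [0, r]]`, `j ∈ ℤ`).  Then (`ihti_system`)
`∑_u ψ(y u) φ(E_{u + v}) = 0` for all `v`, and `φ(E_j)` depends only on `j mod r`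
(`ihti_periodic`); by the circulant lemmas (`Tw/Inj.lean`) either `φ(δ) = 0` (if `ψ ∘ y = 1`) or
`φ(E_j) = φ(δ)` for all `j`.  In the second case Li's decomposition `R_1 g' R_w = r² P`
(`ihti_li`) gives `ψ(ι x) φ(δ) = φ(P δ P⁻¹) = φ(δ)` with `ψ(ι x) ≠ 1`.  So `φ` vanishes on a deep
principal congruence subgroup, hence `φ = 0`.
-/
import Mathlib
import Fermat.Agent.Lib.Ihara.Tw.Inj
import Fermat.Agent.Lib.Ihara.Tw.InjMat

set_option autoImplicit false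
set_option linter.unusedSectionVars false
set_option linter.unusedVariables false
set_option linter.style.haveILetI false

namespace Fermat.Agent.Ihara

open Matrix MatrixGroups CongruenceSubgroup ModularCurve ModularCurve.Period
open Fermat.Agent.DS Fermat.Agent.T1 Fermat.Agent.T1G Fermat.Agent.T2

section Ext

variable {N : ℕ} {H : Subgroup (ZMod N)ˣ} {A : Type*} [AddCommGroup A]

/-- extension by zero of a homomorphism on `Γ_H(N)` to a function on `SL₂(ℤ)` -/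
noncomputable def ihtiExt (φ : Additive (ihfGammaH N H) →+ A) (γ : SL(2, ℤ)) : A := by
  classical
  exact if h : γ ∈ ihfGammaH N H then φ (Additive.ofMul ⟨γ, h⟩) else 0

theorem ihtiExt_of_mem (φ : Additive (ihfGammaH N H) →+ A) {γ : SL(2, ℤ)}
    (h : γ ∈ ihfGammaH N H) : ihtiExt φ γ = φ (Additive.ofMul ⟨γ, h⟩) := by
  classical
  exact dif_pos h

theorem ihtiExt_coe (φ : Additive (ihfGammaH N H) →+ A) (γ : ihfGammaH N H) :
    ihtiExt φ (γ : SL(2, ℤ)) = φ (Additive.ofMul γ) :=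
  ihtiExt_of_mem φ γ.2

/-- conjugation by an element of `Γ_H(N)` does not change the value -/
theorem ihtiExt_conj (φ : Additive (ihfGammaH N H) →+ A) {g γ : SL(2, ℤ)}
    (hg : g ∈ ihfGammaH N H) (hγ : γ ∈ ihfGammaH N H) :
    ihtiExt φ (g * γ * g⁻¹) = ihtiExt φ γ := by
  rw [ihtiExt_of_mem φ (mul_mem (mul_mem hg hγ) (inv_mem hg)), ihtiExt_of_mem φ hγ]
  have : (⟨g * γ * g⁻¹, mul_mem (mul_mem hg hγ) (inv_mem hg)⟩ : ihfGammaH N H)
      = (⟨g, hg⟩ : ihfGammaH N H) * ⟨γ, hγ⟩ * (⟨g, hg⟩ : ihfGammaH N H)⁻¹ := Subtype.ext rfl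
  rw [this, ofMul_mul, ofMul_mul, ofMul_inv, map_add, map_add, map_neg]
  abel

variable [NeZero N] {R : Type*} [CommRing R] [Module R A]

/-- conjugation by an element of `Γ₀(N)` with lower right entry `x` multiplies the value of a
`⟨x⟩`-eigenvector by the eigenvalue -/
theorem ihtiExt_diamond (φ : Additive (ihfGammaH N H) →+ A) (a : R) (x : (ZMod N)ˣ)
    (hφ : (ihfSysD N H x).hom A φ = a • φ) {g γ : SL(2, ℤ)} (hg : g ∈ Gamma0 N)
    (hd : dshD N g = (x : ZMod N)) (hγ : γ ∈ ihfGammaH N H) :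
    ihtiExt φ (g * γ * g⁻¹) = a • ihtiExt φ γ := by
  have h1 := ihfSysD_hom_eq N H x g hg hd φ
  have h2 := ihfSysC_hom_apply N H g hg φ ⟨γ, hγ⟩
  rw [← h1, hφ, AddMonoidHom.smul_apply] at h2
  rw [ihtiExt_of_mem φ (ihf_conj_mem_GammaH hg hγ), ihtiExt_of_mem φ hγ]
  exact h2.symm

end Ext

section Main

variable {N r : ℕ} [NeZero N] [hr : Fact r.Prime] {H : Subgroup (ZMod N)ˣ} {k : ℕ}
  {Γ' : Subgroup SL(2, ℤ)} (hyp : IhtHyp N r H k Γ')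
  {R : Type*} [CommRing R] {A : Type*} [AddCommGroup A] [Module R A]

/-- **the circulant system**: if `Tw φ = 0` for a `ψ`-eigenvector `φ`, then for a family
`E_j = R_j δ R_j⁻¹` of deep elements, `∑_u ψ(y u) φ(E_{u + v}) = 0` for all `v`. -/
theorem ihti_system (ψ : (ZMod N)ˣ →* R) (φ : Additive (ihfGammaH N H) →+ A)
    (hφ : ∀ x : (ZMod N)ˣ, (ihfSysD N H x).hom A φ = ψ x • φ)
    (h0 : (ihtSys hyp).cor A φ = 0) :
    ∃ D : ℕ, D ≠ 0 ∧ N * r ∣ D ∧ ∀ (δ : SL(2, ℤ)) (E : ℤ → SL(2, ℤ)),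
      (∀ j, ihtiR r j * (δ : Matrix (Fin 2) (Fin 2) ℤ)
        = (E j : Matrix (Fin 2) (Fin 2) ℤ) * ihtiR r j) →
      (∀ j, E j ∈ Gamma D) →
      ∀ v : ℤ, ∑ u : (ZMod r)ˣ,
        ψ (ihtY hyp u) • ihtiExt φ (E ((((u : ZMod r).val : ℕ) : ℤ) + v)) = 0 := by
  have hr0 : r ≠ 0 := hr.out.ne_zero
  obtain ⟨D, hD0, hND, hD⟩ := (ihtSys_loc hyp A).exists_depth (N * r)
    (Nat.mul_ne_zero (NeZero.ne N) hr0)
  refine ⟨D, hD0, hND, fun δ E hE hED v => ?_⟩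
  have hΓ' : E v ∈ Γ' := hyp.cong (iht_Gamma_le_of_dvd hND (hED v))
  obtain ⟨ε, h1, -, h3⟩ := hD 1 ⟨E v, hΓ'⟩ (by rw [mul_one]; exact hED v)
  have h4 := h3 φ
  rw [h0, AddMonoidHom.zero_apply] at h4
  rw [h4]
  refine Finset.sum_congr rfl fun u _ => ?_
  set j : ℤ := (((u : ZMod r).val : ℕ) : ℤ) with hj
  set g : SL(2, ℤ) := dshGammaU N (ihtY hyp u) with hg
  have hND' : N ∣ D := (Dvd.intro r rfl).trans hND
  have hEmem : E (j + v) ∈ ihfGammaH N H :=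
    iht_Gamma_le_GammaH (iht_Gamma_le_of_dvd hND' (hED _))
  have key : ((ε u : ihfGammaH N H) : SL(2, ℤ)) = g * E (j + v) * g⁻¹ := by
    apply Subtype.ext
    have hdet : (ihtRep hyp u).det ≠ 0 := by
      rw [ihtRep_det]; exact_mod_cast Nat.mul_ne_zero hr0 hr0
    apply tdm_mul_right_cancel hdet
    rw [← h1 u]
    show ihtRep hyp u * (E v : Matrix (Fin 2) (Fin 2) ℤ) = _
    rw [ihtRep, ihtAlpha_eq_ihtiR, Matrix.mul_assoc, ihti_family_comm hr0 hE,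
      tgm_SL_mul_assoc, tgm_SL_mul_assoc, tgm_SL_inv_mul_cancel]
  have h5 : φ (Additive.ofMul (ε u)) = ihtiExt φ ((ε u : ihfGammaH N H) : SL(2, ℤ)) :=
    (ihtiExt_coe φ (ε u)).symm
  rw [h5, key]
  exact (ihtiExt_diamond φ (ψ (ihtY hyp u)) (ihtY hyp u) (hφ _) (dshGammaU_mem N _)
    (dshD_dshGammaU N _) hEmem).symm

end Main

section Periodic

variable {N r : ℕ} {H : Subgroup (ZMod N)ˣ} {A : Type*} [AddCommGroup A]

/-- `φ(E_j)` only depends on `j mod r` -/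
theorem ihti_periodic_aux (hr : r ≠ 0) (φ : Additive (ihfGammaH N H) →+ A) {δ : SL(2, ℤ)}
    {E : ℤ → SL(2, ℤ)}
    (hE : ∀ j, ihtiR r j * (δ : Matrix (Fin 2) (Fin 2) ℤ)
      = (E j : Matrix (Fin 2) (Fin 2) ℤ) * ihtiR r j)
    (hmem : ∀ j, E j ∈ ihfGammaH N H) (j q : ℤ) :
    ihtiExt φ (E (j + r * q)) = ihtiExt φ (E j) := by
  have hT : ModularGroup.T ∈ ihfGammaH N H := ihfGamma1_le_GammaH (ihti_T_mem_Gamma1 N)
  have step : ∀ i : ℤ, ihtiExt φ (E (i + r)) = ihtiExt φ (E i) := fun i => by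
    rw [ihti_family_shift hr hE i, ihtiExt_conj φ hT (hmem i)]
  induction q using Int.induction_on with
  | zero => rw [mul_zero, add_zero]
  | succ q ih =>
    have : j + (r : ℤ) * ((q : ℤ) + 1) = (j + r * q) + r := by ring
    rw [this, step, ih]
  | pred q ih =>
    have : j + (r : ℤ) * (-(q : ℤ)) = (j + r * (-(q : ℤ) - 1)) + r := by ring
    rw [this, step] at ih
    exact ih

theorem ihti_periodic [NeZero r] (φ : Additive (ihfGammaH N H) →+ A) {δ : SL(2, ℤ)}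
    {E : ℤ → SL(2, ℤ)}
    (hE : ∀ j, ihtiR r j * (δ : Matrix (Fin 2) (Fin 2) ℤ)
      = (E j : Matrix (Fin 2) (Fin 2) ℤ) * ihtiR r j)
    (hmem : ∀ j, E j ∈ ihfGammaH N H) (j : ℤ) :
    ihtiExt φ (E j) = ihtiExt φ (E ((((j : ZMod r).val : ℕ) : ℤ))) := by
  have h1 : j = (((j : ZMod r).val : ℕ) : ℤ) + r * (j / r) := by
    rw [ZMod.val_intCast, Int.emod_add_mul_ediv]
  conv_lhs => rw [h1]
  exact ihti_periodic_aux (NeZero.ne r) φ hE hmem _ _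

end Periodic

section Dich

variable {N r : ℕ} [NeZero N] [hr : Fact r.Prime] {H : Subgroup (ZMod N)ˣ} {k : ℕ}
  {Γ' : Subgroup SL(2, ℤ)} (hyp : IhtHyp N r H k Γ')
  {R : Type*} [CommRing R] [IsDomain R] [CharZero R] {A : Type*} [AddCommGroup A] [Module R A]
  [NoZeroSMulDivisors R A]

omit [NeZero N] in
theorem ihti_sum_units {V : Type*} [AddCommMonoid V] (f : ZMod r → V) :
    ∑ u : (ZMod r)ˣ, f (u : ZMod r) = ∑ t ∈ Finset.univ.erase (0 : ZMod r), f t := by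
  refine Finset.sum_bij (fun u _ => (u : ZMod r)) (fun u _ => ?_) (fun u _ u' _ h => Units.ext h)
    (fun t ht => ?_) (fun u _ => rfl)
  · exact Finset.mem_erase.mpr ⟨u.ne_zero, Finset.mem_univ _⟩
  · exact ⟨Units.mk0 t (Finset.ne_of_mem_erase ht), Finset.mem_univ _, rfl⟩

/-- the common part: the values `φ(E_j)` form an `r`-periodic family satisfying the circulant
system -/
theorem ihti_family_system (ψ : (ZMod N)ˣ →* R) (φ : Additive (ihfGammaH N H) →+ A)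
    (hφ : ∀ x : (ZMod N)ˣ, (ihfSysD N H x).hom A φ = ψ x • φ)
    (h0 : (ihtSys hyp).cor A φ = 0) :
    ∃ D : ℕ, D ≠ 0 ∧ N ∣ D ∧ ∀ δ ∈ Gamma (r * r * D),
      ∃ (E : ℤ → SL(2, ℤ)) (w : ZMod r → A),
        (∀ j, ihtiR r j * (δ : Matrix (Fin 2) (Fin 2) ℤ)
          = (E j : Matrix (Fin 2) (Fin 2) ℤ) * ihtiR r j) ∧
        (∀ j : ℤ, ihtiExt φ (E j) = w (j : ZMod r)) ∧
        ∀ v : ZMod r, ∑ u : (ZMod r)ˣ, ψ (ihtY hyp u) • w ((u : ZMod r) + v) = 0 := by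
  have hr0 : r ≠ 0 := hr.out.ne_zero
  haveI : NeZero r := ⟨hr0⟩
  obtain ⟨D, hD0, hND, hD⟩ := ihti_system hyp ψ φ hφ h0
  have hND' : N ∣ D := (Dvd.intro r rfl).trans hND
  refine ⟨D, hD0, hND', fun δ hδ => ?_⟩
  obtain ⟨E, hE1, hE2⟩ := ihti_exists_family hr0 D δ hδ
  have hmem : ∀ j, E j ∈ ihfGammaH N H := fun j =>
    iht_Gamma_le_GammaH (iht_Gamma_le_of_dvd hND' (hE1 j))
  refine ⟨E, fun t => ihtiExt φ (E ((t.val : ℕ) : ℤ)), hE2,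
    fun j => ihti_periodic φ hE2 hmem j, fun v => ?_⟩
  have h1 := hD δ E hE2 hE1 ((v.val : ℕ) : ℤ)
  rw [← h1]
  refine Finset.sum_congr rfl fun u _ => ?_
  congr 1
  rw [ihti_periodic φ hE2 hmem ((((u : ZMod r).val : ℕ) : ℤ) + ((v.val : ℕ) : ℤ))]
  have h2 : ((((((u : ZMod r).val : ℕ) : ℤ) + ((v.val : ℕ) : ℤ) : ℤ)) : ZMod r)
      = (u : ZMod r) + v := by
    push_cast
    rw [ZMod.natCast_zmod_val, ZMod.natCast_zmod_val]
  rw [h2]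

end Dich

section Cases

variable {N r : ℕ} [NeZero N] [hr : Fact r.Prime] {H : Subgroup (ZMod N)ˣ} {k : ℕ}
  {Γ' : Subgroup SL(2, ℤ)} (hyp : IhtHyp N r H k Γ')
  {R : Type*} [CommRing R] [IsDomain R] [CharZero R] {A : Type*} [AddCommGroup A] [Module R A]
  [NoZeroSMulDivisors R A]

/-- case `ψ ∘ y = 1`: `φ` vanishes on a deep principal congruence subgroup -/
theorem ihti_case_one (ψ : (ZMod N)ˣ →* R) (φ : Additive (ihfGammaH N H) →+ A)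
    (hφ : ∀ x : (ZMod N)ˣ, (ihfSysD N H x).hom A φ = ψ x • φ)
    (h0 : (ihtSys hyp).cor A φ = 0) (h1 : ∀ u : (ZMod r)ˣ, ψ (ihtY hyp u) = 1) :
    ∃ D : ℕ, D ≠ 0 ∧ ∀ δ ∈ Gamma D, ihtiExt φ δ = 0 := by
  have hr0 : r ≠ 0 := hr.out.ne_zero
  obtain ⟨D, hD0, hND, hD⟩ := ihti_family_system hyp ψ φ hφ h0
  refine ⟨r * r * D, Nat.mul_ne_zero (Nat.mul_ne_zero hr0 hr0) hD0, fun δ hδ => ?_⟩
  obtain ⟨E, w, hE, hw, hsys⟩ := hD δ hδ
  have hsys' : ∀ v : ZMod r, ∑ t ∈ Finset.univ.erase (0 : ZMod r), w (t + v) = 0 := by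
    intro v
    rw [← ihti_sum_units (fun t => w (t + v)), ← hsys v]
    refine Finset.sum_congr rfl fun u _ => ?_
    rw [h1 u, one_smul]
  have h2 := ihti_circulant_one (K := R) w hsys' 0
  have h3 := hw 0
  rw [ihti_family_zero hr0 hE, Int.cast_zero, h2] at h3
  exact h3

/-- case `ψ ∘ y ≠ 1`: `φ` is invariant under conjugation by the `R_j` on a deep principal
congruence subgroup -/
theorem ihti_case_nontriv (ψ : (ZMod N)ˣ →* R) (φ : Additive (ihfGammaH N H) →+ A)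
    (hφ : ∀ x : (ZMod N)ˣ, (ihfSysD N H x).hom A φ = ψ x • φ)
    (h0 : (ihtSys hyp).cor A φ = 0) (h1 : ∃ u : (ZMod r)ˣ, ψ (ihtY hyp u) ≠ 1) :
    ∃ D : ℕ, D ≠ 0 ∧ N ∣ D ∧ ∀ δ ∈ Gamma D, ∀ (j : ℤ) (ε : SL(2, ℤ)),
      ihtiR r j * (δ : Matrix (Fin 2) (Fin 2) ℤ) = (ε : Matrix (Fin 2) (Fin 2) ℤ) * ihtiR r j →
      ihtiExt φ ε = ihtiExt φ δ := by
  have hr0 : r ≠ 0 := hr.out.ne_zero
  obtain ⟨D, hD0, hND, hD⟩ := ihti_family_system hyp ψ φ hφ h0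
  refine ⟨r * r * D, Nat.mul_ne_zero (Nat.mul_ne_zero hr0 hr0) hD0,
    hND.trans (Dvd.intro_left _ rfl), fun δ hδ j ε hε => ?_⟩
  obtain ⟨E, w, hE, hw, hsys⟩ := hD δ hδ
  -- the multiplicative character `ψ ∘ y`
  set χ : MulChar (ZMod r) R := MulChar.ofUnitHom ((ψ.comp (ihtY hyp)).toHomUnits) with hχdef
  have hχ : ∀ u : (ZMod r)ˣ, χ (u : ZMod r) = ψ (ihtY hyp u) := by
    intro u
    rw [hχdef, MulChar.ofUnitHom_coe, MonoidHom.coe_toHomUnits]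
    rfl
  have hχ1 : χ ≠ 1 := by
    obtain ⟨u, hu⟩ := h1
    intro h
    apply hu
    rw [← hχ u, h, MulChar.one_apply_coe]
  have hsys' : ∀ v : ZMod r, ∑ t : ZMod r, χ t • w (t + v) = 0 := by
    intro v
    rw [← Finset.add_sum_erase Finset.univ _ (Finset.mem_univ (0 : ZMod r)), MulChar.map_zero,
      zero_smul, zero_add, ← ihti_sum_units (fun t => χ t • w (t + v)), ← hsys v]
    refine Finset.sum_congr rfl fun u _ => ?_
    rw [hχ u]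
  have h2 := ihti_circulant_nontriv χ hχ1 w hsys' ((j : ℤ) : ZMod r) 0
  have h3 := hw 0
  rw [ihti_family_zero hr0 hE, Int.cast_zero] at h3
  rw [ihti_family_unique hr0 hE hε, hw j, h2, ← h3]

end Cases

section Final

variable {N r : ℕ} [NeZero N] [hr : Fact r.Prime] {H : Subgroup (ZMod N)ˣ} {k : ℕ}
  {Γ' : Subgroup SL(2, ℤ)} (hyp : IhtHyp N r H k Γ')

section
variable {R : Type*} [CommRing R] [IsDomain R] [CharZero R] {A : Type*} [AddCommGroup A] [Module R A]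
  [NoZeroSMulDivisors R A]

/-- Li's step: in the case `ψ ∘ y ≠ 1`, `φ` vanishes on a deep principal congruence subgroup -/
theorem ihti_case_li (ψ : (ZMod N)ˣ →* R) (φ : Additive (ihfGammaH N H) →+ A)
    (hφ : ∀ x : (ZMod N)ˣ, (ihfSysD N H x).hom A φ = ψ x • φ)
    (h0 : (ihtSys hyp).cor A φ = 0) (h1 : ∃ u : (ZMod r)ˣ, ψ (ihtY hyp u) ≠ 1) :
    ∃ D : ℕ, D ≠ 0 ∧ ∀ δ ∈ Gamma D, ihtiExt φ δ = 0 := by
  have hr0 : r ≠ 0 := hr.out.ne_zero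
  have hrr0 : r * r ≠ 0 := Nat.mul_ne_zero hr0 hr0
  obtain ⟨D, hD0, hND, hD⟩ := ihti_case_nontriv hyp ψ φ hφ h0 h1
  obtain ⟨u₀, hu₀⟩ := h1
  obtain ⟨w, g', P, hg', hP, hdP, hdec⟩ := ihti_li hyp.dvd hyp.not_sq (u₀ ^ k)
  have hιx : ihtIota N r hyp.dvd hyp.not_sq (u₀ ^ k) = ihtY hyp u₀ := by
    rw [ihtY_apply, map_pow]
  refine ⟨r * r * (r * r * D), Nat.mul_ne_zero hrr0 (Nat.mul_ne_zero hrr0 hD0), fun δ hδ => ?_⟩
  have hδD : δ ∈ Gamma D :=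
    iht_Gamma_le_of_dvd ((Dvd.intro_left (r * r) rfl).trans (Dvd.intro_left (r * r) rfl)) hδ
  have hδH : δ ∈ ihfGammaH N H := iht_Gamma_le_GammaH (iht_Gamma_le_of_dvd hND hδD)
  -- `ε₁ = R_w δ R_w⁻¹`
  obtain ⟨ε₁, hε₁D, hε₁⟩ := iht_conj_principal (ihtiR r w) (ihtiR_det r w) hrr0 (r * r * D) δ hδ
  have e1 : ihtiExt φ ε₁ = ihtiExt φ δ := hD δ hδD w ε₁ hε₁
  have hε₁H : ε₁ ∈ ihfGammaH N H :=
    iht_Gamma_le_GammaH (iht_Gamma_le_of_dvd (hND.trans (Dvd.intro_left (r * r) rfl)) hε₁D)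
  -- `ε₂ = g' ε₁ g'⁻¹`
  obtain ⟨ε₂, hε₂def⟩ : ∃ ε₂ : SL(2, ℤ), ε₂ = g' * ε₁ * g'⁻¹ := ⟨_, rfl⟩
  have hε₂ : ε₂ ∈ Gamma (r * r * D) := by
    rw [hε₂def]; exact (Gamma_normal _).conj_mem _ hε₁D _
  have hg'H : g' ∈ ihfGammaH N H := ihfGamma1_le_GammaH hg'
  have e2 : ihtiExt φ ε₂ = ihtiExt φ ε₁ := by
    rw [hε₂def]; exact ihtiExt_conj φ hg'H hε₁H
  have hcomm : (ε₂ : Matrix (Fin 2) (Fin 2) ℤ) * (g' : Matrix (Fin 2) (Fin 2) ℤ)
      = (g' : Matrix (Fin 2) (Fin 2) ℤ) * (ε₁ : Matrix (Fin 2) (Fin 2) ℤ) := by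
    rw [← Matrix.SpecialLinearGroup.coe_mul, ← Matrix.SpecialLinearGroup.coe_mul, hε₂def]
    congr 1
    group
  -- `ε₃ = R_1 ε₂ R_1⁻¹`
  obtain ⟨ε₃, hε₃D, hε₃⟩ := iht_conj_principal (ihtiR r 1) (ihtiR_det r 1) hrr0 D ε₂ hε₂
  have e3 : ihtiExt φ ε₃ = ihtiExt φ ε₂ :=
    hD ε₂ (iht_Gamma_le_of_dvd (Dvd.intro_left (r * r) rfl) hε₂) 1 ε₃ hε₃
  -- `ε₃ = P δ P⁻¹`
  have hmat : (ε₃ : Matrix (Fin 2) (Fin 2) ℤ) * (P : Matrix (Fin 2) (Fin 2) ℤ)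
      = (P : Matrix (Fin 2) (Fin 2) ℤ) * (δ : Matrix (Fin 2) (Fin 2) ℤ) := by
    have hc0 : (((r * r : ℕ) : ℤ)) ≠ 0 := by exact_mod_cast hrr0
    apply smul_right_injective (Matrix (Fin 2) (Fin 2) ℤ) hc0
    show ((r * r : ℕ) : ℤ) • ((ε₃ : Matrix (Fin 2) (Fin 2) ℤ) * (P : Matrix (Fin 2) (Fin 2) ℤ))
      = ((r * r : ℕ) : ℤ) • ((P : Matrix (Fin 2) (Fin 2) ℤ) * (δ : Matrix (Fin 2) (Fin 2) ℤ))
    rw [← Matrix.mul_smul, ← Matrix.smul_mul, ← hdec]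
    calc (ε₃ : Matrix (Fin 2) (Fin 2) ℤ) * (ihtiR r 1 * (g' : Matrix (Fin 2) (Fin 2) ℤ) * ihtiR r w)
        = ((ε₃ : Matrix (Fin 2) (Fin 2) ℤ) * ihtiR r 1) * (g' : Matrix (Fin 2) (Fin 2) ℤ)
            * ihtiR r w := by simp only [Matrix.mul_assoc]
      _ = (ihtiR r 1 * (ε₂ : Matrix (Fin 2) (Fin 2) ℤ)) * (g' : Matrix (Fin 2) (Fin 2) ℤ)
            * ihtiR r w := by rw [hε₃]
      _ = ihtiR r 1 * ((ε₂ : Matrix (Fin 2) (Fin 2) ℤ) * (g' : Matrix (Fin 2) (Fin 2) ℤ))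
            * ihtiR r w := by simp only [Matrix.mul_assoc]
      _ = ihtiR r 1 * ((g' : Matrix (Fin 2) (Fin 2) ℤ) * (ε₁ : Matrix (Fin 2) (Fin 2) ℤ))
            * ihtiR r w := by rw [hcomm]
      _ = ihtiR r 1 * (g' : Matrix (Fin 2) (Fin 2) ℤ)
            * ((ε₁ : Matrix (Fin 2) (Fin 2) ℤ) * ihtiR r w) := by simp only [Matrix.mul_assoc]
      _ = ihtiR r 1 * (g' : Matrix (Fin 2) (Fin 2) ℤ)
            * (ihtiR r w * (δ : Matrix (Fin 2) (Fin 2) ℤ)) := by rw [hε₁]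
      _ = ihtiR r 1 * (g' : Matrix (Fin 2) (Fin 2) ℤ) * ihtiR r w
            * (δ : Matrix (Fin 2) (Fin 2) ℤ) := by simp only [Matrix.mul_assoc]
  have key : ε₃ = P * δ * P⁻¹ := by
    have h : ε₃ * P = P * δ := Subtype.ext (by
      rw [Matrix.SpecialLinearGroup.coe_mul, Matrix.SpecialLinearGroup.coe_mul]; exact hmat)
    exact eq_mul_inv_of_mul_eq h
  have e4 : ihtiExt φ (P * δ * P⁻¹) = ψ (ihtY hyp u₀) • ihtiExt φ δ :=
    ihtiExt_diamond φ _ (ihtY hyp u₀) (hφ _) hP (by rw [hdP, hιx]) hδH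
  have h5 : (ψ (ihtY hyp u₀) - 1) • ihtiExt φ δ = 0 := by
    rw [sub_smul, one_smul, ← e4, ← key, e3, e2, e1, sub_self]
  exact (smul_eq_zero.mp h5).resolve_left (sub_ne_zero.mpr hu₀)

end

variable (R : Type*) [CommRing R] (A : Type*) [AddCommGroup A] [Module R A]
  [IsDomain R] [CharZero R] [NoZeroSMulDivisors R A]

/-- **(Tw4)** the twist is injective on every eigenspace of the diamond operators -/
theorem ihti_tw_injective (ψ : (ZMod N)ˣ →* R) (c : ↥(parabolicHoms R (ihfGammaH N H) A))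
    (hc : ∀ x : (ZMod N)ˣ, (ihfSysD N H x).homPar R A c = ψ x • c)
    (h0 : ihtTw hyp R A c = 0) : c = 0 := by
  haveI : NoZeroSMulDivisors ℕ A := ⟨fun {n a} h => by
    rw [← Nat.cast_smul_eq_nsmul R] at h
    rcases smul_eq_zero.mp h with h | h
    · left; exact_mod_cast h
    · right; exact h⟩
  obtain ⟨φ, hφdef⟩ : ∃ φ : Additive (ihfGammaH N H) →+ A, φ = c.1 := ⟨_, rfl⟩
  have hφ : ∀ x : (ZMod N)ˣ, (ihfSysD N H x).hom A φ = ψ x • φ := fun x => by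
    have := congrArg Subtype.val (hc x)
    rw [hφdef]
    exact this
  have h0' : (ihtSys hyp).cor A φ = 0 := by
    have := congrArg Subtype.val h0
    rw [hφdef]
    exact this
  have hdeep : ∃ D : ℕ, D ≠ 0 ∧ ∀ δ ∈ Gamma D, ihtiExt φ δ = 0 := by
    by_cases h1 : ∀ u : (ZMod r)ˣ, ψ (ihtY hyp u) = 1
    · exact ihti_case_one hyp ψ φ hφ h0' h1
    · exact ihti_case_li hyp ψ φ hφ h0' (not_forall.mp h1)
  obtain ⟨D, hD0, hD⟩ := hdeep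
  have h2 : φ = 0 := iht_hom_eq_zero_of_deep φ hD0 fun δ hδ => by
    rw [← ihtiExt_coe]; exact hD _ hδ
  exact Subtype.ext (hφdef.symm.trans h2)

end Final

end Fermat.Agent.Ihara
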