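/-
IHARA track, package [TWIST] (helper5), part 0: **general algebra of two-group coset systems**
(`T2fSys₂`, Lib/T2/F/Coset2.lean).

* `ihtgOfSys S` : a one-group system `tdmCosetSys Γ ι` as a two-group system, `cor = hom`;
* `ihtgResT S h` : restriction of the target group, `cor` becomes `res ∘ cor`;
* `ihtgComp S₁ S₂ hineq` : the composite system with representatives `rep₁ i * rep₂ k`
  (when these are pairwise inequivalent), `cor = cor₂ ∘ cor₁`;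
* `ihtg_sum_eq_of_factor`, `ihtg_cor_cor_eq_of_factor`, `ihtg_cor_cor_eq_smul`:
  **domination**: if the products `rep₁ i * rep₂ k` are of the form
  `n • (h * S.rep (f (i, k)))` with `h ∈ Γ`, for a third system `S`, then
  `cor₂ (cor₁ φ) δ = ∑ (i, k), φ (ε^S_δ (f (i, k)))`; if all fibres of `f` have `m` elements this is
  `m • S.cor φ`.
-/
import Mathlib
import Fermat.Agent.Lib.T2.F.Coset2

set_option autoImplicit false
set_option linter.unusedSectionVars false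
set_option linter.unusedVariables false

namespace Fermat.Agent.Ihara

open Matrix MatrixGroups CongruenceSubgroup ModularCurve ModularCurve.Period
open Fermat.Agent.T1 Fermat.Agent.T2

section Gen

variable {Γ Γ₁ Γ₂ : Subgroup SL(2, ℤ)} {ι ι₁ ι₂ κ : Type} [Fintype ι] [Fintype ι₁] [Fintype ι₂]
  [Fintype κ]

/-! ### One-group systems -/

/-- a one-group coset system as a two-group coset system -/
def ihtgOfSys (S : tdmCosetSys Γ ι) : T2fSys₂ Γ Γ ι where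
  rep := S.rep
  det_pos := S.det_pos
  perm := S.perm

@[simp] theorem ihtgOfSys_rep (S : tdmCosetSys Γ ι) : (ihtgOfSys S).rep = S.rep := rfl

theorem ihtgOfSys_eps (S : tdmCosetSys Γ ι) (δ : Γ) (i : ι) :
    (ihtgOfSys S).eps δ i = S.eps δ i :=
  (((ihtgOfSys S).eq_of_rep_mul (S.rep_mul δ i)).2).symm

theorem ihtgOfSys_cor (S : tdmCosetSys Γ ι) {A : Type*} [AddCommGroup A]
    (φ : Additive Γ →+ A) : (ihtgOfSys S).cor A φ = S.hom A φ := by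
  refine AddMonoidHom.ext fun δ' => ?_
  obtain ⟨δ, rfl⟩ := Additive.ofMul.surjective δ'
  rw [T2fSys₂.cor_apply, tdmCosetSys.hom_apply]
  exact Finset.sum_congr rfl fun i _ => by rw [ihtgOfSys_eps]

/-! ### Restriction of the target group -/

/-- restriction of the target group -/
def ihtgResT (S : T2fSys₂ Γ Γ₁ ι) (h : Γ₂ ≤ Γ₁) : T2fSys₂ Γ Γ₂ ι where
  rep := S.rep
  det_pos := S.det_pos
  perm δ i := S.perm (Subgroup.inclusion h δ) i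

@[simp] theorem ihtgResT_rep (S : T2fSys₂ Γ Γ₁ ι) (h : Γ₂ ≤ Γ₁) : (ihtgResT S h).rep = S.rep := rfl

theorem ihtgResT_eps (S : T2fSys₂ Γ Γ₁ ι) (h : Γ₂ ≤ Γ₁) (δ : Γ₂) (i : ι) :
    (ihtgResT S h).eps δ i = S.eps (Subgroup.inclusion h δ) i :=
  (((ihtgResT S h).eq_of_rep_mul (δ := δ) (S.rep_mul (Subgroup.inclusion h δ) i)).2).symm

theorem ihtgResT_sigma (S : T2fSys₂ Γ Γ₁ ι) (h : Γ₂ ≤ Γ₁) (δ : Γ₂) (i : ι) :
    (ihtgResT S h).sigma δ i = S.sigma (Subgroup.inclusion h δ) i :=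
  (((ihtgResT S h).eq_of_rep_mul (δ := δ) (S.rep_mul (Subgroup.inclusion h δ) i)).1).symm

/-- `cor` of the restricted system is `res ∘ cor` -/
theorem ihtgResT_cor (S : T2fSys₂ Γ Γ₁ ι) (h : Γ₂ ≤ Γ₁) {A : Type*} [AddCommGroup A]
    (φ : Additive Γ →+ A) : (ihtgResT S h).cor A φ = t2fRes h A (S.cor A φ) := by
  refine AddMonoidHom.ext fun δ' => ?_
  obtain ⟨δ, rfl⟩ := Additive.ofMul.surjective δ'
  rw [T2fSys₂.cor_apply, t2fRes_apply, T2fSys₂.cor_apply]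
  exact Finset.sum_congr rfl fun i _ => by rw [ihtgResT_eps]

/-! ### Uniqueness of representatives -/

/-- in a two-group coset system `rep i = γ * rep j` (`γ ∈ Γ`) forces `i = j` and `γ = 1` -/
theorem ihtg_rep_unique (S : T2fSys₂ Γ Γ₂ κ) {i j : κ} {γ : Γ}
    (h : S.rep i = ((γ : SL(2, ℤ)) : Matrix (Fin 2) (Fin 2) ℤ) * S.rep j) : j = i ∧ γ = 1 := by
  have h1 : S.rep i * (((1 : Γ₂) : SL(2, ℤ)) : Matrix (Fin 2) (Fin 2) ℤ)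
      = ((γ : SL(2, ℤ)) : Matrix (Fin 2) (Fin 2) ℤ) * S.rep j := by
    rw [Subgroup.coe_one, Matrix.SpecialLinearGroup.coe_one, Matrix.mul_one, h]
  obtain ⟨e1, e2⟩ := S.eq_of_rep_mul h1
  rw [S.sigmaFun_one] at e1
  rw [S.eps_one] at e2
  exact ⟨e1, e2⟩

/-- general uniqueness: `γ * rep i * δ = γ' * rep j` determines `j` and `γ'` -/
theorem ihtg_eq_of_mul (S : T2fSys₂ Γ Γ₂ κ) {i j : κ} {γ γ' : Γ} {δ : Γ₂}
    (h : ((γ : SL(2, ℤ)) : Matrix (Fin 2) (Fin 2) ℤ) * S.rep i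
        * ((δ : SL(2, ℤ)) : Matrix (Fin 2) (Fin 2) ℤ)
      = ((γ' : SL(2, ℤ)) : Matrix (Fin 2) (Fin 2) ℤ) * S.rep j) :
    j = S.sigma δ i ∧ γ' = γ * S.eps δ i := by
  have h1 : S.rep i * ((δ : SL(2, ℤ)) : Matrix (Fin 2) (Fin 2) ℤ)
      = (((γ⁻¹ * γ' : Γ) : SL(2, ℤ)) : Matrix (Fin 2) (Fin 2) ℤ) * S.rep j := by
    rw [Subgroup.coe_mul, Matrix.SpecialLinearGroup.coe_mul, Matrix.mul_assoc, ← h,
      ← Matrix.mul_assoc, ← Matrix.mul_assoc, ← Matrix.SpecialLinearGroup.coe_mul,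
      ← Subgroup.coe_mul, inv_mul_cancel, Subgroup.coe_one, Matrix.SpecialLinearGroup.coe_one,
      Matrix.one_mul]
  obtain ⟨e1, e2⟩ := S.eq_of_rep_mul h1
  refine ⟨e1, ?_⟩
  rw [← e2]
  group

/-! ### Domination -/

/-- **domination, pointwise form**: a family `rep' i = n • (h i * S.rep (f i))` which is permuted by
right multiplication with `δ` (`rep' i * δ = ε' i * rep' (σ' i)`) has the same `ε`-sum as `S` -/
theorem ihtg_sum_eq_of_factor (S : T2fSys₂ Γ Γ₂ κ) (δ : Γ₂)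
    (rep' : ι → Matrix (Fin 2) (Fin 2) ℤ) (σ' : ι → ι) (hσ : Function.Bijective σ') (ε' : ι → Γ)
    (hmul : ∀ i, rep' i * ((δ : SL(2, ℤ)) : Matrix (Fin 2) (Fin 2) ℤ)
      = ((ε' i : SL(2, ℤ)) : Matrix (Fin 2) (Fin 2) ℤ) * rep' (σ' i))
    (f : ι → κ) (h : ι → Γ) (n : ℤ) (hn : n ≠ 0)
    (hrep : ∀ i, rep' i = n • (((h i : SL(2, ℤ)) : Matrix (Fin 2) (Fin 2) ℤ) * S.rep (f i)))
    {A : Type*} [AddCommGroup A] (φ : Additive Γ →+ A) :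
    ∑ i, φ (Additive.ofMul (ε' i)) = ∑ i, φ (Additive.ofMul (S.eps δ (f i))) := by
  have key : ∀ i, φ (Additive.ofMul (ε' i))
      = (φ (Additive.ofMul (h i)) + φ (Additive.ofMul (S.eps δ (f i))))
        - φ (Additive.ofMul (h (σ' i))) := by
    intro i
    have h1 := hmul i
    rw [hrep i, hrep (σ' i), Matrix.smul_mul, Matrix.mul_smul] at h1
    have h2 := smul_right_injective (Matrix (Fin 2) (Fin 2) ℤ) hn h1
    have h3 : ((h i : SL(2, ℤ)) : Matrix (Fin 2) (Fin 2) ℤ) * S.rep (f i)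
          * ((δ : SL(2, ℤ)) : Matrix (Fin 2) (Fin 2) ℤ)
        = (((ε' i * h (σ' i) : Γ) : SL(2, ℤ)) : Matrix (Fin 2) (Fin 2) ℤ) * S.rep (f (σ' i)) := by
      rw [h2, Subgroup.coe_mul, Matrix.SpecialLinearGroup.coe_mul, Matrix.mul_assoc]
    have h4 := (ihtg_eq_of_mul S h3).2
    have h5 := congrArg (fun g : Γ => φ (Additive.ofMul g)) h4
    simp only [ofMul_mul, map_add] at h5
    rw [eq_sub_iff_add_eq]
    exact h5
  rw [Finset.sum_congr rfl fun i _ => key i, Finset.sum_sub_distrib, Finset.sum_add_distrib]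
  have h6 : ∑ i, φ (Additive.ofMul (h (σ' i))) = ∑ i, φ (Additive.ofMul (h i)) :=
    Function.Bijective.sum_comp hσ (fun i => φ (Additive.ofMul (h i)))
  rw [h6]
  abel

/-- the skew product of the permutations of two composable systems is bijective -/
theorem ihtg_skew_bijective (S₁ : T2fSys₂ Γ Γ₁ ι₁) (S₂ : T2fSys₂ Γ₁ Γ₂ ι₂) (δ : Γ₂) :
    Function.Bijective (fun x : ι₁ × ι₂ =>
      ((S₁.sigma (S₂.eps δ x.2) x.1, S₂.sigma δ x.2) : ι₁ × ι₂)) := by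
  have hinj : Function.Injective (fun x : ι₁ × ι₂ =>
      ((S₁.sigma (S₂.eps δ x.2) x.1, S₂.sigma δ x.2) : ι₁ × ι₂)) := by
    rintro ⟨i, k⟩ ⟨i', k'⟩ hx
    have h2 : S₂.sigma δ k = S₂.sigma δ k' := congrArg Prod.snd hx
    have hk : k = k' := (S₂.sigma δ).injective h2
    subst hk
    have h1 : S₁.sigma (S₂.eps δ k) i = S₁.sigma (S₂.eps δ k) i' := congrArg Prod.fst hx
    rw [(S₁.sigma (S₂.eps δ k)).injective h1]
  exact ⟨hinj, Finite.injective_iff_surjective.mp hinj⟩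

/-- the product of representatives of two composable systems -/
theorem ihtg_rep_rep_mul (S₁ : T2fSys₂ Γ Γ₁ ι₁) (S₂ : T2fSys₂ Γ₁ Γ₂ ι₂) (δ : Γ₂) (x : ι₁ × ι₂) :
    S₁.rep x.1 * S₂.rep x.2 * ((δ : SL(2, ℤ)) : Matrix (Fin 2) (Fin 2) ℤ)
      = ((S₁.eps (S₂.eps δ x.2) x.1 : SL(2, ℤ)) : Matrix (Fin 2) (Fin 2) ℤ)
        * (S₁.rep (S₁.sigma (S₂.eps δ x.2) x.1) * S₂.rep (S₂.sigma δ x.2)) := by
  rw [Matrix.mul_assoc, S₂.rep_mul δ x.2, ← Matrix.mul_assoc, S₁.rep_mul (S₂.eps δ x.2) x.1,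
    Matrix.mul_assoc]

theorem ihtg_cor_cor_apply (S₁ : T2fSys₂ Γ Γ₁ ι₁) (S₂ : T2fSys₂ Γ₁ Γ₂ ι₂) {A : Type*}
    [AddCommGroup A] (φ : Additive Γ →+ A) (δ : Γ₂) :
    S₂.cor A (S₁.cor A φ) (Additive.ofMul δ)
      = ∑ x : ι₁ × ι₂, φ (Additive.ofMul (S₁.eps (S₂.eps δ x.2) x.1)) := by
  rw [T2fSys₂.cor_apply, Fintype.sum_prod_type, Finset.sum_comm]
  exact Finset.sum_congr rfl fun k _ => by rw [T2fSys₂.cor_apply]

/-- **domination for a composite**: if `rep₁ i * rep₂ k = n • (h (i,k) * S.rep (f (i,k)))`, then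
`cor₂ (cor₁ φ) δ = ∑ (i,k), φ (ε^S_δ (f (i,k)))` -/
theorem ihtg_cor_cor_eq_of_factor (S₁ : T2fSys₂ Γ Γ₁ ι₁) (S₂ : T2fSys₂ Γ₁ Γ₂ ι₂)
    (S : T2fSys₂ Γ Γ₂ κ) (f : ι₁ × ι₂ → κ) (h : ι₁ × ι₂ → Γ) (n : ℤ) (hn : n ≠ 0)
    (hrep : ∀ x : ι₁ × ι₂, S₁.rep x.1 * S₂.rep x.2
      = n • (((h x : SL(2, ℤ)) : Matrix (Fin 2) (Fin 2) ℤ) * S.rep (f x)))
    {A : Type*} [AddCommGroup A] (φ : Additive Γ →+ A) (δ : Γ₂) :
    S₂.cor A (S₁.cor A φ) (Additive.ofMul δ)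
      = ∑ x : ι₁ × ι₂, φ (Additive.ofMul (S.eps δ (f x))) := by
  rw [ihtg_cor_cor_apply]
  exact ihtg_sum_eq_of_factor S δ (fun x : ι₁ × ι₂ => S₁.rep x.1 * S₂.rep x.2) _
    (ihtg_skew_bijective S₁ S₂ δ) (fun x => S₁.eps (S₂.eps δ x.2) x.1)
    (fun x => ihtg_rep_rep_mul S₁ S₂ δ x) f h n hn hrep φ

/-- **domination with constant multiplicity** -/
theorem ihtg_cor_cor_eq_smul (S₁ : T2fSys₂ Γ Γ₁ ι₁) (S₂ : T2fSys₂ Γ₁ Γ₂ ι₂)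
    (S : T2fSys₂ Γ Γ₂ κ) (f : ι₁ × ι₂ → κ) (h : ι₁ × ι₂ → Γ) (n : ℤ) (hn : n ≠ 0)
    (hrep : ∀ x : ι₁ × ι₂, S₁.rep x.1 * S₂.rep x.2
      = n • (((h x : SL(2, ℤ)) : Matrix (Fin 2) (Fin 2) ℤ) * S.rep (f x)))
    (m : ℕ) [DecidableEq κ] (hm : ∀ y : κ, (Finset.univ.filter fun x => f x = y).card = m)
    {A : Type*} [AddCommGroup A] (φ : Additive Γ →+ A) :
    S₂.cor A (S₁.cor A φ) = m • S.cor A φ := by
  refine AddMonoidHom.ext fun δ' => ?_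
  obtain ⟨δ, rfl⟩ := Additive.ofMul.surjective δ'
  rw [ihtg_cor_cor_eq_of_factor S₁ S₂ S f h n hn hrep φ δ, AddMonoidHom.smul_apply,
    T2fSys₂.cor_apply, Finset.smul_sum]
  rw [← Finset.sum_fiberwise (Finset.univ : Finset (ι₁ × ι₂)) f
    (fun x => φ (Additive.ofMul (S.eps δ (f x))))]
  refine Finset.sum_congr rfl fun y _ => ?_
  rw [Finset.sum_congr rfl (g := fun _ => φ (Additive.ofMul (S.eps δ y)))
    (fun x hx => by rw [(Finset.mem_filter.mp hx).2]), Finset.sum_const, hm y]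

/-- **bijective domination**: `cor₂ ∘ cor₁ = S.cor` when `f` is bijective -/
theorem ihtg_cor_cor_eq_of_bij (S₁ : T2fSys₂ Γ Γ₁ ι₁) (S₂ : T2fSys₂ Γ₁ Γ₂ ι₂)
    (S : T2fSys₂ Γ Γ₂ κ) (f : ι₁ × ι₂ → κ) (hf : Function.Bijective f) (h : ι₁ × ι₂ → Γ) (n : ℤ)
    (hn : n ≠ 0)
    (hrep : ∀ x : ι₁ × ι₂, S₁.rep x.1 * S₂.rep x.2
      = n • (((h x : SL(2, ℤ)) : Matrix (Fin 2) (Fin 2) ℤ) * S.rep (f x)))
    {A : Type*} [AddCommGroup A] (φ : Additive Γ →+ A) :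
    S₂.cor A (S₁.cor A φ) = S.cor A φ := by
  refine AddMonoidHom.ext fun δ' => ?_
  obtain ⟨δ, rfl⟩ := Additive.ofMul.surjective δ'
  rw [ihtg_cor_cor_eq_of_factor S₁ S₂ S f h n hn hrep φ δ, T2fSys₂.cor_apply]
  exact Function.Bijective.sum_comp hf (fun y => φ (Additive.ofMul (S.eps δ y)))

/-! ### The composite system -/

/-- the composite of two systems, with representatives `rep₁ i * rep₂ k`, when these are pairwise
inequivalent -/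
def ihtgComp (S₁ : T2fSys₂ Γ Γ₁ ι₁) (S₂ : T2fSys₂ Γ₁ Γ₂ ι₂)
    (hineq : ∀ (x y : ι₁ × ι₂) (γ : Γ),
      ((γ : SL(2, ℤ)) : Matrix (Fin 2) (Fin 2) ℤ) * (S₁.rep x.1 * S₂.rep x.2)
        = S₁.rep y.1 * S₂.rep y.2 → x = y) : T2fSys₂ Γ Γ₂ (ι₁ × ι₂) :=
  T2fSys₂.ofInequiv (fun x => S₁.rep x.1 * S₂.rep x.2)
    (fun x => by rw [Matrix.det_mul]; exact mul_pos (S₁.det_pos _) (S₂.det_pos _))
    hineq
    (fun δ x => ⟨(S₁.sigma (S₂.eps δ x.2) x.1, S₂.sigma δ x.2), S₁.eps (S₂.eps δ x.2) x.1,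
      ihtg_rep_rep_mul S₁ S₂ δ x⟩)

@[simp] theorem ihtgComp_rep (S₁ : T2fSys₂ Γ Γ₁ ι₁) (S₂ : T2fSys₂ Γ₁ Γ₂ ι₂)
    (hineq : ∀ (x y : ι₁ × ι₂) (γ : Γ),
      ((γ : SL(2, ℤ)) : Matrix (Fin 2) (Fin 2) ℤ) * (S₁.rep x.1 * S₂.rep x.2)
        = S₁.rep y.1 * S₂.rep y.2 → x = y) (x : ι₁ × ι₂) :
    (ihtgComp S₁ S₂ hineq).rep x = S₁.rep x.1 * S₂.rep x.2 := rfl

theorem ihtgComp_eps (S₁ : T2fSys₂ Γ Γ₁ ι₁) (S₂ : T2fSys₂ Γ₁ Γ₂ ι₂)
    (hineq : ∀ (x y : ι₁ × ι₂) (γ : Γ),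
      ((γ : SL(2, ℤ)) : Matrix (Fin 2) (Fin 2) ℤ) * (S₁.rep x.1 * S₂.rep x.2)
        = S₁.rep y.1 * S₂.rep y.2 → x = y) (δ : Γ₂) (x : ι₁ × ι₂) :
    (ihtgComp S₁ S₂ hineq).eps δ x = S₁.eps (S₂.eps δ x.2) x.1 := by
  have h : (ihtgComp S₁ S₂ hineq).rep x * ((δ : SL(2, ℤ)) : Matrix (Fin 2) (Fin 2) ℤ)
      = ((S₁.eps (S₂.eps δ x.2) x.1 : SL(2, ℤ)) : Matrix (Fin 2) (Fin 2) ℤ)
        * (ihtgComp S₁ S₂ hineq).rep (S₁.sigma (S₂.eps δ x.2) x.1, S₂.sigma δ x.2) := by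
    rw [ihtgComp_rep, ihtgComp_rep]
    exact ihtg_rep_rep_mul S₁ S₂ δ x
  exact (((ihtgComp S₁ S₂ hineq).eq_of_rep_mul h).2).symm

/-- `cor` of the composite system is `cor₂ ∘ cor₁` -/
theorem ihtgComp_cor (S₁ : T2fSys₂ Γ Γ₁ ι₁) (S₂ : T2fSys₂ Γ₁ Γ₂ ι₂)
    (hineq : ∀ (x y : ι₁ × ι₂) (γ : Γ),
      ((γ : SL(2, ℤ)) : Matrix (Fin 2) (Fin 2) ℤ) * (S₁.rep x.1 * S₂.rep x.2)
        = S₁.rep y.1 * S₂.rep y.2 → x = y) {A : Type*} [AddCommGroup A]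
    (φ : Additive Γ →+ A) :
    (ihtgComp S₁ S₂ hineq).cor A φ = S₂.cor A (S₁.cor A φ) := by
  refine AddMonoidHom.ext fun δ' => ?_
  obtain ⟨δ, rfl⟩ := Additive.ofMul.surjective δ'
  rw [ihtg_cor_cor_apply, T2fSys₂.cor_apply]
  exact Finset.sum_congr rfl fun x _ => by rw [ihtgComp_eps]

end Gen

end Fermat.Agent.Ihara

namespace Fermat.Agent.Ihara

open Matrix MatrixGroups CongruenceSubgroup ModularCurve ModularCurve.Period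
open Fermat.Agent.T1 Fermat.Agent.T2

/-- cancellation of an element of `SL₂(ℤ)` on the left -/
theorem ihtg_SL_cancel (a b : SL(2, ℤ)) (X Y : Matrix (Fin 2) (Fin 2) ℤ)
    (h : (a : Matrix (Fin 2) (Fin 2) ℤ) * X = (b : Matrix (Fin 2) (Fin 2) ℤ) * Y) :
    X = ((a⁻¹ * b : SL(2, ℤ)) : Matrix (Fin 2) (Fin 2) ℤ) * Y := by
  have h1 := congrArg (fun Z => ((a⁻¹ : SL(2, ℤ)) : Matrix (Fin 2) (Fin 2) ℤ) * Z) h
  simp only [← Matrix.mul_assoc, ← Matrix.SpecialLinearGroup.coe_mul, inv_mul_cancel,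
    Matrix.SpecialLinearGroup.coe_one, Matrix.one_mul] at h1
  exact h1

section FactorConj

variable {Γ Γ₁ Γ₂ : Subgroup SL(2, ℤ)} {ι ι₁ ι₂ κ : Type} [Fintype ι] [Fintype ι₁] [Fintype ι₂]
  [Fintype κ]

/-- **domination with a conjugation**: a family `rep' i = n • (h i * g₀ * S.rep (f i))` (`h i ∈ Γ`,
`g₀` normalising `Γ`) which is permuted by right multiplication with `δ` has the same `ε`-sum as
`S`, for the homomorphism `φ' = φ ∘ conj g₀` -/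
theorem ihtg_sum_eq_of_factor_conj (S : T2fSys₂ Γ Γ₂ κ) (δ : Γ₂)
    (rep' : ι → Matrix (Fin 2) (Fin 2) ℤ) (σ' : ι → ι) (hσ : Function.Bijective σ') (ε' : ι → Γ)
    (hmul : ∀ i, rep' i * ((δ : SL(2, ℤ)) : Matrix (Fin 2) (Fin 2) ℤ)
      = ((ε' i : SL(2, ℤ)) : Matrix (Fin 2) (Fin 2) ℤ) * rep' (σ' i))
    (f : ι → κ) (h : ι → Γ) (g₀ : SL(2, ℤ)) (hg₀ : ∀ γ ∈ Γ, g₀ * γ * g₀⁻¹ ∈ Γ)
    (hg₀' : ∀ γ ∈ Γ, g₀⁻¹ * γ * g₀ ∈ Γ) (n : ℤ) (hn : n ≠ 0)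
    (hrep : ∀ i, rep' i = n • (((h i : SL(2, ℤ)) : Matrix (Fin 2) (Fin 2) ℤ)
      * (g₀ : Matrix (Fin 2) (Fin 2) ℤ) * S.rep (f i)))
    {A : Type*} [AddCommGroup A] (φ φ' : Additive Γ →+ A)
    (hφ : ∀ γ : Γ, φ' (Additive.ofMul γ)
      = φ (Additive.ofMul ⟨g₀ * (γ : SL(2, ℤ)) * g₀⁻¹, hg₀ γ γ.2⟩)) :
    ∑ i, φ (Additive.ofMul (ε' i)) = ∑ i, φ' (Additive.ofMul (S.eps δ (f i))) := by
  have key : ∀ i, φ' (Additive.ofMul (S.eps δ (f i)))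
      = (φ (Additive.ofMul (ε' i)) + φ (Additive.ofMul (h (σ' i))))
        - φ (Additive.ofMul (h i)) := by
    intro i
    have hYmem : g₀⁻¹ * (((h i)⁻¹ * ε' i * h (σ' i) : Γ) : SL(2, ℤ)) * g₀ ∈ Γ :=
      hg₀' _ ((h i)⁻¹ * ε' i * h (σ' i)).2
    have h1 := hmul i
    rw [hrep i, hrep (σ' i), Matrix.smul_mul, Matrix.mul_smul] at h1
    have h2 := smul_right_injective (Matrix (Fin 2) (Fin 2) ℤ) hn h1
    -- `S.rep (f i) * δ = Y * S.rep (f (σ' i))`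
    have h3 : S.rep (f i) * ((δ : SL(2, ℤ)) : Matrix (Fin 2) (Fin 2) ℤ)
        = (((⟨_, hYmem⟩ : Γ) : SL(2, ℤ)) : Matrix (Fin 2) (Fin 2) ℤ) * S.rep (f (σ' i)) := by
      have e1 : (((h i : Γ) : SL(2, ℤ)) * g₀ : SL(2, ℤ)).1
            * (S.rep (f i) * ((δ : SL(2, ℤ)) : Matrix (Fin 2) (Fin 2) ℤ))
          = (((ε' i : Γ) : SL(2, ℤ)) * ((h (σ' i) : Γ) : SL(2, ℤ)) * g₀ : SL(2, ℤ)).1
            * S.rep (f (σ' i)) := by
        simp only [Matrix.SpecialLinearGroup.coe_mul, Matrix.mul_assoc]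
        simp only [Matrix.mul_assoc] at h2
        exact h2
      have e2 := ihtg_SL_cancel _ _ _ _ e1
      have e3 : (((h i : Γ) : SL(2, ℤ)) * g₀)⁻¹
            * (((ε' i : Γ) : SL(2, ℤ)) * ((h (σ' i) : Γ) : SL(2, ℤ)) * g₀)
          = g₀⁻¹ * (((h i)⁻¹ * ε' i * h (σ' i) : Γ) : SL(2, ℤ)) * g₀ := by
        simp only [Subgroup.coe_mul, Subgroup.coe_inv]
        group
      rw [e2, e3]
    have h4 := (S.eq_of_rep_mul h3).2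
    rw [← h4, hφ]
    have h5 : (⟨g₀ * (((⟨_, hYmem⟩ : Γ) : SL(2, ℤ))) * g₀⁻¹, hg₀ _ hYmem⟩ : Γ)
        = (h i)⁻¹ * ε' i * h (σ' i) := by
      apply Subtype.ext
      show g₀ * (g₀⁻¹ * (((h i)⁻¹ * ε' i * h (σ' i) : Γ) : SL(2, ℤ)) * g₀) * g₀⁻¹ = _
      group
    rw [h5, ofMul_mul, ofMul_mul, ofMul_inv, map_add, map_add, map_neg]
    abel
  rw [Finset.sum_congr rfl fun i _ => key i, Finset.sum_sub_distrib, Finset.sum_add_distrib]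
  have h6 : ∑ i, φ (Additive.ofMul (h (σ' i))) = ∑ i, φ (Additive.ofMul (h i)) :=
    Function.Bijective.sum_comp hσ (fun i => φ (Additive.ofMul (h i)))
  rw [h6]
  abel

/-- **bijective domination with a conjugation**: `cor₂ (cor₁ φ) = S.cor (φ ∘ conj g₀)` -/
theorem ihtg_cor_cor_eq_of_bij_conj (S₁ : T2fSys₂ Γ Γ₁ ι₁) (S₂ : T2fSys₂ Γ₁ Γ₂ ι₂)
    (S : T2fSys₂ Γ Γ₂ κ) (f : ι₁ × ι₂ → κ) (hf : Function.Bijective f) (h : ι₁ × ι₂ → Γ)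
    (g₀ : SL(2, ℤ)) (hg₀ : ∀ γ ∈ Γ, g₀ * γ * g₀⁻¹ ∈ Γ) (hg₀' : ∀ γ ∈ Γ, g₀⁻¹ * γ * g₀ ∈ Γ)
    (n : ℤ) (hn : n ≠ 0)
    (hrep : ∀ x : ι₁ × ι₂, S₁.rep x.1 * S₂.rep x.2
      = n • (((h x : SL(2, ℤ)) : Matrix (Fin 2) (Fin 2) ℤ) * (g₀ : Matrix (Fin 2) (Fin 2) ℤ)
        * S.rep (f x)))
    {A : Type*} [AddCommGroup A] (φ φ' : Additive Γ →+ A)
    (hφ : ∀ γ : Γ, φ' (Additive.ofMul γ)
      = φ (Additive.ofMul ⟨g₀ * (γ : SL(2, ℤ)) * g₀⁻¹, hg₀ γ γ.2⟩)) :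
    S₂.cor A (S₁.cor A φ) = S.cor A φ' := by
  refine AddMonoidHom.ext fun δ' => ?_
  obtain ⟨δ, rfl⟩ := Additive.ofMul.surjective δ'
  rw [ihtg_cor_cor_apply, T2fSys₂.cor_apply]
  rw [ihtg_sum_eq_of_factor_conj S δ (fun x : ι₁ × ι₂ => S₁.rep x.1 * S₂.rep x.2) _
    (ihtg_skew_bijective S₁ S₂ δ) (fun x => S₁.eps (S₂.eps δ x.2) x.1)
    (fun x => ihtg_rep_rep_mul S₁ S₂ δ x) f h g₀ hg₀ hg₀' n hn hrep φ φ' hφ]
  exact Function.Bijective.sum_comp hf (fun y => φ' (Additive.ofMul (S.eps δ y)))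

end FactorConj

section Conj

variable {Γ Γ' : Subgroup SL(2, ℤ)} {P : Type} [Fintype P]

/-- **the transfer kills conjugation**: if `Γ` is normal in `Γ'`, `C` is the transfer system of a
transversal `c x ∈ Γ'` of `Γ` in `Γ'` and `φ' = φ ∘ conj_g` with `g ∈ Γ'`, then
`C.cor φ' = C.cor φ` -/
theorem ihtg_cor_conj (C : T2fSys₂ Γ Γ' P) (c : P → SL(2, ℤ))
    (hC : ∀ x, C.rep x = (c x : Matrix (Fin 2) (Fin 2) ℤ))
    (hnorm : ∀ g ∈ Γ', ∀ γ ∈ Γ, g * γ * g⁻¹ ∈ Γ)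
    (hex : ∀ g ∈ Γ', ∃ x, g * (c x)⁻¹ ∈ Γ) (hc : ∀ x, c x ∈ Γ')
    (g : SL(2, ℤ)) (hg : g ∈ Γ') {A : Type*} [AddCommGroup A] (φ φ' : Additive Γ →+ A)
    (hφ : ∀ γ : Γ, φ' (Additive.ofMul γ)
      = φ (Additive.ofMul ⟨g * (γ : SL(2, ℤ)) * g⁻¹, hnorm g hg γ γ.2⟩)) :
    C.cor A φ' = C.cor A φ := by
  have hex' : ∀ x : P, ∃ y, g * c x * (c y)⁻¹ ∈ Γ := fun x => hex _ (mul_mem hg (hc x))
  choose f hf using hex'
  have hfinj : Function.Injective f := by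
    intro x x' hxx
    have h1 := hf x
    have h2 := hf x'
    rw [hxx] at h1
    have h3 : g * c x * (c (f x'))⁻¹ * (g * c x' * (c (f x'))⁻¹)⁻¹ ∈ Γ :=
      mul_mem h1 (inv_mem h2)
    have h4 : g⁻¹ * (g * c x * (c (f x'))⁻¹ * (g * c x' * (c (f x'))⁻¹)⁻¹) * (g⁻¹)⁻¹ ∈ Γ :=
      hnorm _ (inv_mem hg) _ h3
    have h5 : g⁻¹ * (g * c x * (c (f x'))⁻¹ * (g * c x' * (c (f x'))⁻¹)⁻¹) * (g⁻¹)⁻¹
        = c x * (c x')⁻¹ := by group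
    rw [h5] at h4
    have h6 : C.rep x = (((⟨_, h4⟩ : Γ) : SL(2, ℤ)) : Matrix (Fin 2) (Fin 2) ℤ) * C.rep x' := by
      rw [hC, hC, ← Matrix.SpecialLinearGroup.coe_mul, inv_mul_cancel_right]
    exact ((ihtg_rep_unique C h6).1).symm
  have hfbij : Function.Bijective f := ⟨hfinj, Finite.injective_iff_surjective.mp hfinj⟩
  refine AddMonoidHom.ext fun δ' => ?_
  obtain ⟨δ, rfl⟩ := Additive.ofMul.surjective δ'
  rw [T2fSys₂.cor_apply, T2fSys₂.cor_apply]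
  have key := ihtg_sum_eq_of_factor C δ
    (fun x => (g : Matrix (Fin 2) (Fin 2) ℤ) * (c x : Matrix (Fin 2) (Fin 2) ℤ))
    (C.sigma δ) (C.sigma δ).bijective
    (fun x => ⟨g * (C.eps δ x : SL(2, ℤ)) * g⁻¹, hnorm g hg _ (C.eps δ x).2⟩)
    (fun x => by
      show (g : Matrix (Fin 2) (Fin 2) ℤ) * (c x : Matrix (Fin 2) (Fin 2) ℤ)
          * ((δ : SL(2, ℤ)) : Matrix (Fin 2) (Fin 2) ℤ)
        = ((g * (C.eps δ x : SL(2, ℤ)) * g⁻¹ : SL(2, ℤ)) : Matrix (Fin 2) (Fin 2) ℤ)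
          * ((g : Matrix (Fin 2) (Fin 2) ℤ) * (c (C.sigma δ x) : Matrix (Fin 2) (Fin 2) ℤ))
      have h1 := C.rep_mul δ x
      rw [hC, hC] at h1
      have h2 : c x * (δ : SL(2, ℤ)) = (C.eps δ x : SL(2, ℤ)) * c (C.sigma δ x) := by
        apply Subtype.ext
        rw [Matrix.SpecialLinearGroup.coe_mul, Matrix.SpecialLinearGroup.coe_mul]
        exact h1
      have h3 : g * c x * (δ : SL(2, ℤ))
          = (g * (C.eps δ x : SL(2, ℤ)) * g⁻¹) * (g * c (C.sigma δ x)) := by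
        rw [mul_assoc, h2]; group
      have h4 := congrArg (fun z : SL(2, ℤ) => (z : Matrix (Fin 2) (Fin 2) ℤ)) h3
      simpa only [Matrix.SpecialLinearGroup.coe_mul] using h4)
    f (fun x => ⟨g * c x * (c (f x))⁻¹, hf x⟩) 1 one_ne_zero
    (fun x => by
      rw [one_smul, hC]
      show _ = ((g * c x * (c (f x))⁻¹ : SL(2, ℤ)) : Matrix (Fin 2) (Fin 2) ℤ)
        * (c (f x) : Matrix (Fin 2) (Fin 2) ℤ)
      have h3 : g * c x = (g * c x * (c (f x))⁻¹) * c (f x) := by group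
      have h4 := congrArg (fun z : SL(2, ℤ) => (z : Matrix (Fin 2) (Fin 2) ℤ)) h3
      simpa only [Matrix.SpecialLinearGroup.coe_mul] using h4)
    φ
  rw [Finset.sum_congr rfl fun x _ => hφ (C.eps δ x), key]
  exact Function.Bijective.sum_comp hfbij (fun y => φ (Additive.ofMul (C.eps δ y)))

end Conj

end Fermat.Agent.Ihara
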