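/-
IHARA track, package [TWIST] (helper5), (Tw2), abstract form: **`U_r ∘ Tw = m • U_r ∘ res ∘ cor`**.

Setting: `r` prime, `Γ ≤ Γ⁺` a normal subgroup of `Γ⁺` containing the translations
`[[1, k], [0, 1]]`, `Γ' ≤ Γ⁺`; a two-group coset system `Tw : Γ → Γ'` whose representatives are
`g i * [[r, u i], [0, r]]` with `g i ∈ Γ⁺`; a transfer system `C : Γ → Γ⁺` with
representatives `c x` (`x ∈ P`) and a map `s : ι → P` with `g i ∈ Γ * c (s i)` all of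
whose fibres have `m` elements.  Then, with `U_r` the operator of a coset system `U'` on `Γ'` with
the representatives `[[1, b], [0, r]]`,

  `U_r (Tw.cor φ) = m • U_r (res (C.cor φ))`.

The reason is the matrix identity `[[r, u], [0, r]] * [[1, b], [0, r]] = r • [[1, b + u], [0, r]]`.
-/
import Mathlib
import Fermat.Agent.Lib.Ihara.Tw.SysGen

set_option autoImplicit false
set_option linter.unusedSectionVars false
set_option linter.unusedVariables false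

namespace Fermat.Agent.Ihara

open Matrix MatrixGroups CongruenceSubgroup ModularCurve ModularCurve.Period
open Fermat.Agent.T1 Fermat.Agent.T2

/-! ### Matrix identities -/

/-- `[[r, u], [0, r]] * [[1, b], [0, r]] = r • ([[1, k], [0, 1]] * [[1, b'], [0, r]])`
when `b + u = r k + b'` -/
theorem ihtu_mat (r u b k b' : ℤ) (h : b + u = r * k + b') :
    (!![r, u; 0, r] : Matrix (Fin 2) (Fin 2) ℤ) * !![1, b; 0, r]
      = r • ((!![1, k; 0, 1] : Matrix (Fin 2) (Fin 2) ℤ) * !![1, b'; 0, r]) := by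
  ext i j
  fin_cases i <;> fin_cases j <;>
    simp [Matrix.mul_apply, Fin.sum_univ_two]
  linear_combination r * h

/-- reduction modulo `r` into `Fin r` -/
def ihtuRed (r : ℕ) [NeZero r] (x : ℤ) : Fin r :=
  ⟨(x % (r : ℤ)).toNat, by
    have h0 : 0 ≤ x % (r : ℤ) := Int.emod_nonneg _ (by exact_mod_cast NeZero.ne r)
    have h1 : x % (r : ℤ) < r := Int.emod_lt_of_pos _ (by exact_mod_cast Nat.pos_of_ne_zero (NeZero.ne r))
    omega⟩

theorem ihtuRed_coe (r : ℕ) [NeZero r] (x : ℤ) :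
    (((ihtuRed r x : Fin r) : ℕ) : ℤ) = x % (r : ℤ) := by
  have h0 : 0 ≤ x % (r : ℤ) := Int.emod_nonneg _ (by exact_mod_cast NeZero.ne r)
  show (((x % (r : ℤ)).toNat : ℕ) : ℤ) = _
  rw [Int.toNat_of_nonneg h0]

theorem ihtuRed_spec (r : ℕ) [NeZero r] (x : ℤ) :
    x = (r : ℤ) * (x / (r : ℤ)) + (((ihtuRed r x : Fin r) : ℕ) : ℤ) := by
  rw [ihtuRed_coe]
  exact (Int.mul_ediv_add_emod x r).symm

theorem ihtuRed_eq_iff (r : ℕ) [NeZero r] (x y : ℤ) :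
    ihtuRed r x = ihtuRed r y ↔ (r : ℤ) ∣ x - y := by
  rw [Fin.ext_iff, ← Int.natCast_inj, ihtuRed_coe, ihtuRed_coe]
  exact eq_comm.trans (Int.modEq_iff_dvd (n := (r : ℤ)) (a := y) (b := x))

theorem ihtuRed_natCast (r : ℕ) [NeZero r] (b : Fin r) : ihtuRed r ((b : ℕ) : ℤ) = b := by
  apply Fin.ext
  apply Int.natCast_inj.mp
  rw [ihtuRed_coe]
  exact Int.emod_eq_of_lt (by positivity) (by exact_mod_cast b.2)

section UTw

variable (r : ℕ) [hr : Fact r.Prime]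
variable {Γ Γp Γ' : Subgroup SL(2, ℤ)} {ι P : Type} [Fintype ι] [Fintype P] [DecidableEq P]

instance ihtu_neZero : NeZero r := ⟨hr.out.ne_zero⟩

variable (hle : Γ' ≤ Γp) (hnorm : ∀ g ∈ Γp, ∀ γ ∈ Γ, g * γ * g⁻¹ ∈ Γ)
  (hunip : ∀ k : ℤ, tdmUnipSL k ∈ Γ)
  (Tw : T2fSys₂ Γ Γ' ι)
  (g : ι → SL(2, ℤ)) (hg : ∀ i, g i ∈ Γp) (uu : ι → ℤ)
  (hTw : ∀ i, Tw.rep i
    = (g i : Matrix (Fin 2) (Fin 2) ℤ) * !![(r : ℤ), uu i; 0, (r : ℤ)])
  (C : T2fSys₂ Γ Γp P) (c : P → SL(2, ℤ))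
  (hC : ∀ x, C.rep x = (c x : Matrix (Fin 2) (Fin 2) ℤ))
  (s : ι → P) (hs : ∀ i, g i * (c (s i))⁻¹ ∈ Γ)
  (m : ℕ) (hm : ∀ x : P, (Finset.univ.filter fun i => s i = x).card = m)
  (U' : tdmCosetSys Γ' (Fin r)) (hU' : U'.rep = tdmRepU r)

include hC hU' in
/-- the products `c x * [[1, b], [0, r]]` are pairwise `Γ`-inequivalent -/
theorem ihtu_ineq (x y : P × Fin r) (γ : Γ)
    (hγ : ((γ : SL(2, ℤ)) : Matrix (Fin 2) (Fin 2) ℤ)
        * ((ihtgResT C hle).rep x.1 * (ihtgOfSys U').rep x.2)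
      = (ihtgResT C hle).rep y.1 * (ihtgOfSys U').rep y.2) : x = y := by
  obtain ⟨x, b⟩ := x
  obtain ⟨y, b'⟩ := y
  simp only [ihtgResT_rep, ihtgOfSys_rep, hU', hC] at hγ
  have h1 : (((c y)⁻¹ * (γ : SL(2, ℤ)) * c x : SL(2, ℤ)) : Matrix (Fin 2) (Fin 2) ℤ)
      * tdmRepU r b = tdmRepU r b' := by
    rw [Matrix.SpecialLinearGroup.coe_mul, Matrix.SpecialLinearGroup.coe_mul,
      Matrix.mul_assoc, Matrix.mul_assoc, hγ,
      ← Matrix.mul_assoc, ← Matrix.SpecialLinearGroup.coe_mul, inv_mul_cancel,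
      Matrix.SpecialLinearGroup.coe_one, Matrix.one_mul]
  have hb : b = b' := tdm_aff_inequiv b b' _ h1
  subst hb
  have h2 : (((c y)⁻¹ * (γ : SL(2, ℤ)) * c x : SL(2, ℤ)) : Matrix (Fin 2) (Fin 2) ℤ)
      = ((1 : SL(2, ℤ)) : Matrix (Fin 2) (Fin 2) ℤ) := by
    have hdet : (tdmRepU r b).det ≠ 0 := by
      rw [tdmRepU_det]; exact_mod_cast hr.out.ne_zero
    apply tdm_mul_right_cancel hdet
    rw [h1, Matrix.SpecialLinearGroup.coe_one, Matrix.one_mul]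
  have h3 : (c y)⁻¹ * (γ : SL(2, ℤ)) * c x = 1 := Subtype.ext h2
  have h5 : c y = (γ : SL(2, ℤ)) * c x := inv_mul_eq_one.mp (by rw [← mul_assoc]; exact h3)
  have h4 : C.rep y = ((γ : SL(2, ℤ)) : Matrix (Fin 2) (Fin 2) ℤ) * C.rep x := by
    rw [hC, hC, h5, Matrix.SpecialLinearGroup.coe_mul]
  rw [(ihtg_rep_unique C h4).1]

/-- the composite system `res ∘ C` followed by `U_r` -/
noncomputable def ihtuSys : T2fSys₂ Γ Γ' (P × Fin r) :=
  ihtgComp (ihtgResT C hle) (ihtgOfSys U') (ihtu_ineq r hle C c hC U' hU')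

include hnorm hunip hg hTw hC hs hm hU' in
/-- **(Tw2), abstract form** -/
theorem ihtu_U_Tw {A : Type*} [AddCommGroup A] (φ : Additive Γ →+ A) :
    U'.hom A (Tw.cor A φ) = m • U'.hom A (t2fRes hle A (C.cor A φ)) := by
  have hr0 : (r : ℤ) ≠ 0 := by exact_mod_cast hr.out.ne_zero
  rw [← ihtgOfSys_cor U', ← ihtgOfSys_cor U', ← ihtgResT_cor C hle]
  have hcomp := ihtgComp_cor (ihtgResT C hle) (ihtgOfSys U') (ihtu_ineq r hle C c hC U' hU') φ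
  rw [← hcomp]
  -- the data of the domination
  set f : ι × Fin r → P × Fin r :=
    fun x => (s x.1, ihtuRed r ((((x.2 : Fin r) : ℕ) : ℤ) + uu x.1)) with hf
  have hmem : ∀ x : ι × Fin r,
      g x.1 * tdmUnipSL (((((x.2 : Fin r) : ℕ) : ℤ) + uu x.1) / (r : ℤ)) * (c (s x.1))⁻¹ ∈ Γ := by
    intro x
    have e : g x.1 * tdmUnipSL (((((x.2 : Fin r) : ℕ) : ℤ) + uu x.1) / (r : ℤ)) * (c (s x.1))⁻¹
        = (g x.1 * tdmUnipSL (((((x.2 : Fin r) : ℕ) : ℤ) + uu x.1) / (r : ℤ)) * (g x.1)⁻¹)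
          * (g x.1 * (c (s x.1))⁻¹) := by group
    rw [e]
    exact mul_mem (hnorm _ (hg x.1) _ (hunip _)) (hs x.1)
  set h : ι × Fin r → Γ := fun x => ⟨_, hmem x⟩ with hh
  have hrep : ∀ x : ι × Fin r, Tw.rep x.1 * (ihtgOfSys U').rep x.2
      = (r : ℤ) • (((h x : SL(2, ℤ)) : Matrix (Fin 2) (Fin 2) ℤ)
        * (ihtgComp (ihtgResT C hle) (ihtgOfSys U')
            (ihtu_ineq r hle C c hC U' hU')).rep (f x)) := by
    rintro ⟨i, b⟩
    have hmat := ihtu_mat (r : ℤ) (uu i) (((b : Fin r) : ℕ) : ℤ)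
      (((((b : Fin r) : ℕ) : ℤ) + uu i) / (r : ℤ))
      (((ihtuRed r ((((b : Fin r) : ℕ) : ℤ) + uu i) : Fin r) : ℕ) : ℤ)
      (ihtuRed_spec r ((((b : Fin r) : ℕ) : ℤ) + uu i))
    rw [ihtgComp_rep, ihtgResT_rep, ihtgOfSys_rep, hU', hC, hTw]
    show (g i : Matrix (Fin 2) (Fin 2) ℤ) * !![(r : ℤ), uu i; 0, (r : ℤ)]
        * !![1, (((b : Fin r) : ℕ) : ℤ); 0, (r : ℤ)]
      = (r : ℤ) • (((g i * tdmUnipSL (((((b : Fin r) : ℕ) : ℤ) + uu i) / (r : ℤ))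
          * (c (s i))⁻¹ : SL(2, ℤ)) : Matrix (Fin 2) (Fin 2) ℤ)
        * ((c (s i) : Matrix (Fin 2) (Fin 2) ℤ)
          * !![1, (((ihtuRed r ((((b : Fin r) : ℕ) : ℤ) + uu i) : Fin r) : ℕ) : ℤ); 0, (r : ℤ)]))
    rw [Matrix.mul_assoc, hmat, ← Matrix.mul_assoc _ (c (s i) : Matrix (Fin 2) (Fin 2) ℤ),
      ← Matrix.SpecialLinearGroup.coe_mul, inv_mul_cancel_right,
      Matrix.SpecialLinearGroup.coe_mul, Matrix.mul_smul, Matrix.mul_assoc]
    rfl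
  have hmf : ∀ y : P × Fin r, (Finset.univ.filter fun x : ι × Fin r => f x = y).card = m := by
    rintro ⟨x₀, b₀⟩
    rw [← hm x₀]
    refine Finset.card_bij (fun a _ => a.1) ?_ ?_ ?_
    · intro a ha
      rw [Finset.mem_filter] at ha ⊢
      exact ⟨Finset.mem_univ _, (Prod.ext_iff.mp ha.2).1⟩
    · rintro ⟨i, b⟩ ha ⟨i', b'⟩ ha' hii
      have hii' : i = i' := hii
      subst hii'
      have h1 := (Prod.ext_iff.mp (Finset.mem_filter.mp ha).2).2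
      have h2 := (Prod.ext_iff.mp (Finset.mem_filter.mp ha').2).2
      have h3 : ihtuRed r ((((b : Fin r) : ℕ) : ℤ) + uu i)
          = ihtuRed r ((((b' : Fin r) : ℕ) : ℤ) + uu i) := h1.trans h2.symm
      rw [ihtuRed_eq_iff] at h3
      have h4 : ihtuRed r (((b : Fin r) : ℕ) : ℤ) = ihtuRed r (((b' : Fin r) : ℕ) : ℤ) :=
        (ihtuRed_eq_iff r _ _).mpr (by
          have : (((b : Fin r) : ℕ) : ℤ) - (((b' : Fin r) : ℕ) : ℤ)
              = (((b : Fin r) : ℕ) : ℤ) + uu i - ((((b' : Fin r) : ℕ) : ℤ) + uu i) := by ring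
          rw [this]; exact h3)
      rw [ihtuRed_natCast, ihtuRed_natCast] at h4
      rw [h4]
    · intro i hi
      refine ⟨(i, ihtuRed r ((((b₀ : Fin r) : ℕ) : ℤ) - uu i)), ?_, rfl⟩
      rw [Finset.mem_filter]
      refine ⟨Finset.mem_univ _, Prod.ext (Finset.mem_filter.mp hi).2 ?_⟩
      show ihtuRed r ((((ihtuRed r ((((b₀ : Fin r) : ℕ) : ℤ) - uu i) : Fin r) : ℕ) : ℤ) + uu i) = b₀
      conv_rhs => rw [← ihtuRed_natCast r b₀]
      rw [ihtuRed_eq_iff, ihtuRed_coe, Int.emod_def]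
      exact ⟨-(((((b₀ : Fin r) : ℕ) : ℤ) - uu i) / (r : ℤ)), by ring⟩
  exact ihtg_cor_cor_eq_smul Tw (ihtgOfSys U') _ f h (r : ℤ) hr0 hrep m hmf φ

end UTw

end Fermat.Agent.Ihara
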