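/-
IHARA track, package [TWIST] (helper5): **(Tw2) and (Tw3) for the twisting operator `ihtTw`** of
`Lib/Ihara/Tw/Defs.lean` (helper8), from the abstract forms `ihtu_U_Tw` (UTw.lean) and
`ihtw_W_Tw` (UWTw.lean).

* `ihtuK hyp = y⁻¹(H) ≤ (ℤ/r)ˣ`, `ihtuHp hyp = H ⊔ y((ℤ/r)ˣ) ≤ (ℤ/N)ˣ`, `ihtuTrans hyp` the transversal
  `γ_{y(out x)}` (`x ∈ (ℤ/r)ˣ / y⁻¹(H)`) of `Γ_H(N)` in `Γ_{H⁺}(N)` (helper1's `ihfTransOfUnits`);
* `ihtu_U_tw_exact`: `U'(Tw φ) = |y⁻¹(H)| • U'(res (cor φ))` for ALL `φ ∈ Hom(Γ_H(N), A)`, any `A`;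
* `ihtu_cor_eq_zero`: `cor c = 0` for a `ψ`-eigenvector `c` of the diamonds with `ψ ∘ y ≠ 1`;
* **`ihtu_U_tw`** = (Tw2), literally helper8's `iht_U_tw`;
* `ihtu_W_tw`: `W'(Tw φ) = Tw(φ ∘ conj g₀)`, `g₀ ∈ Γ₀(N)`;
* **`ihtu_UW_tw`** = (Tw3), literally helper8's `iht_UW_tw`.
-/
import Mathlib
import Fermat.Agent.Lib.Ihara.Fr.Cor
import Fermat.Agent.Lib.Ihara.Tw.Defs
import Fermat.Agent.Lib.Ihara.Tw.UTw
import Fermat.Agent.Lib.Ihara.Tw.UWTw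

set_option autoImplicit false
set_option linter.unusedSectionVars false
set_option linter.unusedVariables false
set_option linter.style.haveILetI false

namespace Fermat.Agent.Ihara

open Matrix MatrixGroups CongruenceSubgroup ModularCurve ModularCurve.Period
open Fermat.Agent.DS Fermat.Agent.T1 Fermat.Agent.T1G Fermat.Agent.T2

/-! ### Generalities on `Γ_H(N)` -/

section GenH

variable {N : ℕ} [NeZero N] {H : Subgroup (ZMod N)ˣ}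

/-- `γ_d γ_{d'}⁻¹ ∈ Γ_H` when `d d'⁻¹ ∈ H` -/
theorem ihtu_gammaU_mul_inv_mem (d d' : (ZMod N)ˣ) (h : d * d'⁻¹ ∈ H) :
    dshGammaU N d * (dshGammaU N d')⁻¹ ∈ ihfGammaH N H := by
  have hmem : dshGammaU N d * (dshGammaU N d')⁻¹ ∈ Gamma0 N :=
    mul_mem (dshGammaU_mem N d) (inv_mem (dshGammaU_mem N d'))
  rw [ihf_mem_GammaH_iff' hmem]
  have e : ihfUnitHom N ⟨dshGammaU N d * (dshGammaU N d')⁻¹, hmem⟩
      = ihfUnitHom N ⟨dshGammaU N d, dshGammaU_mem N d⟩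
        * (ihfUnitHom N ⟨dshGammaU N d', dshGammaU_mem N d'⟩)⁻¹ := by
    rw [← map_inv, ← map_mul]
    rfl
  rw [e, ihfUnitHom_dshGammaU, ihfUnitHom_dshGammaU]
  exact h

theorem ihtu_unip_mem (k : ℤ) : tdmUnipSL k ∈ ihfGammaH N H := by
  apply ihfGamma1_le_GammaH
  rw [Gamma1_mem]
  simp [tdmUnipSL]

end GenH

section Inst

variable {N r : ℕ} [NeZero N] [hr : Fact r.Prime] {H : Subgroup (ZMod N)ˣ} {k : ℕ}
  {Γ' : Subgroup SL(2, ℤ)} (hyp : IhtHyp N r H k Γ')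

/-- `y⁻¹(H)` -/
noncomputable def ihtuK : Subgroup (ZMod r)ˣ := H.comap (ihtY hyp)

noncomputable instance ihtu_fintype_quot : Fintype ((ZMod r)ˣ ⧸ ihtuK hyp) := Fintype.ofFinite _

/-- `H⁺ = H ⊔ y((ℤ/r)ˣ)` -/
noncomputable def ihtuHp : Subgroup (ZMod N)ˣ := H ⊔ (ihtY hyp).range

theorem ihtu_H_le_Hp : H ≤ ihtuHp hyp := le_sup_left

theorem ihtu_Y_mem_Hp (u : (ZMod r)ˣ) : ihtY hyp u ∈ ihtuHp hyp :=
  (le_sup_right : (ihtY hyp).range ≤ ihtuHp hyp) ⟨u, rfl⟩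

/-- `Γ' ≤ Γ_{H⁺}(N)` -/
theorem ihtu_le : Γ' ≤ ihfGammaH N (ihtuHp hyp) := by
  intro δ hδ
  have h0 : δ ∈ Gamma0 N := by
    have h1 := hyp.le hδ
    rw [tdm_mem_Gamma0_iff] at h1 ⊢
    exact Dvd.dvd.trans (by push_cast; exact Dvd.intro _ rfl) h1
  obtain ⟨h, hh, x, -, e⟩ := hyp.tgt δ hδ
  refine ⟨h0, h * ihtIota N r hyp.dvd hyp.not_sq x, ?_, e⟩
  have e2 : h * ihtIota N r hyp.dvd hyp.not_sq x
      = (h * (ihtIota N r hyp.dvd hyp.not_sq x * (ihtIota N r hyp.dvd hyp.not_sq x ^ (2 * k))⁻¹))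
        * ihtY hyp (x * x) := by
    rw [ihtY_apply, map_mul, mul_pow, ← pow_two, ← pow_mul, mul_comm k 2, mul_assoc,
      inv_mul_cancel_right]
  rw [e2]
  exact mul_mem (ihtu_H_le_Hp hyp (mul_mem hh (hyp.sqrt x))) (ihtu_Y_mem_Hp hyp _)

/-- the transversal `γ_{y(out x)}` of `Γ_H(N)` in `Γ_{H⁺}(N)` -/
noncomputable def ihtuTrans :
    IhfTrans (ihfGammaH N H) (ihfGammaH N (ihtuHp hyp)) ((ZMod r)ˣ ⧸ ihtuK hyp) :=
  ihfTransOfUnits (fun x => ihtY hyp (Quotient.out x))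
    (fun x => ihtu_Y_mem_Hp hyp _)
    (fun v hv => by
      obtain ⟨h, hh, w, ⟨u, rfl⟩, rfl⟩ := Subgroup.mem_sup.mp hv
      refine ⟨(u : (ZMod r)ˣ ⧸ ihtuK hyp), ?_⟩
      have h1 : ((Quotient.out (u : (ZMod r)ˣ ⧸ ihtuK hyp) : (ZMod r)ˣ) :
          (ZMod r)ˣ ⧸ ihtuK hyp) = u := QuotientGroup.out_eq' _
      rw [QuotientGroup.eq] at h1
      have h2 : ihtY hyp ((Quotient.out (u : (ZMod r)ˣ ⧸ ihtuK hyp))⁻¹ * u) ∈ H := h1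
      have e : h * ihtY hyp u * (ihtY hyp (Quotient.out (u : (ZMod r)ˣ ⧸ ihtuK hyp)))⁻¹
          = h * ihtY hyp ((Quotient.out (u : (ZMod r)ˣ ⧸ ihtuK hyp))⁻¹ * u) := by
        rw [map_mul, map_inv, mul_assoc, mul_comm (ihtY hyp u)]
      rw [e]
      exact mul_mem hh h2)
    (fun a b h => by
      have h1 : ((Quotient.out a : (ZMod r)ˣ) : (ZMod r)ˣ ⧸ ihtuK hyp) = a :=
        QuotientGroup.out_eq' _
      have h2 : ((Quotient.out b : (ZMod r)ˣ) : (ZMod r)ˣ ⧸ ihtuK hyp) = b :=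
        QuotientGroup.out_eq' _
      rw [← h1, ← h2, QuotientGroup.eq]
      show ihtY hyp ((Quotient.out a)⁻¹ * Quotient.out b) ∈ H
      have e : ihtY hyp ((Quotient.out a)⁻¹ * Quotient.out b)
          = (ihtY hyp (Quotient.out a) * (ihtY hyp (Quotient.out b))⁻¹)⁻¹ := by
        rw [map_mul, map_inv, _root_.mul_inv_rev, inv_inv, mul_comm]
      rw [e]
      exact inv_mem h)

/-- the fibres of `(ℤ/r)ˣ → (ℤ/r)ˣ / y⁻¹(H)` all have `|y⁻¹(H)|` elements -/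
theorem ihtu_card_fiber [DecidableEq ((ZMod r)ˣ ⧸ ihtuK hyp)]
    (x : (ZMod r)ˣ ⧸ ihtuK hyp) :
    (Finset.univ.filter fun u : (ZMod r)ˣ => (u : (ZMod r)ˣ ⧸ ihtuK hyp) = x).card
      = Nat.card (ihtuK hyp) := by
  classical
  rw [← Fintype.card_subtype, ← Nat.card_eq_fintype_card]
  have e : {u : (ZMod r)ˣ // (u : (ZMod r)ˣ ⧸ ihtuK hyp) = x}
      ≃ (ihtuK hyp) × ({x} : Set ((ZMod r)ˣ ⧸ ihtuK hyp)) :=
    QuotientGroup.preimageMkEquivSubgroupProdSet (ihtuK hyp) {x}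
  rw [Nat.card_congr e, Nat.card_prod]
  simp

/-- **(Tw2), exact form**: `U'(Tw φ) = |y⁻¹(H)| • U'(res (cor φ))` on all of `Hom(Γ_H(N), A)` -/
theorem ihtu_U_tw_exact (U' : tdmCosetSys Γ' (Fin r)) (hU' : U'.rep = tdmRepU r)
    {A : Type*} [AddCommGroup A] (φ : Additive (ihfGammaH N H) →+ A) :
    U'.hom A ((ihtSys hyp).cor A φ)
      = Nat.card (ihtuK hyp) • U'.hom A (t2fRes (ihtu_le hyp) A
          (((ihtuTrans hyp).sys (ihfGammaH_mono (ihtu_H_le_Hp hyp))).cor A φ)) := by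
  classical
  refine ihtu_U_Tw r (ihtu_le hyp)
    (fun g hg γ hγ => ihf_conj_mem_GammaH (ihfGammaH_le_Gamma0 hg) hγ)
    (fun k => ihtu_unip_mem k) (ihtSys hyp)
    (fun u => dshGammaU N (ihtY hyp u))
    (fun u => ⟨dshGammaU_mem N _, ihtY hyp u, ihtu_Y_mem_Hp hyp u, dshD_dshGammaU N _⟩)
    (fun u => (((u : ZMod r).val : ℕ) : ℤ)) (fun u => rfl)
    ((ihtuTrans hyp).sys (ihfGammaH_mono (ihtu_H_le_Hp hyp)))
    (fun x => dshGammaU N (ihtY hyp (Quotient.out x))) (fun x => rfl)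
    (fun u => (u : (ZMod r)ˣ ⧸ ihtuK hyp)) (fun u => ?_) (Nat.card (ihtuK hyp))
    (fun x => ?_) U' hU' φ
  · apply ihtu_gammaU_mul_inv_mem
    have h1 : ((Quotient.out (u : (ZMod r)ˣ ⧸ ihtuK hyp) : (ZMod r)ˣ) :
        (ZMod r)ˣ ⧸ ihtuK hyp) = u := QuotientGroup.out_eq' _
    rw [QuotientGroup.eq] at h1
    have h2 : ihtY hyp ((Quotient.out (u : (ZMod r)ˣ ⧸ ihtuK hyp))⁻¹ * u) ∈ H := h1
    have e : ihtY hyp u * (ihtY hyp (Quotient.out (u : (ZMod r)ˣ ⧸ ihtuK hyp)))⁻¹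
        = ihtY hyp ((Quotient.out (u : (ZMod r)ˣ ⧸ ihtuK hyp))⁻¹ * u) := by
      rw [map_mul, map_inv, mul_comm]
    rw [e]
    exact h2
  · convert ihtu_card_fiber hyp x

end Inst

/-! ### Eigenvectors of the diamond operators -/

section Eigen

variable {N r : ℕ} [NeZero N] [hr : Fact r.Prime] {H : Subgroup (ZMod N)ˣ} {k : ℕ}
  {Γ' : Subgroup SL(2, ℤ)} (hyp : IhtHyp N r H k Γ')
  (R : Type*) [CommRing R] (A : Type*) [AddCommGroup A] [Module R A]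

/-- the eigenvector property, on the level of homomorphisms -/
theorem ihtu_eigen_apply (ψ : (ZMod N)ˣ →* R) (c : ↥(parabolicHoms R (ihfGammaH N H) A))
    (hc : ∀ x : (ZMod N)ˣ, (ihfSysD N H x).homPar R A c = ψ x • c)
    (g : SL(2, ℤ)) (hg : g ∈ Gamma0 N) (x : (ZMod N)ˣ) (hx : dshD N g = (x : ZMod N))
    (γ : ihfGammaH N H) :
    (ψ x • (c : Additive (ihfGammaH N H) →+ A)) (Additive.ofMul γ)
      = (c : Additive (ihfGammaH N H) →+ A)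
          (Additive.ofMul ⟨g * (γ : SL(2, ℤ)) * g⁻¹, ihf_conj_mem_GammaH hg γ.2⟩) := by
  have h1 := congrArg (fun z : ↥(parabolicHoms R (ihfGammaH N H) A) =>
    (z : Additive (ihfGammaH N H) →+ A)) (hc x)
  simp only [tdmCosetSys.homPar_coe, Submodule.coe_smul] at h1
  rw [← h1, ihfSysD_hom_eq N H x g hg hx, ihfSysC_hom_apply]

variable [IsDomain R] [NoZeroSMulDivisors R A]

/-- `cor c = 0` for a `ψ`-eigenvector of the diamond operators with `ψ ∘ y ≠ 1` -/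
theorem ihtu_cor_eq_zero (ψ : (ZMod N)ˣ →* R) (c : ↥(parabolicHoms R (ihfGammaH N H) A))
    (hc : ∀ x : (ZMod N)ˣ, (ihfSysD N H x).homPar R A c = ψ x • c)
    (hψ : ∃ u : (ZMod r)ˣ, ψ (ihtY hyp u) ≠ 1) :
    ((ihtuTrans hyp).sys (ihfGammaH_mono (ihtu_H_le_Hp hyp))).cor A
      (c : Additive (ihfGammaH N H) →+ A) = 0 := by
  obtain ⟨u, hu⟩ := hψ
  set C := (ihtuTrans hyp).sys (ihfGammaH_mono (ihtu_H_le_Hp hyp)) with hC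
  set φ : Additive (ihfGammaH N H) →+ A := (c : Additive (ihfGammaH N H) →+ A) with hφ
  have hg0 : dshGammaU N (ihtY hyp u) ∈ Gamma0 N := dshGammaU_mem N _
  have hgp : dshGammaU N (ihtY hyp u) ∈ ihfGammaH N (ihtuHp hyp) :=
    ⟨hg0, ihtY hyp u, ihtu_Y_mem_Hp hyp u, dshD_dshGammaU N _⟩
  have h1 : C.cor A (ψ (ihtY hyp u) • φ) = C.cor A φ :=
    ihtg_cor_conj C (ihtuTrans hyp).c (fun x => rfl)
      (fun g hg γ hγ => ihf_conj_mem_GammaH (ihfGammaH_le_Gamma0 hg) hγ)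
      (ihtuTrans hyp).ex (ihtuTrans hyp).mem (dshGammaU N (ihtY hyp u)) hgp φ
      (ψ (ihtY hyp u) • φ)
      (fun γ => ihtu_eigen_apply R A ψ c hc _ hg0 (ihtY hyp u) (dshD_dshGammaU N _) γ)
  have h2 : C.cor A (ψ (ihtY hyp u) • φ) = ψ (ihtY hyp u) • C.cor A φ :=
    (C.corLin R A).map_smul (ψ (ihtY hyp u)) φ
  refine AddMonoidHom.ext fun δ => ?_
  have h3 := congrArg (fun f : Additive (ihfGammaH N (ihtuHp hyp)) →+ A => f δ) (h2.symm.trans h1)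
  simp only [AddMonoidHom.smul_apply] at h3
  have h4 : (ψ (ihtY hyp u) - 1) • C.cor A φ δ = 0 := by
    rw [sub_smul, one_smul, h3, sub_self]
  rcases smul_eq_zero.mp h4 with h5 | h5
  · exact absurd (sub_eq_zero.mp h5) hu
  · exact h5

/-- **(Tw2)** `U_r ∘ Tw = 0` on the `ψ`-eigenvectors of the diamond operators, if `ψ ∘ y ≠ 1` -/
theorem ihtu_U_tw (U' : tdmCosetSys Γ' (Fin r)) (hU' : U'.rep = tdmRepU r)
    (ψ : (ZMod N)ˣ →* R) (c : ↥(parabolicHoms R (ihfGammaH N H) A))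
    (hc : ∀ x : (ZMod N)ˣ, (ihfSysD N H x).homPar R A c = ψ x • c)
    (hψ : ∃ u : (ZMod r)ˣ, ψ (ihtY hyp u) ≠ 1) :
    U'.homPar R A (ihtTw hyp R A c) = 0 := by
  apply Subtype.ext
  rw [tdmCosetSys.homPar_coe, ihtTw_coe, ihtu_U_tw_exact hyp U' hU',
    ihtu_cor_eq_zero hyp R A ψ c hc hψ, map_zero, map_zero, smul_zero]
  rfl

end Eigen

/-! ### (Tw3) -/

section W

variable {N r : ℕ} [NeZero N] [hr : Fact r.Prime]

theorem ihtu_comm_aux {G : Type*} [CommGroup G] (a D b a' D' b' : G) :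
    a * D * b⁻¹ * (a' * D' * b'⁻¹)⁻¹ = (a * b⁻¹ * b' * a'⁻¹) * (D * D'⁻¹) := by
  simp only [_root_.mul_inv_rev, inv_inv, mul_comm, mul_left_comm, mul_assoc]

/-- `u ↦ -u⁻¹` -/
def ihtuStar (u : (ZMod r)ˣ) : (ZMod r)ˣ := -u⁻¹

theorem ihtuStar_bijective : Function.Bijective (ihtuStar (r := r)) :=
  Function.Involutive.bijective fun u => by simp [ihtuStar]

theorem ihtuStar_dvd (u : (ZMod r)ˣ) :
    (r : ℤ) ∣ (((u : ZMod r).val : ℕ) : ℤ) * ((((ihtuStar u : (ZMod r)ˣ) : ZMod r).val : ℕ) : ℤ)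
      + 1 := by
  rw [← ZMod.intCast_zmod_eq_zero_iff_dvd]
  push_cast
  rw [ZMod.natCast_zmod_val, ZMod.natCast_zmod_val]
  show (u : ZMod r) * ((-u⁻¹ : (ZMod r)ˣ) : ZMod r) + 1 = 0
  rw [Units.val_neg, mul_neg, Units.mul_inv, neg_add_cancel]

/-- the class of `γ γ'⁻¹` for two elements of `Γ₀(N)` whose lower right entries are congruent
modulo `N / r` -/
theorem ihtu_unitHom_div (hrN : r ∣ N) (hr2 : ¬ r * r ∣ N) (γ γ' : SL(2, ℤ))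
    (hγ : γ ∈ Gamma0 N) (hγ' : γ' ∈ Gamma0 N) (v v' : (ZMod r)ˣ)
    (hv : (r : ℤ) ∣ γ 1 1 - (((v : ZMod r).val : ℕ) : ℤ))
    (hv' : (r : ℤ) ∣ γ' 1 1 - (((v' : ZMod r).val : ℕ) : ℤ))
    (hd : ((N / r : ℕ) : ℤ) ∣ γ 1 1 - γ' 1 1) :
    ihfUnitHom N ⟨γ, hγ⟩ * (ihfUnitHom N ⟨γ', hγ'⟩)⁻¹ = ihtIota N r hrN hr2 (v * v'⁻¹) := by
  have hmod : ∀ (δ : SL(2, ℤ)) (hδ : δ ∈ Gamma0 N) (w : (ZMod r)ˣ),
      (r : ℤ) ∣ δ 1 1 - (((w : ZMod r).val : ℕ) : ℤ) →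
      ZMod.unitsMap hrN (ihfUnitHom N ⟨δ, hδ⟩) = w := by
    intro δ hδ w hw
    apply Units.ext
    rw [ZMod.unitsMap_val, ihfUnitHom_coe]
    show (((δ 1 1 : ℤ) : ZMod N)).cast = (w : ZMod r)
    rw [ZMod.cast_intCast hrN]
    have h1 := (ZMod.intCast_eq_intCast_iff_dvd_sub _ _ r).mpr hw
    push_cast at h1
    rw [ZMod.natCast_zmod_val] at h1
    exact h1.symm
  have hdiv : ZMod.unitsMap (Nat.div_dvd_of_dvd hrN) (ihfUnitHom N ⟨γ, hγ⟩)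
      = ZMod.unitsMap (Nat.div_dvd_of_dvd hrN) (ihfUnitHom N ⟨γ', hγ'⟩) := by
    apply Units.ext
    rw [ZMod.unitsMap_val, ZMod.unitsMap_val, ihfUnitHom_coe, ihfUnitHom_coe]
    show (((γ 1 1 : ℤ) : ZMod N)).cast = (((γ' 1 1 : ℤ) : ZMod N)).cast
    rw [ZMod.cast_intCast (Nat.div_dvd_of_dvd hrN), ZMod.cast_intCast (Nat.div_dvd_of_dvd hrN)]
    exact ((ZMod.intCast_eq_intCast_iff_dvd_sub _ _ (N / r)).mpr hd).symm
  refine iht_iota_unique N r hrN hr2 ?_ ?_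
  · rw [map_mul, map_inv, hmod γ hγ v hv, hmod γ' hγ' v' hv', ihtIota_mod_r]
  · rw [map_mul, map_inv, hdiv, mul_inv_cancel, ihtIota_mod_div]

variable {H : Subgroup (ZMod N)ˣ} {k : ℕ} {Γ' : Subgroup SL(2, ℤ)} (hyp : IhtHyp N r H k Γ')
  (M₁ : ℕ) (a b : ℤ) (hab : ((r * r : ℕ) : ℤ) * a - (M₁ : ℤ) * b = 1)

/-- the element `g₀ = γ_{y(1)} γ₁ γ_{y(-1)}⁻¹ ∈ Γ₀(N)` whose conjugation compares `W ∘ Tw` with `Tw` -/
noncomputable def ihtuG0 : SL(2, ℤ) :=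
  dshGammaU N (ihtY hyp 1)
    * (ihtw_exists_gamma M₁ r a b hab (fun u : (ZMod r)ˣ => (((u : ZMod r).val : ℕ) : ℤ))
        ihtuStar ihtuStar_dvd 1).choose
    * (dshGammaU N (ihtY hyp (ihtuStar 1)))⁻¹

theorem ihtuG0_mem (hM₁ : N = M₁ * r) : ihtuG0 hyp M₁ a b hab ∈ Gamma0 N := by
  have h1 := (ihtw_exists_gamma M₁ r a b hab (fun u : (ZMod r)ˣ => (((u : ZMod r).val : ℕ) : ℤ))
    ihtuStar ihtuStar_dvd 1).choose_spec.1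
  have h2 : (ihtw_exists_gamma M₁ r a b hab (fun u : (ZMod r)ˣ => (((u : ZMod r).val : ℕ) : ℤ))
      ihtuStar ihtuStar_dvd 1).choose ∈ Gamma0 N :=
    (tdm_mem_Gamma0_iff _).mpr (by rw [hM₁]; exact (tdm_mem_Gamma0_iff _).mp h1)
  exact mul_mem (mul_mem (dshGammaU_mem N _) h2) (inv_mem (dshGammaU_mem N _))

/-- the key membership: `γ_{y(u)} γ γ_{y(u*)}⁻¹ g₀⁻¹ ∈ Γ_H(N)` -/
theorem ihtu_hW (hM₁ : N = M₁ * r) (u : (ZMod r)ˣ) (γ : SL(2, ℤ)) (hγ : γ ∈ Gamma0 (M₁ * r))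
    (hγr : (r : ℤ) ∣ γ 1 1 - ((((ihtuStar u : (ZMod r)ˣ) : ZMod r).val : ℕ) : ℤ))
    (hγM : (M₁ : ℤ) ∣ γ 1 1 - r) :
    dshGammaU N (ihtY hyp u) * γ * (dshGammaU N (ihtY hyp (ihtuStar u)))⁻¹
      * (ihtuG0 hyp M₁ a b hab)⁻¹ ∈ ihfGammaH N H := by
  obtain ⟨hγ₁0, hγ₁r, hγ₁M, -⟩ := (ihtw_exists_gamma M₁ r a b hab
    (fun u : (ZMod r)ˣ => (((u : ZMod r).val : ℕ) : ℤ)) ihtuStar ihtuStar_dvd 1).choose_spec
  set γ₁ := (ihtw_exists_gamma M₁ r a b hab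
    (fun u : (ZMod r)ˣ => (((u : ZMod r).val : ℕ) : ℤ)) ihtuStar ihtuStar_dvd 1).choose with hγ₁
  rw [← hM₁] at hγ hγ₁0
  have hNr : N / r = M₁ := by rw [hM₁]; exact Nat.mul_div_cancel M₁ hr.out.pos
  have hd : ((N / r : ℕ) : ℤ) ∣ γ 1 1 - γ₁ 1 1 := by
    rw [hNr]
    have := dvd_sub hγM hγ₁M
    rwa [sub_sub_sub_cancel_right] at this
  have hD := ihtu_unitHom_div hyp.dvd hyp.not_sq γ γ₁ hγ hγ₁0 (ihtuStar u) (ihtuStar 1) hγr hγ₁r hd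
  -- elements of `Γ₀(N)`
  set Gu : Gamma0 N := ⟨dshGammaU N (ihtY hyp u), dshGammaU_mem N _⟩ with hGu
  set Gsu : Gamma0 N := ⟨dshGammaU N (ihtY hyp (ihtuStar u)), dshGammaU_mem N _⟩ with hGsu
  set G1 : Gamma0 N := ⟨dshGammaU N (ihtY hyp 1), dshGammaU_mem N _⟩ with hG1
  set Gs1 : Gamma0 N := ⟨dshGammaU N (ihtY hyp (ihtuStar 1)), dshGammaU_mem N _⟩ with hGs1
  have hmem : dshGammaU N (ihtY hyp u) * γ * (dshGammaU N (ihtY hyp (ihtuStar u)))⁻¹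
      * (ihtuG0 hyp M₁ a b hab)⁻¹ ∈ Gamma0 N :=
    mul_mem (mul_mem (mul_mem (dshGammaU_mem N _) hγ) (inv_mem (dshGammaU_mem N _)))
      (inv_mem (ihtuG0_mem hyp M₁ a b hab hM₁))
  rw [ihf_mem_GammaH_iff' hmem]
  have e : ihfUnitHom N ⟨_, hmem⟩
      = ihfUnitHom N Gu * ihfUnitHom N ⟨γ, hγ⟩ * (ihfUnitHom N Gsu)⁻¹
        * (ihfUnitHom N G1 * ihfUnitHom N ⟨γ₁, hγ₁0⟩ * (ihfUnitHom N Gs1)⁻¹)⁻¹ := by
    rw [← map_inv, ← map_mul, ← map_mul, ← map_inv, ← map_mul, ← map_mul, ← map_inv, ← map_mul]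
    rfl
  rw [e, hGu, hGsu, hG1, hGs1, ihfUnitHom_dshGammaU, ihfUnitHom_dshGammaU, ihfUnitHom_dshGammaU,
    ihfUnitHom_dshGammaU]
  have e2 : ihtY hyp u * ihfUnitHom N ⟨γ, hγ⟩ * (ihtY hyp (ihtuStar u))⁻¹
        * (ihtY hyp 1 * ihfUnitHom N ⟨γ₁, hγ₁0⟩ * (ihtY hyp (ihtuStar 1))⁻¹)⁻¹
      = (ihtY hyp u * (ihtY hyp (ihtuStar u))⁻¹ * ihtY hyp (ihtuStar 1) * (ihtY hyp 1)⁻¹)
        * (ihfUnitHom N ⟨γ, hγ⟩ * (ihfUnitHom N ⟨γ₁, hγ₁0⟩)⁻¹) := by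
    exact ihtu_comm_aux _ _ _ _ _ _
  rw [e2, hD]
  have e3 : ihtY hyp u * (ihtY hyp (ihtuStar u))⁻¹ * ihtY hyp (ihtuStar 1) * (ihtY hyp 1)⁻¹
      = ihtY hyp (u * u) := by
    rw [← map_inv, ← map_mul, ← map_mul, ← map_inv, ← map_mul]
    congr 1
    simp [ihtuStar]
  have e4 : ihtuStar u * (ihtuStar (1 : (ZMod r)ˣ))⁻¹ = u⁻¹ := by
    simp [ihtuStar]
  rw [e3, e4, ihtY_apply, map_mul, mul_pow, ← pow_two, ← pow_mul, mul_comm k 2, map_inv]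
  have e5 : ihtIota N r hyp.dvd hyp.not_sq u ^ (2 * k) * (ihtIota N r hyp.dvd hyp.not_sq u)⁻¹
      = (ihtIota N r hyp.dvd hyp.not_sq u * (ihtIota N r hyp.dvd hyp.not_sq u ^ (2 * k))⁻¹)⁻¹ := by
    rw [_root_.mul_inv_rev, inv_inv]
  rw [e5]
  exact inv_mem (hyp.sqrt u)

/-- **`W' ∘ Tw = Tw ∘ conj g₀`** on all of `Hom(Γ_H(N), A)`, any `A` -/
theorem ihtu_W_tw (W' : tdmCosetSys Γ' Unit) (hM₁ : N = M₁ * r)
    (hW' : W'.rep () = t2wMat M₁ (r * r) a b)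
    {A : Type*} [AddCommGroup A] (φ : Additive (ihfGammaH N H) →+ A) :
    W'.hom A ((ihtSys hyp).cor A φ)
      = (ihtSys hyp).cor A
          ((ihfSysC N H (ihtuG0 hyp M₁ a b hab) (ihtuG0_mem hyp M₁ a b hab hM₁)).hom A φ) :=
  ihtw_W_Tw M₁ r a b hab (ihtSys hyp) (fun u => dshGammaU N (ihtY hyp u))
    (fun u => (((u : ZMod r).val : ℕ) : ℤ)) (fun u => rfl)
    ihtuStar ihtuStar_bijective ihtuStar_dvd W' hW' (ihtuG0 hyp M₁ a b hab)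
    (fun γ hγ => ihf_conj_mem_GammaH (ihtuG0_mem hyp M₁ a b hab hM₁) hγ)
    (fun γ hγ => by
      have := ihf_conj_mem_GammaH (inv_mem (ihtuG0_mem hyp M₁ a b hab hM₁)) hγ
      rwa [inv_inv] at this)
    (fun u γ hγ hγr hγM => ihtu_hW hyp M₁ a b hab hM₁ u γ hγ hγr hγM) φ _
    (fun γ => ihfSysC_hom_apply N H _ _ φ γ)

end W

section W3

variable {N r : ℕ} [NeZero N] [hr : Fact r.Prime] {H : Subgroup (ZMod N)ˣ} {k : ℕ}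
  {Γ' : Subgroup SL(2, ℤ)} (hyp : IhtHyp N r H k Γ')
  (R : Type*) [CommRing R] (A : Type*) [AddCommGroup A] [Module R A]
  [IsDomain R] [NoZeroSMulDivisors R A]

/-- **(Tw3)** `U_r ∘ W_{r²} ∘ Tw = 0` on the `ψ`-eigenvectors, if `ψ ∘ y ≠ 1` -/
theorem ihtu_UW_tw (U' : tdmCosetSys Γ' (Fin r)) (hU' : U'.rep = tdmRepU r)
    (W' : tdmCosetSys Γ' Unit) (M₁ : ℕ) (hM₁ : N = M₁ * r) (a b : ℤ)
    (hab : ((r * r : ℕ) : ℤ) * a - (M₁ : ℤ) * b = 1)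
    (hW' : W'.rep () = t2wMat M₁ (r * r) a b)
    (ψ : (ZMod N)ˣ →* R) (c : ↥(parabolicHoms R (ihfGammaH N H) A))
    (hc : ∀ x : (ZMod N)ˣ, (ihfSysD N H x).homPar R A c = ψ x • c)
    (hψ : ∃ u : (ZMod r)ˣ, ψ (ihtY hyp u) ≠ 1) :
    U'.homPar R A (W'.homPar R A (ihtTw hyp R A c)) = 0 := by
  have hg₀ := ihtuG0_mem hyp M₁ a b hab hM₁
  set z₀ : (ZMod N)ˣ := ihfUnitHom N ⟨ihtuG0 hyp M₁ a b hab, hg₀⟩ with hz₀
  -- `W'(Tw c) = ψ z₀ • Tw c`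
  have h1 : W'.homPar R A (ihtTw hyp R A c) = ψ z₀ • ihtTw hyp R A c := by
    apply Subtype.ext
    rw [tdmCosetSys.homPar_coe, ihtTw_coe, ihtu_W_tw hyp M₁ a b hab W' hM₁ hW',
      ← ihfSysD_hom_eq N H z₀ _ hg₀ (ihfUnitHom_coe ⟨_, hg₀⟩).symm, ← tdmCosetSys.homPar_coe, hc z₀,
      ← ihtTw_coe, map_smul]
  rw [h1, map_smul, ihtu_U_tw hyp R A U' hU' ψ c hc hψ, smul_zero]

end W3

end Fermat.Agent.Ihara
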