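/-
IHARA track, package [TWIST] (helper8 + helper5 + helper7): **the one-prime twist, all properties**.

`Tw = ihtTw hyp R A : Hom_par(Γ_H(N), A) → Hom_par(Γ', A)` (`Lib/Ihara/Tw/Defs.lean`), `r ∥ N`.
* (Tw1a) `iht_T_tw`  : `T_ℓ ∘ Tw = Tw ∘ T_ℓ ∘ ⟨y(ℓ)⟩⁻¹` (`ℓ ∤ N`), `y(ℓ) = ι(ℓ mod r)^k`;
* (Tw1c) `iht_Uq_tw` : `U_q ∘ Tw = Tw ∘ U_q ∘ ⟨y(q)⟩⁻¹` (`q ∣ N` prime, `q ≠ r`);
* (Tw1b) `iht_D_tw`  : `⟨g'⟩ ∘ Tw = Tw ∘ ⟨d(g') ι(d(g'))^{-2k}⟩` for `g' ∈ Γ₀(N r)` normalising `Γ'`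
  (all three by helper8, `Tw/Comm.lean`);
* (Tw2)  `iht_U_tw`  : `U_r (Tw c) = 0` for a `ψ`-eigenvector `c` of the diamonds, `ψ ∘ y ≠ 1`;
* (Tw3)  `iht_UW_tw` : `U_r (W_{r²} (Tw c)) = 0` for such `c` (both by helper5, `Tw/UInst.lean`);
* (Tw4)  `iht_tw_injective` : `Tw c = 0 ⟹ c = 0` for a `ψ`-eigenvector `c` (helper7, `Tw/InjMain.lean`).
The coefficient modules are torsion-free.
-/
import Mathlib
import Fermat.Agent.Lib.Ihara.Tw.Defs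
import Fermat.Agent.Lib.Ihara.Tw.Comm
import Fermat.Agent.Lib.Ihara.Tw.UInst
import Fermat.Agent.Lib.Ihara.Tw.InjMain
import Fermat.Agent.Lib.T2.AL.Basic

set_option autoImplicit false
set_option linter.unusedSectionVars false
set_option linter.unusedVariables false
set_option linter.style.haveILetI false

namespace Fermat.Agent.Ihara

open Matrix MatrixGroups CongruenceSubgroup ModularCurve ModularCurve.Period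
open Fermat.Agent.DS Fermat.Agent.T1 Fermat.Agent.T1G Fermat.Agent.T2

section Main

variable {N r : ℕ} [NeZero N] [hr : Fact r.Prime] {H : Subgroup (ZMod N)ˣ} {k : ℕ}
  {Γ' : Subgroup SL(2, ℤ)} (hyp : IhtHyp N r H k Γ')
  (R : Type*) [CommRing R] (A : Type*) [AddCommGroup A] [Module R A]

omit [NeZero N] hr in
theorem iht_not_dvd_r {ℓ : ℕ} (hrN : r ∣ N) (hℓN : ¬ ℓ ∣ N) : ¬ ℓ ∣ r :=
  fun h => hℓN (h.trans hrN)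

/-- **(Tw1a)** `T_ℓ ∘ Tw = Tw ∘ T_ℓ ∘ ⟨y(ℓ)⟩⁻¹`; `T'` is any `T_ℓ`-system on `Γ'` whose
representatives are `Γ'`-equivalent to `γ_ℓ diag(ℓ, 1)`, `[[1, b], [0, ℓ]]` (`γ_ℓ ∈ Γ₀(N r)` with lower
right entry `ℓ`): `ihfSysT (N r) H'` on `Γ_{H'}(N r)`, `tdmSysT (N r) ℓ` on `Γ₀(N r)`. -/
theorem iht_T_tw [NeZero (N * r)] [NoZeroSMulDivisors ℕ A] {ℓ : ℕ} (hℓ : ℓ.Prime) (hℓN : ¬ ℓ ∣ N)
    (hℓNr : ¬ ℓ ∣ N * r) (T' : tdmCosetSys Γ' (Option (Fin ℓ)))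
    (hT' : ∀ i, ∃ γ : Γ', T'.rep i
      = ((γ : SL(2, ℤ)) : Matrix (Fin 2) (Fin 2) ℤ) * tgmRepT (N * r) hℓ hℓNr i)
    (c : ↥(parabolicHoms R (ihfGammaH N H) A)) :
    T'.homPar R A (ihtTw hyp R A c)
      = ihtTw hyp R A ((ihfSysT N H hℓ hℓN).homPar R A
          ((ihfSysD N H (ihtY hyp (dshUnit r hℓ (iht_not_dvd_r hyp.dvd hℓN)))⁻¹).homPar R A c)) :=
  Subtype.ext (iht_T_tw_hom hyp A hℓ hℓN hℓNr (iht_not_dvd_r hyp.dvd hℓN) T' hT'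
    (c : Additive (ihfGammaH N H) →+ A))

/-- **(Tw1c)** `U_q ∘ Tw = Tw ∘ U_q ∘ ⟨y(q)⟩⁻¹` for a prime `q ∣ N`, `q ≠ r` -/
theorem iht_Uq_tw [NoZeroSMulDivisors ℕ A] {q : ℕ} (hq : q.Prime) (hqN : q ∣ N) (hqr : ¬ q ∣ r)
    (U' : tdmCosetSys Γ' (Fin q)) (hU' : U'.rep = tdmRepU q)
    (c : ↥(parabolicHoms R (ihfGammaH N H) A)) :
    U'.homPar R A (ihtTw hyp R A c)
      = ihtTw hyp R A ((ihfSysU N H hqN hq.ne_zero).homPar R A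
          ((ihfSysD N H (ihtY hyp (dshUnit r hq hqr))⁻¹).homPar R A c)) :=
  Subtype.ext (iht_Uq_tw_hom hyp A hq hqN hqr U' hU' (c : Additive (ihfGammaH N H) →+ A))

/-- **(Tw1b)** diamonds: for `g' ∈ Γ₀(N r)` normalising `Γ'` (as a one-element coset system `C'`),
`⟨g'⟩ ∘ Tw = Tw ∘ ⟨x ι(x_r)^{-2k}⟩`, `x = d(g') mod N`, `x_r = d(g') mod r`. -/
theorem iht_D_tw [NoZeroSMulDivisors ℕ A] (C' : tdmCosetSys Γ' Unit) (g' : SL(2, ℤ))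
    (hg' : g' ∈ Gamma0 (N * r)) (hC' : C'.rep () = (g' : Matrix (Fin 2) (Fin 2) ℤ))
    (x : (ZMod N)ˣ) (xr : (ZMod r)ˣ) (hx : (x : ZMod N) = dshD N g') (hxr : (xr : ZMod r) = dshD r g')
    (c : ↥(parabolicHoms R (ihfGammaH N H) A)) :
    C'.homPar R A (ihtTw hyp R A c)
      = ihtTw hyp R A ((ihfSysD N H
          (x * (ihtIota N r hyp.dvd hyp.not_sq xr ^ (2 * k))⁻¹)).homPar R A c) :=
  Subtype.ext (iht_D_tw_hom hyp A C' g' hg' hC' x xr hx hxr (c : Additive (ihfGammaH N H) →+ A))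

variable [IsDomain R] [CharZero R] [NoZeroSMulDivisors R A]

/-- **(Tw2)** `U_r ∘ Tw = 0` on the `ψ`-eigenvectors of the diamond operators, if `ψ ∘ y ≠ 1` -/
theorem iht_U_tw (U' : tdmCosetSys Γ' (Fin r)) (hU' : U'.rep = tdmRepU r)
    (ψ : (ZMod N)ˣ →* R) (c : ↥(parabolicHoms R (ihfGammaH N H) A))
    (hc : ∀ x : (ZMod N)ˣ, (ihfSysD N H x).homPar R A c = ψ x • c)
    (hψ : ∃ u : (ZMod r)ˣ, ψ (ihtY hyp u) ≠ 1) :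
    U'.homPar R A (ihtTw hyp R A c) = 0 :=
  ihtu_U_tw hyp R A U' hU' ψ c hc hψ

/-- **(Tw3)** `U_r ∘ W_{r²} ∘ Tw = 0` on the `ψ`-eigenvectors, if `ψ ∘ y ≠ 1`; `W'` is any
one-element system on `Γ'` with representative the Atkin–Lehner matrix
`t2wMat M₁ (r * r) a b = [[r² a, 1], [M₁ r² b, r²]]`, `N = M₁ r`, `r² a - M₁ b = 1`
(`t4gSysW M₁ r h` on `Γ₀(M₁ r r)`, with `a = t2wA M₁ (r * r)`, `b = t2wC M₁ (r * r)`). -/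
theorem iht_UW_tw (U' : tdmCosetSys Γ' (Fin r)) (hU' : U'.rep = tdmRepU r)
    (W' : tdmCosetSys Γ' Unit) (M₁ : ℕ) (hM₁ : N = M₁ * r) (a b : ℤ)
    (hab : ((r * r : ℕ) : ℤ) * a - (M₁ : ℤ) * b = 1)
    (hW' : W'.rep () = t2wMat M₁ (r * r) a b)
    (ψ : (ZMod N)ˣ →* R) (c : ↥(parabolicHoms R (ihfGammaH N H) A))
    (hc : ∀ x : (ZMod N)ˣ, (ihfSysD N H x).homPar R A c = ψ x • c)
    (hψ : ∃ u : (ZMod r)ˣ, ψ (ihtY hyp u) ≠ 1) :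
    U'.homPar R A (W'.homPar R A (ihtTw hyp R A c)) = 0 :=
  ihtu_UW_tw hyp R A U' hU' W' M₁ hM₁ a b hab hW' ψ c hc hψ

/-- **(Tw4)** the twist is injective on every eigenspace of the diamond operators -/
theorem iht_tw_injective (ψ : (ZMod N)ˣ →* R) (c : ↥(parabolicHoms R (ihfGammaH N H) A))
    (hc : ∀ x : (ZMod N)ˣ, (ihfSysD N H x).homPar R A c = ψ x • c)
    (h0 : ihtTw hyp R A c = 0) : c = 0 :=
  ihti_tw_injective hyp R A ψ c hc h0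

end Main

end Fermat.Agent.Ihara
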