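/-
IHARA track, package [TWIST-ITER] (helper7): **the multi-prime composite twist**.

`Rl` a duplicate-free list of primes, each exactly dividing `N`; `H ≤ (ℤ/N)ˣ` contains every unit
that is `≡ 1` modulo all `r ∈ Rl` (so `(ℤ/N)ˣ/H` is a quotient of `∏_{r ∈ Rl} (ℤ/r)ˣ`), and `k r` is a
square-root exponent at `r`: `ι_r(u)^{2 k r} ≡ ι_r(u) mod H`.  `N' = N ∏_{r ∈ Rl} r`.
For every `v ∈ Rl` the composite `Tw = Tw_v ∘ Tw_{r_n} ∘ ⋯ ∘ Tw_{r_1}` (the one-prime twists of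
`Tw/Defs.lean`, `v` last; intermediate groups `Γ_{H_i}(N r_1 ⋯ r_i)`, last target `Γ₀(N')`) satisfies
* (Tw1a) `T_ℓ ∘ Tw = Tw ∘ T_ℓ ∘ ⟨z(ℓ)⟩`, `z(ℓ) = ∏_{r ∈ Rl} ι_r(ℓ)^{-k r}` (independent of the order,
  hence of `v`);
* (Tw4) `Tw` is injective on every eigenspace of the diamond operators;
* (Tw2), (Tw3) `U_v ∘ Tw = 0 = U_v ∘ W_{v²} ∘ Tw` on the `ψ`-eigenspace, if `ψ ∘ ι_v^{k v} ≠ 1`;
* (Tw1c) `U_q ∘ Tw = Tw ∘ U_q ∘ ⟨z(q)⟩` for the primes `q ∣ N` outside `Rl` (`ihtc_exists'`).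
-/
import Mathlib
import Fermat.Agent.Lib.Ihara.Tw.Main

set_option autoImplicit false
set_option linter.unusedSectionVars false
set_option linter.unusedVariables false
set_option linter.style.haveILetI false

namespace Fermat.Agent.Ihara

open Matrix MatrixGroups CongruenceSubgroup ModularCurve ModularCurve.Period
open Fermat.Agent.DS Fermat.Agent.T1 Fermat.Agent.T1G Fermat.Agent.T2

/-! ### Total versions of the CRT section and of `ℓ mod r` -/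

/-- the CRT section `(ℤ/r)ˣ → (ℤ/N)ˣ`, total in `r` (trivial unless `r` is a prime with `r ∥ N`) -/
noncomputable def ihtcIota (N : ℕ) [NeZero N] (r : ℕ) : (ZMod r)ˣ →* (ZMod N)ˣ :=
  if h : r.Prime ∧ r ∣ N ∧ ¬ r * r ∣ N then
    haveI : Fact r.Prime := ⟨h.1⟩
    ihtIota N r h.2.1 h.2.2
  else 1

theorem ihtcIota_eq (N : ℕ) [NeZero N] (r : ℕ) [hr : Fact r.Prime] (hrN : r ∣ N)
    (hr2 : ¬ r * r ∣ N) : ihtcIota N r = ihtIota N r hrN hr2 := by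
  rw [ihtcIota, dif_pos ⟨hr.out, hrN, hr2⟩]

/-- `ℓ mod r` as a unit (`1` if `ℓ` is not prime to `r`) -/
def ihtcUnit (r ℓ : ℕ) : (ZMod r)ˣ :=
  if h : Nat.Coprime ℓ r then ZMod.unitOfCoprime ℓ h else 1

theorem ihtcUnit_eq (r : ℕ) {ℓ : ℕ} (hℓ : ℓ.Prime) (hℓr : ¬ ℓ ∣ r) :
    ihtcUnit r ℓ = dshUnit r hℓ hℓr := by
  rw [ihtcUnit, dif_pos ((Nat.Prime.coprime_iff_not_dvd hℓ).mpr hℓr)]
  rfl

/-- the square root `y_r(u) = ι_r(u)^{k r}` -/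
noncomputable def ihtcY (N : ℕ) [NeZero N] (k : ℕ → ℕ) (r : ℕ) : (ZMod r)ˣ →* (ZMod N)ˣ :=
  (ihtcIota N r).comp (powMonoidHom (k r))

theorem ihtcY_apply (N : ℕ) [NeZero N] (k : ℕ → ℕ) (r : ℕ) (u : (ZMod r)ˣ) :
    ihtcY N k r u = ihtcIota N r u ^ k r := by
  rw [ihtcY, MonoidHom.comp_apply, powMonoidHom_apply, map_pow]

/-- **the diamond twist** `z(ℓ) = ∏_{r ∈ Rl} ι_r(ℓ mod r)^{-k r}` -/
noncomputable def ihtcZ (N : ℕ) [NeZero N] (Rl : List ℕ) (k : ℕ → ℕ) (ℓ : ℕ) : (ZMod N)ˣ :=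
  ((Rl.map fun r => ihtcY N k r (ihtcUnit r ℓ)).prod)⁻¹

/-! ### The hypotheses -/

/-- the hypotheses for the composite twist at the primes of `Rl` from `Γ_H(N)` to `Γ₀(N ∏ Rl)` -/
structure IhtcHyp (N : ℕ) [NeZero N] (H : Subgroup (ZMod N)ˣ) (Rl : List ℕ) (k : ℕ → ℕ) : Prop where
  nodup : Rl.Nodup
  prime : ∀ r ∈ Rl, r.Prime
  dvd : ∀ r ∈ Rl, r ∣ N
  not_sq : ∀ r ∈ Rl, ¬ r * r ∣ N
  supp : ∀ x : (ZMod N)ˣ, (∀ r ∈ Rl, ∀ h : r ∣ N, ZMod.unitsMap h x = 1) → x ∈ H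
  sqrt : ∀ r ∈ Rl, ∀ u : (ZMod r)ˣ, ihtcIota N r u * (ihtcIota N r u ^ (2 * k r))⁻¹ ∈ H

/-! ### The properties of the composite twist -/

section Good

variable {N : ℕ} [NeZero N] (H : Subgroup (ZMod N)ˣ) {N' : ℕ} [NeZero N']
  (R : Type*) [CommRing R] (A : Type*) [AddCommGroup A] [Module R A]

/-- (Tw1a) with the diamond twist `z`, and (Tw4) -/
structure IhtcGood (z : ℕ → (ZMod N)ˣ)
    (Tw : ↥(parabolicHoms R (ihfGammaH N H) A) →ₗ[R] ↥(parabolicHoms R (Gamma0 N') A)) : Prop where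
  T_tw : ∀ (ℓ : ℕ) (hℓ : ℓ.Prime) (hℓN' : ¬ ℓ ∣ N') (hℓN : ¬ ℓ ∣ N)
    (c : ↥(parabolicHoms R (ihfGammaH N H) A)),
    (tdmSysT N' ℓ hℓ hℓN').homPar R A (Tw c)
      = Tw ((ihfSysT N H hℓ hℓN).homPar R A ((ihfSysD N H (z ℓ)).homPar R A c))
  inj : ∀ (ψ : (ZMod N)ˣ →* R) (c : ↥(parabolicHoms R (ihfGammaH N H) A)),
    (∀ x : (ZMod N)ˣ, (ihfSysD N H x).homPar R A c = ψ x • c) → Tw c = 0 → c = 0

/-- (Tw2) and (Tw3) at the prime `v`, with the square root `y` at `v` -/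
structure IhtcGoodAt (v : ℕ) (y : (ZMod v)ˣ →* (ZMod N)ˣ)
    (Tw : ↥(parabolicHoms R (ihfGammaH N H) A) →ₗ[R] ↥(parabolicHoms R (Gamma0 N') A)) : Prop where
  U_tw : ∀ (U' : tdmCosetSys (Gamma0 N') (Fin v)) (hU' : U'.rep = tdmRepU v)
    (ψ : (ZMod N)ˣ →* R) (c : ↥(parabolicHoms R (ihfGammaH N H) A)),
    (∀ x : (ZMod N)ˣ, (ihfSysD N H x).homPar R A c = ψ x • c) → (∃ u : (ZMod v)ˣ, ψ (y u) ≠ 1) →
    U'.homPar R A (Tw c) = 0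
  UW_tw : ∀ (U' : tdmCosetSys (Gamma0 N') (Fin v)) (hU' : U'.rep = tdmRepU v)
    (W' : tdmCosetSys (Gamma0 N') Unit) (M₁ : ℕ) (hM₁ : N' = M₁ * v * v) (a b : ℤ)
    (hab : ((v * v : ℕ) : ℤ) * a - (M₁ : ℤ) * b = 1) (hW' : W'.rep () = t2wMat M₁ (v * v) a b)
    (ψ : (ZMod N)ˣ →* R) (c : ↥(parabolicHoms R (ihfGammaH N H) A)),
    (∀ x : (ZMod N)ˣ, (ihfSysD N H x).homPar R A c = ψ x • c) → (∃ u : (ZMod v)ˣ, ψ (y u) ≠ 1) →
    U'.homPar R A (W'.homPar R A (Tw c)) = 0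

/-- (Tw1c) with the diamond twist `z`, at the primes `q ∣ N` outside the list `Rl` -/
structure IhtcGoodU (Rl : List ℕ) (z : ℕ → (ZMod N)ˣ)
    (Tw : ↥(parabolicHoms R (ihfGammaH N H) A) →ₗ[R] ↥(parabolicHoms R (Gamma0 N') A)) : Prop where
  U_tw : ∀ (q : ℕ) (hq : q.Prime) (hqN : q ∣ N) (hqRl : q ∉ Rl)
    (U' : tdmCosetSys (Gamma0 N') (Fin q)) (hU' : U'.rep = tdmRepU q)
    (c : ↥(parabolicHoms R (ihfGammaH N H) A)),
    U'.homPar R A (Tw c)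
      = Tw ((ihfSysU N H hqN hq.ne_zero).homPar R A ((ihfSysD N H (z q)).homPar R A c))

end Good

section CRT

/-- composition of reductions -/
theorem ihtc_unitsMap_unitsMap {a b c : ℕ} (hab : a ∣ b) (hbc : b ∣ c) (x : (ZMod c)ˣ) :
    ZMod.unitsMap hab (ZMod.unitsMap hbc x) = ZMod.unitsMap (hab.trans hbc) x := by
  rw [← ZMod.unitsMap_comp hab hbc]; rfl

variable (N : ℕ) [NeZero N]

/-- `ι_r(u) ≡ 1 mod s` for a divisor `s` of `N / r` -/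
theorem ihtc_iota_mod_other {r : ℕ} [hr : Fact r.Prime] (hrN : r ∣ N) (hr2 : ¬ r * r ∣ N)
    {s : ℕ} (hsN : s ∣ N) (hs : s ∣ N / r) (u : (ZMod r)ˣ) :
    ZMod.unitsMap hsN (ihtIota N r hrN hr2 u) = 1 := by
  rw [← ihtc_unitsMap_unitsMap hs (Nat.div_dvd_of_dvd hrN), ihtIota_mod_div, map_one]

/-- a prime `s ≠ r` dividing `N` divides `N / r` -/
theorem ihtc_dvd_div {r s : ℕ} (hr : r.Prime) (hs : s.Prime) (hsr : s ≠ r) (hrN : r ∣ N)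
    (hsN : s ∣ N) : s ∣ N / r := by
  obtain ⟨m, rfl⟩ := hrN
  rw [Nat.mul_div_cancel_left m hr.pos]
  rcases (Nat.Prime.dvd_mul hs).mp hsN with h | h
  · exact absurd ((Nat.prime_dvd_prime_iff_eq hs hr).mp h) hsr
  · exact h

variable {r : ℕ} [hr : Fact r.Prime] [NeZero (N * r)]

omit [NeZero N] [NeZero (N * r)] hr in
theorem ihtc_dvd_mul {s : ℕ} (hsN : s ∣ N) : s ∣ N * r := hsN.trans (Dvd.intro r rfl)

omit [NeZero N] [NeZero (N * r)] in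
theorem ihtc_not_sq_mul {s : ℕ} (hs : s.Prime) (hsr : s ≠ r) (hs2 : ¬ s * s ∣ N) :
    ¬ s * s ∣ N * r := by
  intro h
  apply hs2
  have hcop : Nat.Coprime s r := (Nat.coprime_primes hs hr.out).mpr hsr
  exact Nat.Coprime.dvd_of_dvd_mul_right (Nat.Coprime.mul_left hcop hcop) h

omit [NeZero N] [NeZero (N * r)] hr in
theorem ihtc_div_dvd {s : ℕ} (hs0 : 0 < s) (hsN : s ∣ N) : N / s ∣ N * r / s := by
  obtain ⟨m, rfl⟩ := hsN
  rw [Nat.mul_div_cancel_left m hs0, Nat.mul_assoc, Nat.mul_div_cancel_left _ hs0]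
  exact Dvd.intro r rfl

omit [NeZero N] [NeZero (N * r)] hr in
theorem ihtc_r_dvd {s : ℕ} (hs0 : 0 < s) (hsN : s ∣ N) : r ∣ N * r / s := by
  obtain ⟨m, rfl⟩ := hsN
  rw [Nat.mul_assoc, Nat.mul_div_cancel_left _ hs0]
  exact Dvd.intro_left m rfl

/-- `ι^{N r}_s(u) mod N = ι^N_s(u)` -/
theorem ihtc_iota_mod_N {s : ℕ} [hs : Fact s.Prime] (hsN : s ∣ N) (hs2 : ¬ s * s ∣ N)
    (hsN' : s ∣ N * r) (hs2' : ¬ s * s ∣ N * r) (u : (ZMod s)ˣ) :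
    ZMod.unitsMap (Dvd.intro r rfl : N ∣ N * r) (ihtIota (N * r) s hsN' hs2' u)
      = ihtIota N s hsN hs2 u := by
  refine iht_iota_unique N s hsN hs2 ?_ ?_
  · rw [ihtc_unitsMap_unitsMap, ihtIota_mod_r, ihtIota_mod_r]
  · rw [ihtc_unitsMap_unitsMap, ihtIota_mod_div,
      ← ihtc_unitsMap_unitsMap (ihtc_div_dvd N hs.out.pos hsN) (Nat.div_dvd_of_dvd hsN'),
      ihtIota_mod_div, map_one]

/-- `ι^{N r}_s(u) mod r = 1` -/
theorem ihtc_iota_mod_r {s : ℕ} [hs : Fact s.Prime] (hsN : s ∣ N)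
    (hsN' : s ∣ N * r) (hs2' : ¬ s * s ∣ N * r) (u : (ZMod s)ˣ) :
    ZMod.unitsMap (Dvd.intro_left N rfl : r ∣ N * r) (ihtIota (N * r) s hsN' hs2' u) = 1 := by
  rw [← ihtc_unitsMap_unitsMap (ihtc_r_dvd N hs.out.pos hsN) (Nat.div_dvd_of_dvd hsN'),
    ihtIota_mod_div, map_one]

end CRT

section Down

variable (N : ℕ) [NeZero N] (r : ℕ) [hr : Fact r.Prime] (hrN : r ∣ N) (hr2 : ¬ r * r ∣ N)

/-- `x ↦ (x mod N) ι_r(x mod r)^{-e}`, `(ℤ/N r)ˣ → (ℤ/N)ˣ` -/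
noncomputable def ihtcDown (e : ℕ) : (ZMod (N * r))ˣ →* (ZMod N)ˣ where
  toFun x := ZMod.unitsMap (Dvd.intro r rfl : N ∣ N * r) x
    * (ihtIota N r hrN hr2 (ZMod.unitsMap (Dvd.intro_left N rfl : r ∣ N * r) x) ^ e)⁻¹
  map_one' := by simp
  map_mul' x y := by
    simp only [map_mul, mul_pow, mul_inv]
    exact mul_mul_mul_comm _ _ _ _

theorem ihtcDown_apply (e : ℕ) (x : (ZMod (N * r))ˣ) :
    ihtcDown N r hrN hr2 e x = ZMod.unitsMap (Dvd.intro r rfl : N ∣ N * r) x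
      * (ihtIota N r hrN hr2 (ZMod.unitsMap (Dvd.intro_left N rfl : r ∣ N * r) x) ^ e)⁻¹ := rfl

/-- the intermediate group `H₁ = {x ∈ (ℤ/N r)ˣ | (x mod N) ι_r(x mod r)⁻¹ ∈ H}` -/
noncomputable def ihtcH₁ (H : Subgroup (ZMod N)ˣ) : Subgroup (ZMod (N * r))ˣ :=
  H.comap (ihtcDown N r hrN hr2 1)

theorem ihtc_mem_H₁ (H : Subgroup (ZMod N)ˣ) (x : (ZMod (N * r))ˣ) :
    x ∈ ihtcH₁ N r hrN hr2 H ↔ ZMod.unitsMap (Dvd.intro r rfl : N ∣ N * r) x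
      * (ihtIota N r hrN hr2 (ZMod.unitsMap (Dvd.intro_left N rfl : r ∣ N * r) x))⁻¹ ∈ H := by
  rw [ihtcH₁, Subgroup.mem_comap, ihtcDown_apply, pow_one]

/-- modulo `H` the exponent `2 k` may be replaced by `1` -/
theorem ihtcDown_mem_iff (H : Subgroup (ZMod N)ˣ) (k : ℕ)
    (hk : ∀ u : (ZMod r)ˣ, ihtIota N r hrN hr2 u * (ihtIota N r hrN hr2 u ^ (2 * k))⁻¹ ∈ H)
    (x : (ZMod (N * r))ˣ) :
    ihtcDown N r hrN hr2 (2 * k) x ∈ H ↔ x ∈ ihtcH₁ N r hrN hr2 H := by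
  rw [ihtc_mem_H₁, ihtcDown_apply]
  set a := ZMod.unitsMap (Dvd.intro r rfl : N ∣ N * r) x
  set b := ihtIota N r hrN hr2 (ZMod.unitsMap (Dvd.intro_left N rfl : r ∣ N * r) x) with hb
  have h1 : b * (b ^ (2 * k))⁻¹ ∈ H := hk _
  have h2 : a * (b ^ (2 * k))⁻¹ = (a * b⁻¹) * (b * (b ^ (2 * k))⁻¹) := by
    rw [mul_assoc, inv_mul_cancel_left]
  rw [h2]
  exact Subgroup.mul_mem_cancel_right H h1

/-- the twisting hypotheses for the target `Γ_{H₁}(N r)` -/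
theorem ihtc_hyp₁ [NeZero (N * r)] (H : Subgroup (ZMod N)ˣ) (k : ℕ)
    (hk : ∀ u : (ZMod r)ˣ, ihtIota N r hrN hr2 u * (ihtIota N r hrN hr2 u ^ (2 * k))⁻¹ ∈ H) :
    IhtHyp N r H k (ihfGammaH (N * r) (ihtcH₁ N r hrN hr2 H)) :=
  iht_hyp_GammaH hrN hr2 H k _ hk fun x hx => (ihtc_mem_H₁ N r hrN hr2 H x).mp hx

end Down

section Step

variable {N r : ℕ} [NeZero N] [hr : Fact r.Prime] [NeZero (N * r)] {H : Subgroup (ZMod N)ˣ} {k : ℕ}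
  {H₁ : Subgroup (ZMod (N * r))ˣ} (hyp : IhtHyp N r H k (ihfGammaH (N * r) H₁))
  (R : Type*) [CommRing R] (A : Type*) [AddCommGroup A] [Module R A]

/-- (Tw1b) for the diamond operators of `Γ_{H₁}(N r)` -/
theorem ihtc_D_tw [NoZeroSMulDivisors ℕ A] (x' : (ZMod (N * r))ˣ)
    (c : ↥(parabolicHoms R (ihfGammaH N H) A)) :
    (ihfSysD (N * r) H₁ x').homPar R A (ihtTw hyp R A c)
      = ihtTw hyp R A ((ihfSysD N H (ihtcDown N r hyp.dvd hyp.not_sq (2 * k) x')).homPar R A c) := by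
  refine iht_D_tw hyp R A (ihfSysD (N * r) H₁ x') (dshGammaU (N * r) x') (dshGammaU_mem _ _) rfl
    (ZMod.unitsMap (Dvd.intro r rfl : N ∣ N * r) x')
    (ZMod.unitsMap (Dvd.intro_left N rfl : r ∣ N * r) x') ?_ ?_ c
  · rw [ZMod.unitsMap_val, ← iht_dshD_cast (Dvd.intro r rfl : N ∣ N * r), dshD_dshGammaU]
  · rw [ZMod.unitsMap_val, ← iht_dshD_cast (Dvd.intro_left N rfl : r ∣ N * r), dshD_dshGammaU]

/-- the twist of a `ψ`-eigenvector is a `ψ ∘ down`-eigenvector -/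
theorem ihtc_eigen_tw [NoZeroSMulDivisors ℕ A] (ψ : (ZMod N)ˣ →* R)
    (c : ↥(parabolicHoms R (ihfGammaH N H) A))
    (hc : ∀ x : (ZMod N)ˣ, (ihfSysD N H x).homPar R A c = ψ x • c) (x' : (ZMod (N * r))ˣ) :
    (ihfSysD (N * r) H₁ x').homPar R A (ihtTw hyp R A c)
      = (ψ.comp (ihtcDown N r hyp.dvd hyp.not_sq (2 * k))) x' • ihtTw hyp R A c := by
  rw [ihtc_D_tw, hc, map_smul, MonoidHom.comp_apply]

/-- multiplicativity of the diamond operators on the parabolic classes -/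
theorem ihtc_D_mul (d d' : (ZMod N)ˣ) (c : ↥(parabolicHoms R (ihfGammaH N H) A)) :
    (ihfSysD N H d).homPar R A ((ihfSysD N H d').homPar R A c)
      = (ihfSysD N H (d * d')).homPar R A c :=
  Subtype.ext (ihfSysD_hom_mul N H d d' _).symm

/-- (Tw1a) for the Hecke operators of `Γ_{H₁}(N r)` -/
theorem ihtc_T_tw [NoZeroSMulDivisors ℕ A] {ℓ : ℕ} (hℓ : ℓ.Prime) (hℓN : ¬ ℓ ∣ N)
    (hℓNr : ¬ ℓ ∣ N * r) (hℓr : ¬ ℓ ∣ r) (c : ↥(parabolicHoms R (ihfGammaH N H) A)) :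
    (ihfSysT (N * r) H₁ hℓ hℓNr).homPar R A (ihtTw hyp R A c)
      = ihtTw hyp R A ((ihfSysT N H hℓ hℓN).homPar R A
          ((ihfSysD N H (ihtY hyp (dshUnit r hℓ hℓr))⁻¹).homPar R A c)) :=
  iht_T_tw hyp R A hℓ hℓN hℓNr (ihfSysT (N * r) H₁ hℓ hℓNr)
    (fun i => ⟨1, by rw [ihfSysT_rep]; simp⟩) c

/-- the step for (Tw1a): `Tw₂ ∘ Tw_r` -/
theorem ihtc_T_step [NoZeroSMulDivisors ℕ A] {Γ'' : Subgroup SL(2, ℤ)}
    (Tw₂ : ↥(parabolicHoms R (ihfGammaH (N * r) H₁) A) →ₗ[R] ↥(parabolicHoms R Γ'' A))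
    {ℓ : ℕ} (hℓ : ℓ.Prime) (hℓN : ¬ ℓ ∣ N) (hℓNr : ¬ ℓ ∣ N * r) (hℓr : ¬ ℓ ∣ r)
    (T'' : tdmCosetSys Γ'' (Option (Fin ℓ))) (z₂ : (ZMod (N * r))ˣ)
    (h₂ : ∀ c', T''.homPar R A (Tw₂ c')
      = Tw₂ ((ihfSysT (N * r) H₁ hℓ hℓNr).homPar R A ((ihfSysD (N * r) H₁ z₂).homPar R A c')))
    (c : ↥(parabolicHoms R (ihfGammaH N H) A)) :
    T''.homPar R A (Tw₂ (ihtTw hyp R A c))
      = Tw₂ (ihtTw hyp R A ((ihfSysT N H hℓ hℓN).homPar R A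
          ((ihfSysD N H ((ihtY hyp (dshUnit r hℓ hℓr))⁻¹
            * ihtcDown N r hyp.dvd hyp.not_sq (2 * k) z₂)).homPar R A c))) := by
  rw [h₂, ihtc_D_tw, ihtc_T_tw hyp R A hℓ hℓN hℓNr hℓr, ihtc_D_mul]

/-- (Tw1c) for the `U_q`-operators of `Γ_{H₁}(N r)` -/
theorem ihtc_Uq_tw [NoZeroSMulDivisors ℕ A] {q : ℕ} (hq : q.Prime) (hqN : q ∣ N)
    (hqNr : q ∣ N * r) (hqr : ¬ q ∣ r) (c : ↥(parabolicHoms R (ihfGammaH N H) A)) :
    (ihfSysU (N * r) H₁ hqNr hq.ne_zero).homPar R A (ihtTw hyp R A c)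
      = ihtTw hyp R A ((ihfSysU N H hqN hq.ne_zero).homPar R A
          ((ihfSysD N H (ihtY hyp (dshUnit r hq hqr))⁻¹).homPar R A c)) :=
  iht_Uq_tw hyp R A hq hqN hqr (ihfSysU (N * r) H₁ hqNr hq.ne_zero) (ihfSysU_rep _ _ _ _) c

/-- the step for (Tw1c): `Tw₂ ∘ Tw_r` -/
theorem ihtc_U_step [NoZeroSMulDivisors ℕ A] {Γ'' : Subgroup SL(2, ℤ)}
    (Tw₂ : ↥(parabolicHoms R (ihfGammaH (N * r) H₁) A) →ₗ[R] ↥(parabolicHoms R Γ'' A))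
    {q : ℕ} (hq : q.Prime) (hqN : q ∣ N) (hqNr : q ∣ N * r) (hqr : ¬ q ∣ r)
    (U'' : tdmCosetSys Γ'' (Fin q)) (z₂ : (ZMod (N * r))ˣ)
    (h₂ : ∀ c', U''.homPar R A (Tw₂ c')
      = Tw₂ ((ihfSysU (N * r) H₁ hqNr hq.ne_zero).homPar R A
          ((ihfSysD (N * r) H₁ z₂).homPar R A c')))
    (c : ↥(parabolicHoms R (ihfGammaH N H) A)) :
    U''.homPar R A (Tw₂ (ihtTw hyp R A c))
      = Tw₂ (ihtTw hyp R A ((ihfSysU N H hqN hq.ne_zero).homPar R A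
          ((ihfSysD N H ((ihtY hyp (dshUnit r hq hqr))⁻¹
            * ihtcDown N r hyp.dvd hyp.not_sq (2 * k) z₂)).homPar R A c))) := by
  rw [h₂, ihtc_D_tw, ihtc_Uq_tw hyp R A hq hqN hqNr hqr, ihtc_D_mul]

end Step

/-! ### The base case: one prime, target `Γ₀(N v)` -/

section Base

variable {N v : ℕ} [NeZero N] [hv : Fact v.Prime] [NeZero (N * v)] {H : Subgroup (ZMod N)ˣ} {k : ℕ}
  (hyp : IhtHyp N v H k (Gamma0 (N * v)))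
  (R : Type*) [CommRing R] (A : Type*) [AddCommGroup A] [Module R A]

/-- (Tw1a) for the Hecke operators of `Γ₀(N v)` -/
theorem ihtc_T_base [NoZeroSMulDivisors ℕ A] {ℓ : ℕ} (hℓ : ℓ.Prime) (hℓN : ¬ ℓ ∣ N)
    (hℓNv : ¬ ℓ ∣ N * v) (hℓv : ¬ ℓ ∣ v) (c : ↥(parabolicHoms R (ihfGammaH N H) A)) :
    (tdmSysT (N * v) ℓ hℓ hℓNv).homPar R A (ihtTw hyp R A c)
      = ihtTw hyp R A ((ihfSysT N H hℓ hℓN).homPar R A
          ((ihfSysD N H (ihtY hyp (dshUnit v hℓ hℓv))⁻¹).homPar R A c)) := by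
  refine iht_T_tw hyp R A hℓ hℓN hℓNv (tdmSysT (N * v) ℓ hℓ hℓNv) (fun i => ?_) c
  rcases i with _ | b
  · refine ⟨⟨(tgmGammaP (N * v) hℓ hℓNv)⁻¹, inv_mem (tgmGammaP_mem _ hℓ hℓNv)⟩, ?_⟩
    rw [tdmSysT_rep]
    show tdmRepT ℓ none = ((tgmGammaP (N * v) hℓ hℓNv)⁻¹ : SL(2, ℤ)).1
      * ((tgmGammaP (N * v) hℓ hℓNv : Matrix (Fin 2) (Fin 2) ℤ) * !![(ℓ : ℤ), 0; 0, 1])
    rw [tgm_SL_inv_mul_cancel]
    rfl
  · refine ⟨1, ?_⟩
    rw [tdmSysT_rep]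
    show tdmRepT ℓ (some b) = ((1 : SL(2, ℤ)) : Matrix (Fin 2) (Fin 2) ℤ)
      * !![1, ((b : ℕ) : ℤ); 0, (ℓ : ℤ)]
    rw [Matrix.SpecialLinearGroup.coe_one, Matrix.one_mul]
    rfl

end Base

/-! ### The hypotheses for the tail of the list -/

section Tail

variable {N : ℕ} [NeZero N] {H : Subgroup (ZMod N)ˣ} {r : ℕ} {L : List ℕ} {k : ℕ → ℕ}

theorem IhtcHyp.ne_of_mem (hyp : IhtcHyp N H (r :: L) k) {s : ℕ} (hs : s ∈ L) : s ≠ r := by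
  rintro rfl
  exact (List.nodup_cons.mp hyp.nodup).1 hs

theorem IhtcHyp.sqrt' (hyp : IhtcHyp N H (r :: L) k) [hr : Fact r.Prime] (hrN : r ∣ N)
    (hr2 : ¬ r * r ∣ N) (u : (ZMod r)ˣ) :
    ihtIota N r hrN hr2 u * (ihtIota N r hrN hr2 u ^ (2 * k r))⁻¹ ∈ H := by
  have := hyp.sqrt r (List.mem_cons_self) u
  rwa [ihtcIota_eq N r hrN hr2] at this

theorem IhtcHyp.tail (hyp : IhtcHyp N H (r :: L) k) [hr : Fact r.Prime] [NeZero (N * r)]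
    (hrN : r ∣ N) (hr2 : ¬ r * r ∣ N) :
    IhtcHyp (N * r) (ihtcH₁ N r hrN hr2 H) L k where
  nodup := (List.nodup_cons.mp hyp.nodup).2
  prime s hs := hyp.prime s (List.mem_cons_of_mem _ hs)
  dvd s hs := ihtc_dvd_mul N (hyp.dvd s (List.mem_cons_of_mem _ hs))
  not_sq s hs := ihtc_not_sq_mul N (hyp.prime s (List.mem_cons_of_mem _ hs)) (hyp.ne_of_mem hs)
    (hyp.not_sq s (List.mem_cons_of_mem _ hs))
  supp x hx := by
    rw [ihtc_mem_H₁]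
    refine hyp.supp _ fun s hs h => ?_
    rw [map_mul, map_inv, ihtc_unitsMap_unitsMap]
    rcases List.mem_cons.mp hs with rfl | hs'
    · rw [ihtIota_mod_r, mul_inv_cancel]
    · rw [hx s hs' _, ihtc_iota_mod_other N hrN hr2 h
        (ihtc_dvd_div N hr.out (hyp.prime s hs) (hyp.ne_of_mem hs') hrN h), inv_one, mul_one]
  sqrt s hs u := by
    have hs' : s ∈ r :: L := List.mem_cons_of_mem _ hs
    haveI : Fact s.Prime := ⟨hyp.prime s hs'⟩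
    have hsN := hyp.dvd s hs'
    have hs2 := hyp.not_sq s hs'
    have hsN' : s ∣ N * r := ihtc_dvd_mul N hsN
    have hs2' : ¬ s * s ∣ N * r := ihtc_not_sq_mul N (hyp.prime s hs') (hyp.ne_of_mem hs) hs2
    have h1 := hyp.sqrt s hs' u
    rw [ihtcIota_eq N s hsN hs2] at h1
    rw [ihtcIota_eq (N * r) s hsN' hs2', ihtc_mem_H₁, map_mul, map_inv, map_pow, map_mul, map_inv,
      map_pow, ihtc_iota_mod_N N hsN hs2 hsN' hs2', ihtc_iota_mod_r N hsN hsN' hs2', one_pow, inv_one,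
      mul_one, map_one, inv_one, mul_one]
    exact h1

/-- `down(y^{N r}_s(u)) = y^N_s(u)` for `s ≠ r` in the list -/
theorem IhtcHyp.down_Y (hyp : IhtcHyp N H (r :: L) k) [hr : Fact r.Prime] [NeZero (N * r)]
    (hrN : r ∣ N) (hr2 : ¬ r * r ∣ N) (e : ℕ) {s : ℕ} (hs : s ∈ L) (u : (ZMod s)ˣ) :
    ihtcDown N r hrN hr2 e (ihtcY (N * r) k s u) = ihtcY N k s u := by
  have hs' : s ∈ r :: L := List.mem_cons_of_mem _ hs
  haveI : Fact s.Prime := ⟨hyp.prime s hs'⟩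
  have hsN := hyp.dvd s hs'
  have hs2 := hyp.not_sq s hs'
  have hsN' : s ∣ N * r := ihtc_dvd_mul N hsN
  have hs2' : ¬ s * s ∣ N * r := ihtc_not_sq_mul N (hyp.prime s hs') (hyp.ne_of_mem hs) hs2
  rw [ihtcY_apply, ihtcY_apply, ihtcIota_eq N s hsN hs2, ihtcIota_eq (N * r) s hsN' hs2',
    ihtcDown_apply, map_pow, ihtc_iota_mod_N N hsN hs2 hsN' hs2', map_pow,
    ihtc_iota_mod_r N hsN hsN' hs2', one_pow, map_one, one_pow, inv_one, mul_one]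

/-- the recursion for the diamond twist -/
theorem IhtcHyp.Z_cons (hyp : IhtcHyp N H (r :: L) k) [hr : Fact r.Prime] [NeZero (N * r)]
    (hrN : r ∣ N) (hr2 : ¬ r * r ∣ N) (e : ℕ) {ℓ : ℕ} (hℓ : ℓ.Prime) (hℓr : ¬ ℓ ∣ r) :
    ihtcZ N (r :: L) k ℓ = (ihtIota N r hrN hr2 (dshUnit r hℓ hℓr) ^ k r)⁻¹
      * ihtcDown N r hrN hr2 e (ihtcZ (N * r) L k ℓ) := by
  rw [ihtcZ, ihtcZ, List.map_cons, List.prod_cons, mul_inv, map_inv, map_list_prod, List.map_map,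
    ihtcY_apply, ihtcIota_eq N r hrN hr2, ihtcUnit_eq r hℓ hℓr]
  congr 3
  refine (List.map_congr_left fun s hs => ?_).symm
  exact hyp.down_Y hrN hr2 e hs _

end Tail
/-! ### The induction -/

section Chain

/-- the chain of twists at the primes of `L`, then at `v`, by induction on `L` -/
theorem ihtc_chain (R : Type*) [CommRing R] [IsDomain R] [CharZero R] (A : Type*) [AddCommGroup A]
    [Module R A] [NoZeroSMulDivisors R A] (k : ℕ → ℕ) (v : ℕ) (L : List ℕ) :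
    ∀ (N : ℕ) [NeZero N] (H : Subgroup (ZMod N)ˣ) (hyp : IhtcHyp N H (L ++ [v]) k)
      (N' : ℕ) [NeZero N'] (hN' : N' = N * (L ++ [v]).prod),
      ∃ Tw : ↥(parabolicHoms R (ihfGammaH N H) A) →ₗ[R] ↥(parabolicHoms R (Gamma0 N') A),
        IhtcGood H R A (ihtcZ N (L ++ [v]) k) Tw ∧ IhtcGoodAt H R A v (ihtcY N k v) Tw ∧
          IhtcGoodU H R A (L ++ [v]) (ihtcZ N (L ++ [v]) k) Tw := by
  haveI : NoZeroSMulDivisors ℕ A := ⟨fun {n a} h => by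
    rw [← Nat.cast_smul_eq_nsmul R] at h
    rcases smul_eq_zero.mp h with h | h
    · left; exact_mod_cast h
    · right; exact h⟩
  induction L with
  | nil =>
    intro N _ H hyp N' _ hN'
    have hvmem : v ∈ [] ++ [v] := by simp
    haveI : Fact v.Prime := ⟨hyp.prime v hvmem⟩
    have hvN := hyp.dvd v hvmem
    have hv2 := hyp.not_sq v hvmem
    have hN'' : N' = N * v := by simpa using hN'
    subst hN''
    have hyp₀ : IhtHyp N v H (k v) (Gamma0 (N * v)) :=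
      iht_hyp_Gamma0 hvN hv2 H (k v)
        (fun u => by
          have := hyp.sqrt v hvmem u
          rwa [ihtcIota_eq N v hvN hv2] at this)
        (fun x hx => hyp.supp x fun s hs h => by
          have hsv : s = v := by simpa using hs
          subst hsv
          exact hx)
    have hY : ∀ u : (ZMod v)ˣ, ihtcY N k v u = ihtY hyp₀ u := fun u => by
      rw [ihtcY_apply, ihtcIota_eq N v hvN hv2, ihtY_apply]
    have hz : ∀ {ℓ : ℕ} (hℓ : ℓ.Prime) (hℓv : ¬ ℓ ∣ v),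
        ihtcZ N ([] ++ [v]) k ℓ = (ihtY hyp₀ (dshUnit v hℓ hℓv))⁻¹ := fun {ℓ} hℓ hℓv => by
      rw [ihtcZ, List.nil_append, List.map_singleton, List.prod_singleton, hY,
        ihtcUnit_eq v hℓ hℓv]
    refine ⟨ihtTw hyp₀ R A, ⟨?_, ?_⟩, ⟨?_, ?_⟩, ⟨?_⟩⟩
    · intro ℓ hℓ hℓN' hℓN c
      have hℓv : ¬ ℓ ∣ v := fun h => hℓN (h.trans hvN)
      rw [ihtc_T_base hyp₀ R A hℓ hℓN hℓN' hℓv c, hz hℓ hℓv]
    · intro ψ c hc h0
      exact iht_tw_injective hyp₀ R A ψ c hc h0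
    · intro U' hU' ψ c hc hψ
      obtain ⟨u, hu⟩ := hψ
      exact iht_U_tw hyp₀ R A U' hU' ψ c hc ⟨u, by rwa [← hY]⟩
    · intro U' hU' W' M₁ hM₁ a b hab hW' ψ c hc hψ
      obtain ⟨u, hu⟩ := hψ
      have hM₁' : N = M₁ * v := Nat.eq_of_mul_eq_mul_right (Fact.out : v.Prime).pos hM₁
      exact iht_UW_tw hyp₀ R A U' hU' W' M₁ hM₁' a b hab hW' ψ c hc ⟨u, by rwa [← hY]⟩
    · intro q hq hqN hqRl U' hU' c
      have hqv : ¬ q ∣ v := fun h =>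
        hqRl (by rw [(Nat.prime_dvd_prime_iff_eq hq (Fact.out : v.Prime)).mp h]; exact hvmem)
      rw [iht_Uq_tw hyp₀ R A hq hqN hqv U' hU' c, hz hq hqv]
  | cons r L ih =>
    intro N _ H hyp N' _ hN'
    rw [List.cons_append] at hyp hN'
    have hrmem : r ∈ r :: (L ++ [v]) := List.mem_cons_self
    haveI hr : Fact r.Prime := ⟨hyp.prime r hrmem⟩
    have hrN := hyp.dvd r hrmem
    have hr2 := hyp.not_sq r hrmem
    haveI : NeZero (N * r) := ⟨Nat.mul_ne_zero (NeZero.ne N) hr.out.ne_zero⟩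
    have hN'₂ : N' = N * r * (L ++ [v]).prod := by rw [hN', List.prod_cons, Nat.mul_assoc]
    obtain ⟨Tw₂, hG, hGA, hGU⟩ := ih (N * r) (ihtcH₁ N r hrN hr2 H) (hyp.tail hrN hr2) N' hN'₂
    have hyp₁ : IhtHyp N r H (k r) (ihfGammaH (N * r) (ihtcH₁ N r hrN hr2 H)) :=
      ihtc_hyp₁ N r hrN hr2 H (k r) (hyp.sqrt' hrN hr2)
    have hvL : v ∈ L ++ [v] := by simp
    have hψ' : ∀ (ψ : (ZMod N)ˣ →* R) (u : (ZMod v)ˣ),
        (ψ.comp (ihtcDown N r hyp₁.dvd hyp₁.not_sq (2 * k r))) (ihtcY (N * r) k v u)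
          = ψ (ihtcY N k v u) := fun ψ u => by
      rw [MonoidHom.comp_apply, hyp.down_Y hrN hr2 _ hvL]
    refine ⟨Tw₂ ∘ₗ ihtTw hyp₁ R A, ⟨?_, ?_⟩, ⟨?_, ?_⟩, ⟨?_⟩⟩
    · intro ℓ hℓ hℓN' hℓN c
      have hℓNr : ¬ ℓ ∣ N * r := fun h => hℓN' (h.trans ⟨_, hN'₂⟩)
      have hℓr : ¬ ℓ ∣ r := fun h => hℓN (h.trans hrN)
      rw [List.cons_append, LinearMap.comp_apply, LinearMap.comp_apply,
        ihtc_T_step hyp₁ R A Tw₂ hℓ hℓN hℓNr hℓr (tdmSysT N' ℓ hℓ hℓN')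
          (ihtcZ (N * r) (L ++ [v]) k ℓ) (fun c' => hG.T_tw ℓ hℓ hℓN' hℓNr c') c,
        hyp.Z_cons hrN hr2 (2 * k r) hℓ hℓr, ihtY_apply]
    · intro ψ c hc h0
      rw [LinearMap.comp_apply] at h0
      have h1 : ihtTw hyp₁ R A c = 0 :=
        hG.inj (ψ.comp (ihtcDown N r hyp₁.dvd hyp₁.not_sq (2 * k r))) _
          (ihtc_eigen_tw hyp₁ R A ψ c hc) h0
      exact iht_tw_injective hyp₁ R A ψ c hc h1
    · intro U' hU' ψ c hc hψ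
      obtain ⟨u, hu⟩ := hψ
      rw [LinearMap.comp_apply]
      exact hGA.U_tw U' hU' (ψ.comp (ihtcDown N r hyp₁.dvd hyp₁.not_sq (2 * k r))) _
        (ihtc_eigen_tw hyp₁ R A ψ c hc) ⟨u, by rwa [hψ']⟩
    · intro U' hU' W' M₁ hM₁ a b hab hW' ψ c hc hψ
      obtain ⟨u, hu⟩ := hψ
      rw [LinearMap.comp_apply]
      exact hGA.UW_tw U' hU' W' M₁ hM₁ a b hab hW'
        (ψ.comp (ihtcDown N r hyp₁.dvd hyp₁.not_sq (2 * k r))) _
        (ihtc_eigen_tw hyp₁ R A ψ c hc) ⟨u, by rwa [hψ']⟩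
    · intro q hq hqN hqRl U' hU' c
      rw [List.cons_append] at hqRl
      have hqr : ¬ q ∣ r := fun h =>
        hqRl (by rw [(Nat.prime_dvd_prime_iff_eq hq hr.out).mp h]; exact hrmem)
      have hqL : q ∉ L ++ [v] := fun h => hqRl (List.mem_cons_of_mem _ h)
      have hqNr : q ∣ N * r := ihtc_dvd_mul N hqN
      rw [List.cons_append, LinearMap.comp_apply, LinearMap.comp_apply,
        ihtc_U_step hyp₁ R A Tw₂ hq hqN hqNr hqr U' (ihtcZ (N * r) (L ++ [v]) k q)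
          (fun c' => hGU.U_tw q hq hqNr hqL U' hU' c') c,
        hyp.Z_cons hrN hr2 (2 * k r) hq hqr, ihtY_apply]

end Chain
/-! ### Reordering, the main theorem -/

section Perm

variable {N : ℕ} [NeZero N] {H : Subgroup (ZMod N)ˣ} {k : ℕ → ℕ}

theorem IhtcHyp.perm {Rl Rl' : List ℕ} (hyp : IhtcHyp N H Rl k) (hp : Rl.Perm Rl') :
    IhtcHyp N H Rl' k where
  nodup := hp.nodup_iff.mp hyp.nodup
  prime r hr := hyp.prime r (hp.mem_iff.mpr hr)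
  dvd r hr := hyp.dvd r (hp.mem_iff.mpr hr)
  not_sq r hr := hyp.not_sq r (hp.mem_iff.mpr hr)
  supp x hx := hyp.supp x fun r hr h => hx r (hp.mem_iff.mp hr) h
  sqrt r hr := hyp.sqrt r (hp.mem_iff.mpr hr)

theorem ihtcZ_perm (N : ℕ) [NeZero N] (k : ℕ → ℕ) {Rl Rl' : List ℕ} (hp : Rl.Perm Rl') :
    ihtcZ N Rl k = ihtcZ N Rl' k := by
  funext ℓ
  rw [ihtcZ, ihtcZ, (hp.map _).prod_eq]

end Perm

/-- **[TWIST-ITER]**, full form: for every `v ∈ Rl` there is a composite twist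
`Hom_par(Γ_H(N), A) → Hom_par(Γ₀(N ∏ Rl), A)` with (Tw1a) for the canonical diamond twist
`ihtcZ N Rl k`, (Tw4), (Tw2) and (Tw3) at `v`, and (Tw1c) at the primes `q ∣ N` outside `Rl`. -/
theorem ihtc_exists' {N : ℕ} [NeZero N] {H : Subgroup (ZMod N)ˣ} {Rl : List ℕ} {k : ℕ → ℕ}
    (hyp : IhtcHyp N H Rl k) {v : ℕ} (hv : v ∈ Rl) {N' : ℕ} [NeZero N'] (hN' : N' = N * Rl.prod)
    (R : Type*) [CommRing R] [IsDomain R] [CharZero R] (A : Type*) [AddCommGroup A] [Module R A]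
    [NoZeroSMulDivisors R A] :
    ∃ Tw : ↥(parabolicHoms R (ihfGammaH N H) A) →ₗ[R] ↥(parabolicHoms R (Gamma0 N') A),
      IhtcGood H R A (ihtcZ N Rl k) Tw ∧ IhtcGoodAt H R A v (ihtcY N k v) Tw ∧
        IhtcGoodU H R A Rl (ihtcZ N Rl k) Tw := by
  have hp : Rl.Perm (Rl.erase v ++ [v]) :=
    (List.perm_cons_erase hv).trans (List.perm_append_singleton v _).symm
  have hN'' : N' = N * (Rl.erase v ++ [v]).prod := by rw [hN', hp.prod_eq]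
  obtain ⟨Tw, hG, hGA, hGU⟩ := ihtc_chain R A k v (Rl.erase v) N H (hyp.perm hp) N' hN''
  rw [← ihtcZ_perm N k hp] at hG hGU
  exact ⟨Tw, hG, hGA, ⟨fun q hq hqN hqRl U' hU' c =>
    hGU.U_tw q hq hqN (fun h => hqRl (hp.mem_iff.mpr h)) U' hU' c⟩⟩

/-- **[TWIST-ITER]** for every `v ∈ Rl` there is a composite twist
`Hom_par(Γ_H(N), A) → Hom_par(Γ₀(N ∏ Rl), A)` with (Tw1a) for the canonical diamond twist
`ihtcZ N Rl k`, (Tw4), and (Tw2), (Tw3) at `v`. -/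
theorem ihtc_exists {N : ℕ} [NeZero N] {H : Subgroup (ZMod N)ˣ} {Rl : List ℕ} {k : ℕ → ℕ}
    (hyp : IhtcHyp N H Rl k) {v : ℕ} (hv : v ∈ Rl) {N' : ℕ} [NeZero N'] (hN' : N' = N * Rl.prod)
    (R : Type*) [CommRing R] [IsDomain R] [CharZero R] (A : Type*) [AddCommGroup A] [Module R A]
    [NoZeroSMulDivisors R A] :
    ∃ Tw : ↥(parabolicHoms R (ihfGammaH N H) A) →ₗ[R] ↥(parabolicHoms R (Gamma0 N') A),
      IhtcGood H R A (ihtcZ N Rl k) Tw ∧ IhtcGoodAt H R A v (ihtcY N k v) Tw := by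
  obtain ⟨Tw, hG, hGA, -⟩ := ihtc_exists' hyp hv hN' R A
  exact ⟨Tw, hG, hGA⟩

end Fermat.Agent.Ihara
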