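/-
IHARA track, package [TWIST-ITER] (helper7), file 2: **the Hecke algebra of level `Γ₀(N ∏ Rl)` acts on
the Betti module of `Γ_H(N)` through `T♭_ℓ = T_ℓ ∘ ⟨z(ℓ)⟩`, `z(ℓ) = ∏_{r ∈ Rl} ι_r(ℓ)^{-k r}`**
(`ihtr_exists_hom'` of `Tw/TransferInst.lean` fed with the composite twist `ihtc_exists` of
`Tw/Chain.lean`).
-/
import Mathlib
import Fermat.Agent.Lib.Ihara.Tw.Chain
import Fermat.Agent.Lib.Ihara.Tw.TransferInst

set_option autoImplicit false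
set_option linter.unusedSectionVars false
set_option linter.unusedVariables false
set_option linter.style.haveILetI false

namespace Fermat.Agent.Ihara

open Matrix MatrixGroups CongruenceSubgroup ModularCurve ModularCurve.Period
open Fermat.Agent.DS Fermat.Agent.T1 Fermat.Agent.T1G Fermat.Agent.T2

universe u

/-- `N ∣ N ∏ Rl` -/
theorem ihtc_dvd_level {N N' : ℕ} {Rl : List ℕ} (hN' : N' = N * Rl.prod) : N ∣ N' :=
  ⟨_, hN'⟩

/-- **the twisted Hecke action**: for a non-empty list `Rl` of primes exactly dividing `N` with the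
square-root data `IhtcHyp N H Rl k`, the Hecke algebra of level `Γ₀(N ∏ Rl)` away from `S` acts on
`Hom_par(Γ_H(N), 𝒪)` with `T_ℓ ↦ T_ℓ ∘ ⟨ihtcZ N Rl k ℓ⟩`. -/
theorem ihtc_exists_hom {N : ℕ} [NeZero N] {H : Subgroup (ZMod N)ˣ} {Rl : List ℕ} {k : ℕ → ℕ}
    (hyp : IhtcHyp N H Rl k) (hne : Rl ≠ []) {N' : ℕ} [NeZero N'] (hN' : N' = N * Rl.prod)
    (𝒪 : Type u) [CommRing 𝒪] [IsDomain 𝒪] [CharZero 𝒪]
    (S : Set ℕ) (hS : ∀ l : ℕ, l.Prime → l ∣ N' → l ∈ S) :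
    ∃ a : CuspForm.heckeAlgebra N' 2 S →+* Module.End 𝒪 ↥(parabolicHoms 𝒪 (ihfGammaH N H) 𝒪),
      ∀ (l : ℕ) (hl : l.Prime) (hlN' : ¬ l ∣ N') (hlS : l ∉ S),
        a (CuspForm.heckeAlgebra.T hl hlN' hlS) = ihtrOp H 𝒪 𝒪 (ihtcZ N Rl k) l := by
  obtain ⟨v, hv⟩ := List.exists_mem_of_ne_nil Rl hne
  refine ihtr_exists_hom' H 𝒪 (ihtc_dvd_level hN') S hS (ihtcZ N Rl k) fun K _ _ => ?_
  obtain ⟨Tw, hG, -⟩ := ihtc_exists hyp hv hN' K K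
  exact ⟨Tw, hG.T_tw, hG.inj⟩

/-- **the twisted eigenvector** (the input of [NOFIX] at `v`): a non-zero `ψ`-eigenvector `c` of the
diamond operators of `Γ_H(N)` with `ψ ∘ y_v ≠ 1` gives a non-zero class `c''` of level `Γ₀(N ∏ Rl)`
with `U_v c'' = 0 = U_v W_{v²} c''`, which is a `T_ℓ`-eigenvector with eigenvalue `lam` as soon as `c` is
a `T♭_ℓ`-eigenvector with eigenvalue `lam`. -/
theorem ihtc_exists_eigen {N : ℕ} [NeZero N] {H : Subgroup (ZMod N)ˣ} {Rl : List ℕ} {k : ℕ → ℕ}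
    (hyp : IhtcHyp N H Rl k) {v : ℕ} (hv : v ∈ Rl) {N' : ℕ} [NeZero N'] (hN' : N' = N * Rl.prod)
    (R : Type*) [CommRing R] [IsDomain R] [CharZero R] (A : Type*) [AddCommGroup A] [Module R A]
    [NoZeroSMulDivisors R A] (ψ : (ZMod N)ˣ →* R) (c : ↥(parabolicHoms R (ihfGammaH N H) A))
    (hc0 : c ≠ 0) (hc : ∀ x : (ZMod N)ˣ, (ihfSysD N H x).homPar R A c = ψ x • c)
    (hψ : ∃ u : (ZMod v)ˣ, ψ (ihtcY N k v u) ≠ 1) :
    ∃ c'' : ↥(parabolicHoms R (Gamma0 N') A), c'' ≠ 0 ∧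
      (∀ (l : ℕ) (hl : l.Prime) (hlN' : ¬ l ∣ N') (lam : R),
        ihtrOp H R A (ihtcZ N Rl k) l c = lam • c →
          (tdmSysT N' l hl hlN').homPar R A c'' = lam • c'') ∧
      (∀ (U' : tdmCosetSys (Gamma0 N') (Fin v)) (hU' : U'.rep = tdmRepU v),
        U'.homPar R A c'' = 0) ∧
      (∀ (U' : tdmCosetSys (Gamma0 N') (Fin v)) (hU' : U'.rep = tdmRepU v)
        (W' : tdmCosetSys (Gamma0 N') Unit) (M₁ : ℕ) (hM₁ : N' = M₁ * v * v) (a b : ℤ)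
        (hab : ((v * v : ℕ) : ℤ) * a - (M₁ : ℤ) * b = 1)
        (hW' : W'.rep () = t2wMat M₁ (v * v) a b),
        U'.homPar R A (W'.homPar R A c'') = 0) := by
  obtain ⟨Tw, hG, hGA⟩ := ihtc_exists hyp hv hN' R A
  refine ⟨Tw c, fun h0 => hc0 (hG.inj ψ c hc h0), ?_, ?_, ?_⟩
  · intro l hl hlN' lam hlam
    have hlN : ¬ l ∣ N := fun h => hlN' (h.trans (ihtc_dvd_level hN'))
    rw [hG.T_tw l hl hlN' hlN c]
    rw [ihtrOp_of H R A _ hl hlN, LinearMap.comp_apply] at hlam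
    rw [hlam, map_smul]
  · intro U' hU'
    exact hGA.U_tw U' hU' ψ c hc hψ
  · intro U' hU' W' M₁ hM₁ a b hab hW'
    exact hGA.UW_tw U' hU' W' M₁ hM₁ a b hab hW' ψ c hc hψ

/-- the same with the `U_q`-eigenvalues at the primes `q ∣ N` outside `Rl` -/
theorem ihtc_exists_eigen' {N : ℕ} [NeZero N] {H : Subgroup (ZMod N)ˣ} {Rl : List ℕ} {k : ℕ → ℕ}
    (hyp : IhtcHyp N H Rl k) {v : ℕ} (hv : v ∈ Rl) {N' : ℕ} [NeZero N'] (hN' : N' = N * Rl.prod)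
    (R : Type*) [CommRing R] [IsDomain R] [CharZero R] (A : Type*) [AddCommGroup A] [Module R A]
    [NoZeroSMulDivisors R A] (ψ : (ZMod N)ˣ →* R) (c : ↥(parabolicHoms R (ihfGammaH N H) A))
    (hc0 : c ≠ 0) (hc : ∀ x : (ZMod N)ˣ, (ihfSysD N H x).homPar R A c = ψ x • c)
    (hψ : ∃ u : (ZMod v)ˣ, ψ (ihtcY N k v u) ≠ 1) :
    ∃ c'' : ↥(parabolicHoms R (Gamma0 N') A), c'' ≠ 0 ∧
      (∀ (l : ℕ) (hl : l.Prime) (hlN' : ¬ l ∣ N') (lam : R),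
        ihtrOp H R A (ihtcZ N Rl k) l c = lam • c →
          (tdmSysT N' l hl hlN').homPar R A c'' = lam • c'') ∧
      (∀ (q : ℕ) (hq : q.Prime) (hqN : q ∣ N) (hqRl : q ∉ Rl)
        (U' : tdmCosetSys (Gamma0 N') (Fin q)) (hU' : U'.rep = tdmRepU q) (lam : R),
        (ihfSysU N H hqN hq.ne_zero).homPar R A ((ihfSysD N H (ihtcZ N Rl k q)).homPar R A c)
          = lam • c → U'.homPar R A c'' = lam • c'') ∧
      (∀ (U' : tdmCosetSys (Gamma0 N') (Fin v)) (hU' : U'.rep = tdmRepU v),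
        U'.homPar R A c'' = 0) ∧
      (∀ (U' : tdmCosetSys (Gamma0 N') (Fin v)) (hU' : U'.rep = tdmRepU v)
        (W' : tdmCosetSys (Gamma0 N') Unit) (M₁ : ℕ) (hM₁ : N' = M₁ * v * v) (a b : ℤ)
        (hab : ((v * v : ℕ) : ℤ) * a - (M₁ : ℤ) * b = 1)
        (hW' : W'.rep () = t2wMat M₁ (v * v) a b),
        U'.homPar R A (W'.homPar R A c'') = 0) := by
  obtain ⟨Tw, hG, hGA, hGU⟩ := ihtc_exists' hyp hv hN' R A
  refine ⟨Tw c, fun h0 => hc0 (hG.inj ψ c hc h0), ?_, ?_, ?_, ?_⟩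
  · intro l hl hlN' lam hlam
    have hlN : ¬ l ∣ N := fun h => hlN' (h.trans (ihtc_dvd_level hN'))
    rw [hG.T_tw l hl hlN' hlN c]
    rw [ihtrOp_of H R A _ hl hlN, LinearMap.comp_apply] at hlam
    rw [hlam, map_smul]
  · intro q hq hqN hqRl U' hU' lam hlam
    rw [hGU.U_tw q hq hqN hqRl U' hU' c, hlam, map_smul]
  · intro U' hU'
    exact hGA.U_tw U' hU' ψ c hc hψ
  · intro U' hU' W' M₁ hM₁ a b hab hW'
    exact hGA.UW_tw U' hU' W' M₁ hM₁ a b hab hW' ψ c hc hψ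

end Fermat.Agent.Ihara
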