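/-
IHARA track, package [TWIST] (helper8), part 4: **the one-prime twist and the Atkin–Lehner
operators at the other primes** ((Tw1d)), for the multi-prime chain.

`N = M Q`, `gcd(M, Q) = 1`, `r ∥ N`, `r ∤ Q`; `w = t2wMat M Q a b = [[Q a, 1], [M Q b, Q]]`
(`Q a - M b = 1`) normalises `Γ₀(N)`; the same integer matrix with `b = r b'` is an Atkin–Lehner
matrix `t2wMat (M r) Q a b'` of level `N r`.
* `ihtw_W_mul`: `w δ = E w` for `δ ∈ Γ₀(M Q)`, `d(E) ≡ d(δ) mod M`, `d(E) ≡ a(δ) mod Q`;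
* `ihtwSysW`: the one-element coset system `{w}` on `Γ_H(N)`, if `H` is stable under the involution
  `x ↦ (x mod M, x⁻¹ mod Q)`;
* **(Tw1d)** `iht_W_tw_hom` / `iht_W_tw`: `W'_Q ∘ Tw = Tw ∘ W_Q ∘ ⟨y(Q)⟩⁻¹`.
-/
import Mathlib
import Fermat.Agent.Lib.Ihara.Tw.Comm
import Fermat.Agent.Lib.T2.AL.Basic

set_option autoImplicit false
set_option linter.unusedSectionVars false
set_option linter.unusedVariables false
set_option linter.style.haveILetI false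

namespace Fermat.Agent.Ihara

open Matrix MatrixGroups CongruenceSubgroup ModularCurve ModularCurve.Period
open Fermat.Agent.DS Fermat.Agent.T1 Fermat.Agent.T1G Fermat.Agent.T2

/-! ### Matrix lemmas -/

/-- `w δ = E w` for `δ ∈ Γ₀(M Q)`, with the lower right entry of `E` known modulo `M` and `Q` -/
theorem ihtw_W_mul (M Q : ℕ) (a c : ℤ) (h : (Q : ℤ) * a - M * c = 1)
    (D : Matrix (Fin 2) (Fin 2) ℤ) (hD : D.det = 1) (hN : ((M * Q : ℕ) : ℤ) ∣ D 1 0) :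
    ∃ E : SL(2, ℤ), t2wMat M Q a c * D = (E : Matrix (Fin 2) (Fin 2) ℤ) * t2wMat M Q a c ∧
      ((M * Q : ℕ) : ℤ) ∣ E 1 0 ∧ (M : ℤ) ∣ E 1 1 - D 1 1 ∧ (Q : ℤ) ∣ E 1 1 - D 0 0 := by
  obtain ⟨z, hz⟩ := hN
  rw [Matrix.det_fin_two] at hD
  push_cast at hz
  set x := D 0 0 with hx
  set y := D 0 1 with hy
  set t := D 1 1 with ht
  have hD' : x * t - y * ((M : ℤ) * Q * z) = 1 := by rw [← hz]; exact hD
  refine ⟨⟨!![(Q : ℤ) * a * x + M * Q * z - a * (M * Q) * c * y - M * c * t,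
      -(a * x) - M * z + Q * a ^ 2 * y + a * t;
      (M : ℤ) * Q * (c * x + Q * z - M * c ^ 2 * y - c * t),
      -(M * c * x) - M * Q * z + a * (M * Q) * c * y + Q * a * t], ?_⟩, ?_, ?_, ?_, ?_⟩
  · rw [Matrix.det_fin_two_of]
    linear_combination (1 : ℤ) * hD' + (x * t - y * (M * Q * z)) * ((Q : ℤ) * a - M * c + 1) * h
  · have hDm : D = !![x, y; (M : ℤ) * Q * z, t] := by
      ext i j
      fin_cases i <;> fin_cases j <;> simp [hx, hy, ht, hz]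
    rw [hDm, t2wMat]
    ext i j
    fin_cases i <;> fin_cases j <;> simp [Matrix.mul_apply, Fin.sum_univ_two]
    · linear_combination (-((Q : ℤ) * a * x + M * Q * z)) * h
    · linear_combination (-((Q : ℤ) * a * y + t)) * h
    · linear_combination (-((M : ℤ) * Q * c * x + Q * (M * Q * z))) * h
    · linear_combination (-((M : ℤ) * Q * c * y + Q * t)) * h
  · push_cast
    exact ⟨_, rfl⟩
  · refine ⟨-(c * x) - Q * z + a * Q * c * y + c * t, ?_⟩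
    show -(M * c * x) - M * Q * z + a * (M * Q) * c * y + Q * a * t - t = _
    linear_combination t * h
  · refine ⟨-(a * x) - M * z + a * M * c * y + a * t, ?_⟩
    show -(M * c * x) - M * Q * z + a * (M * Q) * c * y + Q * a * t - x = _
    linear_combination x * h

/-- two Atkin–Lehner matrices of the same level differ by an element of `Γ₁` -/
theorem ihtw_W_change (M Q r : ℕ) (a b a' b' : ℤ) (h : (Q : ℤ) * a - M * b = 1)
    (h' : (Q : ℤ) * a' - ((M * r : ℕ) : ℤ) * b' = 1) :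
    ∃ g : SL(2, ℤ), t2wMat (M * r) Q a' b' = (g : Matrix (Fin 2) (Fin 2) ℤ) * t2wMat M Q a b ∧
      ((M * Q : ℕ) : ℤ) ∣ g 1 0 ∧ ((M * Q : ℕ) : ℤ) ∣ g 1 1 - 1 := by
  push_cast at h'
  have hdet : (!![(Q : ℤ) * a' - M * b, a - a'; (M : ℤ) * Q * (r * b' - b), Q * a - M * r * b'] :
      Matrix (Fin 2) (Fin 2) ℤ).det = 1 := by
    rw [Matrix.det_fin_two_of]
    linear_combination ((Q : ℤ) * a' - M * r * b') * h + h'
  refine ⟨⟨_, hdet⟩, ?_, ?_, ?_⟩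
  · rw [t2wMat, t2wMat]
    ext i j
    fin_cases i <;> fin_cases j <;> simp [Matrix.mul_apply, Fin.sum_univ_two]
    · linear_combination (-((Q : ℤ) * a')) * h
    · linear_combination (-(1 : ℤ)) * h
    · linear_combination (-((M : ℤ) * Q * r * b')) * h
    · linear_combination (-(Q : ℤ)) * h
  · push_cast
    exact ⟨r * b' - b, rfl⟩
  · have hcop : IsCoprime (M : ℤ) (Q : ℤ) := ⟨-b, a, by linear_combination h⟩
    push_cast
    refine hcop.mul_dvd ⟨b - r * b', ?_⟩ ⟨a - a', ?_⟩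
    · show (Q : ℤ) * a - M * r * b' - 1 = _
      linear_combination h
    · show (Q : ℤ) * a - M * r * b' - 1 = _
      linear_combination h'

/-- `[[r, u], [0, r]] w = E w [[r, u₂], [0, r]]` with `E ∈ Γ₁(M Q)` -/
theorem ihtw_alpha_W (M Q r : ℕ) (a b u u₂ t : ℤ) (h1 : (Q : ℤ) * a - ((M * r : ℕ) : ℤ) * b = 1)
    (h2 : (r : ℤ) * t = -u + u * u₂ * a * b * M * Q + u₂ * Q * a ^ 2) :
    ∃ E : SL(2, ℤ), !![(r : ℤ), u; 0, (r : ℤ)] * t2wMat (M * r) Q a b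
        = (E : Matrix (Fin 2) (Fin 2) ℤ) * (t2wMat (M * r) Q a b * !![(r : ℤ), u₂; 0, (r : ℤ)]) ∧
      ((M * Q : ℕ) : ℤ) ∣ E 1 0 ∧ ((M * Q : ℕ) : ℤ) ∣ E 1 1 - 1 := by
  push_cast at h1
  have hdet : (!![1 + u₂ * a * b * M * Q + u * u₂ * M ^ 2 * Q * b ^ 2, -t;
      u₂ * M ^ 2 * Q * r * b ^ 2, 1 - u₂ * a * b * M * Q] : Matrix (Fin 2) (Fin 2) ℤ).det = 1 := by
    rw [Matrix.det_fin_two_of]
    linear_combination (u₂ * M ^ 2 * Q * b ^ 2) * h2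
  refine ⟨⟨_, hdet⟩, ?_, ?_, ?_⟩
  · rw [t2wMat]
    ext i j
    fin_cases i <;> fin_cases j <;> simp [Matrix.mul_apply, Fin.sum_univ_two]
    · linear_combination ((M : ℤ) * r * Q * b) * h2
    · linear_combination ((M : ℤ) * Q * b * u₂ + Q) * h2 + (u₂ * Q * (a + u * b * M)) * h1
    · ring
    · linear_combination (u₂ * b * M * Q * r) * h1
  · push_cast
    exact ⟨u₂ * M * r * b ^ 2, by show u₂ * M ^ 2 * Q * r * b ^ 2 = _; ring⟩
  · push_cast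
    exact ⟨-(u₂ * a * b), by show 1 - u₂ * a * b * M * Q - 1 = _; ring⟩

theorem ihtw_mem_Gamma1 {N : ℕ} (g : SL(2, ℤ)) (h0 : (N : ℤ) ∣ g 1 0) (h1 : (N : ℤ) ∣ g 1 1 - 1) :
    g ∈ Gamma1 N := by
  rw [dsh_mem_Gamma1_iff]
  refine ⟨(tdm_mem_Gamma0_iff g).mpr h0, ?_⟩
  have : ((g 1 1 : ℤ) : ZMod N) = ((1 : ℤ) : ZMod N) :=
    (ZMod.intCast_eq_intCast_iff_dvd_sub _ _ _).mpr ((dvd_sub_comm).mp h1)
  rw [dshD, this, Int.cast_one]

/-- `w g = E w` with `d(E) ≡ d(g) mod M Q` for `g ∈ Γ₀(M Q)` with `d(g) ≡ 1 mod Q` -/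
theorem ihtw_W_conj (M Q : ℕ) (a c : ℤ) (h : (Q : ℤ) * a - M * c = 1) (g : SL(2, ℤ))
    (hg : g ∈ Gamma0 (M * Q)) (hgQ : (Q : ℤ) ∣ g 1 1 - 1) :
    ∃ E : SL(2, ℤ), E ∈ Gamma0 (M * Q) ∧ dshD (M * Q) E = dshD (M * Q) g ∧
      t2wMat M Q a c * (g : Matrix (Fin 2) (Fin 2) ℤ)
        = (E : Matrix (Fin 2) (Fin 2) ℤ) * t2wMat M Q a c := by
  have hg10 : ((M * Q : ℕ) : ℤ) ∣ g 1 0 := (tdm_mem_Gamma0_iff g).mp hg
  obtain ⟨E, hE, h10, hM, hQ⟩ := ihtw_W_mul M Q a c h (g : Matrix (Fin 2) (Fin 2) ℤ) g.2 hg10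
  refine ⟨E, (tdm_mem_Gamma0_iff E).mpr h10, ?_, hE⟩
  have hcop : IsCoprime (M : ℤ) (Q : ℤ) := ⟨-c, a, by linear_combination h⟩
  have hdet := dsh_det_eq g
  have hQ10 : (Q : ℤ) ∣ g 1 0 := (Dvd.intro_left (M : ℤ) (by push_cast; rfl)).trans hg10
  have hQ00 : (Q : ℤ) ∣ g 0 0 - 1 := by
    have e : g 0 0 - 1 = -(g 0 0) * (g 1 1 - 1) + g 0 1 * g 1 0 := by linear_combination hdet
    rw [e]
    exact dvd_add (Dvd.dvd.mul_left hgQ _) (Dvd.dvd.mul_left hQ10 _)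
  have hQ' : (Q : ℤ) ∣ E 1 1 - g 1 1 := by
    have e : E 1 1 - g 1 1 = (E 1 1 - g 0 0) + (g 0 0 - 1) - (g 1 1 - 1) := by ring
    rw [e]
    exact dvd_sub (dvd_add hQ hQ00) hgQ
  have hMQ : ((M * Q : ℕ) : ℤ) ∣ E 1 1 - g 1 1 := by
    push_cast
    exact hcop.mul_dvd hM hQ'
  rw [dshD, dshD, eq_comm, ZMod.intCast_eq_intCast_iff_dvd_sub]
  exact hMQ

section WTw

variable {N r : ℕ} [NeZero N] [hr : Fact r.Prime] {H : Subgroup (ZMod N)ˣ} {k : ℕ}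
  {Γ' : Subgroup SL(2, ℤ)} (hyp : IhtHyp N r H k Γ') (A : Type*) [AddCommGroup A]

/-- `y(u) ≡ 1` modulo every divisor of `N / r` -/
theorem ihtY_unitsMap {Q : ℕ} (hQ : Q ∣ N / r) (hQN : Q ∣ N) (u : (ZMod r)ˣ) :
    ZMod.unitsMap hQN (ihtY hyp u) = 1 := by
  have h1 := ihtIota_mod_div N r hyp.dvd hyp.not_sq u
  have h2 := ZMod.unitsMap_comp hQ (Nat.div_dvd_of_dvd hyp.dvd)
  rw [ihtY_apply, map_pow]
  have h3 : ZMod.unitsMap hQN (ihtIota N r hyp.dvd hyp.not_sq u) = 1 := by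
    have := congrArg (fun f => f (ihtIota N r hyp.dvd hyp.not_sq u)) h2
    simp only [MonoidHom.comp_apply] at this
    rw [h1, map_one] at this
    exact this.symm
  rw [h3, one_pow]

/-- the lower right entry of `γ_{y(u)}` is `≡ 1` modulo every divisor of `N / r` -/
theorem ihtG_entry {Q : ℕ} (hQ : Q ∣ N / r) (u : (ZMod r)ˣ) :
    (Q : ℤ) ∣ (ihtG hyp u) 1 1 - 1 := by
  have hQN : Q ∣ N := hQ.trans (Nat.div_dvd_of_dvd hyp.dvd)
  have h1 := ihtG_dshD hyp u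
  have h2 := congrArg (fun x : ZMod N => (x.cast : ZMod Q)) h1
  simp only [dshD] at h2
  rw [ZMod.cast_intCast hQN, ← ZMod.unitsMap_val hQN, ihtY_unitsMap hyp hQ hQN u, Units.val_one] at h2
  rw [← ZMod.intCast_zmod_eq_zero_iff_dvd]
  push_cast
  rw [h2, sub_self]

/-- **(Tw1d)** on `Hom`: `W'_Q ∘ Tw = Tw ∘ W_Q ∘ ⟨y(Q)⟩⁻¹` for `Q ∥ N` prime to `r` -/
theorem iht_W_tw_hom [NoZeroSMulDivisors ℕ A] {Q : ℕ} (M₁ M₁' : ℕ) (hM₁ : N = M₁ * Q)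
    (hM₁' : N * r = M₁' * Q) (Qb : (ZMod r)ˣ) (hQb : (Qb : ZMod r) = (Q : ZMod r))
    (a b : ℤ) (hab : (Q : ℤ) * a - (M₁ : ℤ) * b = 1)
    (a' b' : ℤ) (hab' : (Q : ℤ) * a' - (M₁' : ℤ) * b' = 1)
    (W : tdmCosetSys (ihfGammaH N H) Unit) (hW : W.rep () = t2wMat M₁ Q a b)
    (W' : tdmCosetSys Γ' Unit) (hW' : W'.rep () = t2wMat M₁' Q a' b')
    (c : Additive (ihfGammaH N H) →+ A) :
    W'.hom A ((ihtSys hyp).cor A c)
      = (ihtSys hyp).cor A (W.hom A ((ihfSysD N H (ihtY hyp Qb)⁻¹).hom A c)) := by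
  haveI : NeZero r := ⟨hr.out.ne_zero⟩
  haveI : Fact (1 < r) := ⟨hr.out.one_lt⟩
  have hN0 : N ≠ 0 := NeZero.ne N
  have hQ0 : Q ≠ 0 := by
    rintro rfl
    exact hN0 (by rw [hM₁, Nat.mul_zero])
  have hM' : M₁' = M₁ * r := by
    have : M₁' * Q = (M₁ * r) * Q := by rw [← hM₁', hM₁]; ring
    exact Nat.eq_of_mul_eq_mul_right (Nat.pos_of_ne_zero hQ0) this
  subst hM'
  -- `r ∤ Q`, `Q ∣ N / r`
  have hrQ : ¬ r ∣ Q := by
    intro h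
    have h0 : ((Q : ℕ) : ZMod r) = 0 := (ZMod.natCast_eq_zero_iff Q r).mpr h
    rw [← hQb] at h0
    exact Qb.ne_zero h0
  have hcop : Nat.Coprime r Q := (Nat.Prime.coprime_iff_not_dvd hr.out).mpr hrQ
  have hQdiv : Q ∣ N / r := by
    have h1 : r ∣ M₁ * Q := hM₁ ▸ hyp.dvd
    obtain ⟨m, hm⟩ := hcop.dvd_of_dvd_mul_right h1
    refine ⟨m, ?_⟩
    rw [hM₁, hm, Nat.mul_assoc, Nat.mul_div_cancel_left _ hr.out.pos, Nat.mul_comm]
  set z : (ZMod N)ˣ := (ihtY hyp Qb)⁻¹ with hz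
  set D := ihfSysD N H z with hD
  have h1 : IhtLoc (A := A) (fun c => W'.hom A ((ihtSys hyp).cor A c))
      (fun p : (ZMod r)ˣ × Unit => ihtRep hyp p.1 * W'.rep p.2) :=
    IhtLoc.comp (ihtSys_loc hyp A) (IhtLoc.of_sys W' iht_Nr_ne_zero hyp.cong)
  have h2 : IhtLoc (A := A) (fun c => (ihtSys hyp).cor A (W.hom A (D.hom A c)))
      (fun p : (Unit × Unit) × (ZMod r)ˣ => (D.rep p.1.1 * W.rep p.1.2) * ihtRep hyp p.2) :=
    IhtLoc.comp (IhtLoc.comp (IhtLoc.of_sys D (NeZero.ne N) iht_Gamma_le_GammaH)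
      (IhtLoc.of_sys W (NeZero.ne N) iht_Gamma_le_GammaH)) (ihtSys_loc hyp A)
  refine IhtLoc.ext_of_injective (fun p => ?_) h1 h2
    (fun p => (((), ()), Qb * p.1)) ?_ ?_ (fun p => ?_) c
  · rw [Matrix.det_mul]
    exact mul_ne_zero (ihtRep_det_ne_zero hyp p.1) (W'.det_ne_zero _)
  · rintro ⟨u, ⟨⟩⟩ ⟨u', ⟨⟩⟩ h
    simp only [Prod.mk.injEq, true_and] at h
    rw [mul_left_cancel h]
  · simp only [Fintype.card_prod, Fintype.card_unit, mul_one, one_mul]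
  · obtain ⟨u, ⟨⟩⟩ := p
    set u₂ : (ZMod r)ˣ := Qb * u with hu₂
    set uv : ℤ := (((u : ZMod r).val : ℕ) : ℤ) with huv
    set u₂v : ℤ := (((u₂ : ZMod r).val : ℕ) : ℤ) with hu₂v
    -- the translation part
    have hdvd : (r : ℤ) ∣ -uv + uv * u₂v * a' * b' * M₁ * Q + u₂v * Q * a' ^ 2 := by
      rw [← ZMod.intCast_zmod_eq_zero_iff_dvd]
      have e1 : ((uv : ℤ) : ZMod r) = (u : ZMod r) := by
        rw [huv, Int.cast_natCast, ZMod.natCast_zmod_val]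
      have e2 : ((u₂v : ℤ) : ZMod r) = (Q : ZMod r) * (u : ZMod r) := by
        rw [hu₂v, Int.cast_natCast, ZMod.natCast_zmod_val, hu₂, Units.val_mul, hQb]
      have e3 : (M₁ : ZMod r) * (Q : ZMod r) = 0 := by
        have : ((N : ℕ) : ZMod r) = 0 := (ZMod.natCast_eq_zero_iff N r).mpr hyp.dvd
        rw [hM₁] at this
        push_cast at this
        exact this
      have e4 : (Q : ZMod r) * (a' : ZMod r) = 1 := by
        have := congrArg (Int.cast : ℤ → ZMod r) hab'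
        push_cast at this
        rw [ZMod.natCast_self, mul_zero, zero_mul, sub_zero] at this
        exact this
      push_cast
      rw [e1, e2]
      have e5 : (u : ZMod r) * ((Q : ZMod r) * (u : ZMod r)) * (a' : ZMod r) * (b' : ZMod r)
          * (M₁ : ZMod r) * (Q : ZMod r) = 0 := by
        rw [mul_assoc _ (M₁ : ZMod r), e3, mul_zero]
      rw [e5]
      linear_combination ((u : ZMod r) * ((Q : ZMod r) * (a' : ZMod r) + 1)) * e4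
    obtain ⟨t, ht⟩ := hdvd
    obtain ⟨E₁, hE₁, hE₁0, hE₁1⟩ := ihtw_alpha_W M₁ Q r a' b' uv u₂v t hab' ht.symm
    -- change of the Atkin–Lehner matrix
    obtain ⟨g₁, hg₁, hg₁0, hg₁1⟩ := ihtw_W_change M₁ Q r a b a' b' hab hab'
    -- `w` and `γ_{y(u₂)}`
    have hG₂ : ihtG hyp u₂ ∈ Gamma0 (M₁ * Q) := hM₁ ▸ ihtG_mem hyp u₂
    obtain ⟨E₂, hE₂m, hE₂d, hE₂⟩ := ihtw_W_conj M₁ Q a b hab (ihtG hyp u₂) hG₂
      (ihtG_entry hyp hQdiv u₂)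
    have hE₂m' : E₂ ∈ Gamma0 N := by rw [hM₁]; exact hE₂m
    have hE₂d' : dshD N E₂ = ((ihtY hyp u₂ : (ZMod N)ˣ) : ZMod N) := by
      rw [← ihtG_dshD hyp u₂]
      have : ∀ n : ℕ, n = M₁ * Q → dshD (M₁ * Q) E₂ = dshD (M₁ * Q) (ihtG hyp u₂) →
          dshD n E₂ = dshD n (ihtG hyp u₂) := by
        rintro n rfl h
        exact h
      exact this N hM₁ hE₂d
    have hE₁G : E₁ ∈ Gamma1 N := by
      rw [hM₁]; exact ihtw_mem_Gamma1 E₁ hE₁0 hE₁1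
    have hg₁G : g₁ ∈ Gamma1 N := by
      rw [hM₁]; exact ihtw_mem_Gamma1 g₁ hg₁0 hg₁1
    obtain ⟨hE₁0', hE₁d⟩ := dsh_mem_Gamma1_iff.mp hE₁G
    obtain ⟨hg₁0', hg₁d⟩ := dsh_mem_Gamma1_iff.mp hg₁G
    set X : SL(2, ℤ) := ihtG hyp u * E₁ * g₁ with hX
    set Y : SL(2, ℤ) := dshGammaU N z * E₂ with hY
    have hXm : X ∈ Gamma0 N := mul_mem (mul_mem (ihtG_mem hyp u) hE₁0') hg₁0'
    have hYm : Y ∈ Gamma0 N := mul_mem (dshGammaU_mem N z) hE₂m'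
    have hXY : dshD N X = dshD N Y := by
      rw [hX, hY, dshD_mul (mul_mem (ihtG_mem hyp u) hE₁0'), dshD_mul (ihtG_mem hyp u), hE₁d, hg₁d,
        mul_one, mul_one, ihtG_dshD, dshD_mul (dshGammaU_mem N z), dshD_dshGammaU, hE₂d',
        ← Units.val_mul, hz, hu₂, map_mul, inv_mul_cancel_left]
    refine ⟨⟨X * Y⁻¹, iht_mul_inv_mem_GammaH hXm hYm hXY⟩, 1, 1, one_ne_zero, ?_⟩
    rw [one_smul, one_smul]
    simp only []
    have hDrep : D.rep () = (dshGammaU N z : Matrix (Fin 2) (Fin 2) ℤ) := rfl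
    rw [hW', hW, hDrep, ihtRep_eq, ihtRep_eq]
    have hE₁' : ihtAlpha r (u : ZMod r) * t2wMat (M₁ * r) Q a' b'
        = (E₁ : Matrix (Fin 2) (Fin 2) ℤ)
          * (t2wMat (M₁ * r) Q a' b' * ihtAlpha r (u₂ : ZMod r)) := hE₁
    have hE₂' : t2wMat M₁ Q a b * (ihtG hyp u₂ : Matrix (Fin 2) (Fin 2) ℤ)
        = (E₂ : Matrix (Fin 2) (Fin 2) ℤ) * t2wMat M₁ Q a b := hE₂
    rw [hX, hY]
    simp only [Matrix.SpecialLinearGroup.coe_mul, _root_.mul_inv_rev, Matrix.mul_assoc]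
    rw [iht_SL_inv_mul_cancel, ← Matrix.mul_assoc (t2wMat M₁ Q a b), hE₂', Matrix.mul_assoc,
      iht_SL_inv_mul_cancel, ← Matrix.mul_assoc (g₁ : Matrix (Fin 2) (Fin 2) ℤ), ← hg₁, ← hE₁']

/-- **(Tw1d)** `W'_Q ∘ Tw = Tw ∘ W_Q ∘ ⟨y(Q)⟩⁻¹` for `Q ∥ N` prime to `r`: `W`, `W'` are any one-element
systems on `Γ_H(N)`, `Γ'` with representatives Atkin–Lehner matrices `t2wMat M₁ Q a b`
(`N = M₁ Q`), `t2wMat M₁' Q a' b'` (`N r = M₁' Q`). -/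
theorem iht_W_tw (R : Type*) [CommRing R] [Module R A] [NoZeroSMulDivisors ℕ A] {Q : ℕ}
    (M₁ M₁' : ℕ) (hM₁ : N = M₁ * Q) (hM₁' : N * r = M₁' * Q) (Qb : (ZMod r)ˣ)
    (hQb : (Qb : ZMod r) = (Q : ZMod r))
    (a b : ℤ) (hab : (Q : ℤ) * a - (M₁ : ℤ) * b = 1)
    (a' b' : ℤ) (hab' : (Q : ℤ) * a' - (M₁' : ℤ) * b' = 1)
    (W : tdmCosetSys (ihfGammaH N H) Unit) (hW : W.rep () = t2wMat M₁ Q a b)
    (W' : tdmCosetSys Γ' Unit) (hW' : W'.rep () = t2wMat M₁' Q a' b')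
    (c : ↥(parabolicHoms R (ihfGammaH N H) A)) :
    W'.homPar R A (ihtTw hyp R A c)
      = ihtTw hyp R A (W.homPar R A ((ihfSysD N H (ihtY hyp Qb)⁻¹).homPar R A c)) :=
  Subtype.ext (iht_W_tw_hom hyp A M₁ M₁' hM₁ hM₁' Qb hQb a b hab a' b' hab' W hW W' hW'
    (c : Additive (ihfGammaH N H) →+ A))

end WTw

/-! ### The Atkin–Lehner system on `Γ_H(N)` -/

section SysW

variable (N M Q : ℕ) [NeZero N] (hN : N = M * Q) (a c : ℤ) (h : (Q : ℤ) * a - M * c = 1)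
  (H : Subgroup (ZMod N)ˣ)

/-- `H` is stable under the Atkin–Lehner involution `x ↦ (x mod M, x⁻¹ mod Q)` of `(ℤ/N)ˣ`,
`N = M Q` -/
def IhtwStable : Prop :=
  ∀ x ∈ H, ∀ x' : (ZMod N)ˣ,
    ZMod.unitsMap (Dvd.intro Q hN.symm) x' = ZMod.unitsMap (Dvd.intro Q hN.symm) x →
    ZMod.unitsMap (Dvd.intro_left M hN.symm) x' = (ZMod.unitsMap (Dvd.intro_left M hN.symm) x)⁻¹ →
    x' ∈ H

variable {N M Q} {H}

include h in
/-- `w` normalises `Γ_H(N)` if `H` is stable under the Atkin–Lehner involution -/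
theorem ihtw_W_ex (hst : IhtwStable N M Q hN H) (δ : ihfGammaH N H) :
    ∃ ε : ihfGammaH N H, t2wMat M Q a c * ((δ : SL(2, ℤ)) : Matrix (Fin 2) (Fin 2) ℤ)
      = ((ε : SL(2, ℤ)) : Matrix (Fin 2) (Fin 2) ℤ) * t2wMat M Q a c := by
  obtain ⟨hδ0, x, hxH, hx⟩ := δ.2
  set g : SL(2, ℤ) := (δ : SL(2, ℤ)) with hg
  have hg10 : ((M * Q : ℕ) : ℤ) ∣ g 1 0 := by
    rw [← hN]; exact (tdm_mem_Gamma0_iff g).mp hδ0
  obtain ⟨E, hE, h10, hM, hQ⟩ := ihtw_W_mul M Q a c h (g : Matrix (Fin 2) (Fin 2) ℤ) g.2 hg10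
  have hE0 : E ∈ Gamma0 N := by
    rw [tdm_mem_Gamma0_iff, hN]; exact h10
  have hMN : M ∣ N := Dvd.intro Q hN.symm
  have hQN : Q ∣ N := Dvd.intro_left M hN.symm
  set x' : (ZMod N)ˣ := ihfUnitHom N ⟨E, hE0⟩ with hx'
  have hx'c : ((x' : (ZMod N)ˣ) : ZMod N) = ((E 1 1 : ℤ) : ZMod N) := ihfUnitHom_coe ⟨E, hE0⟩
  have hxc : ((x : (ZMod N)ˣ) : ZMod N) = ((g 1 1 : ℤ) : ZMod N) := hx.symm
  have hdet := dsh_det_eq g
  have hQ10 : (Q : ℤ) ∣ g 1 0 := (Dvd.intro_left (M : ℤ) (by push_cast; rfl)).trans hg10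
  have hmem : x' ∈ H := by
    refine hst x hxH x' (Units.ext ?_) ?_
    · rw [ZMod.unitsMap_val, ZMod.unitsMap_val, hx'c, hxc, ZMod.cast_intCast hMN,
        ZMod.cast_intCast hMN, eq_comm, ZMod.intCast_eq_intCast_iff_dvd_sub]
      exact hM
    · refine eq_inv_of_mul_eq_one_left (Units.ext ?_)
      have key : ((E 1 1 * g 1 1 : ℤ) : ZMod Q) = ((1 : ℤ) : ZMod Q) := by
        refine (ZMod.intCast_eq_intCast_iff_dvd_sub _ _ _).mpr ((dvd_sub_comm).mp ?_)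
        have e : E 1 1 * g 1 1 - 1 = (E 1 1 - g 0 0) * g 1 1 + g 0 1 * g 1 0 := by
          linear_combination hdet
        rw [e]
        exact dvd_add (Dvd.dvd.mul_right hQ _) (Dvd.dvd.mul_left hQ10 _)
      rw [Units.val_mul, ZMod.unitsMap_val, ZMod.unitsMap_val, hx'c, hxc, ZMod.cast_intCast hQN,
        ZMod.cast_intCast hQN, Units.val_one, ← Int.cast_mul, key, Int.cast_one]
  exact ⟨⟨E, hE0, x', hmem, hx'c.symm⟩, hE⟩

/-- **the Atkin–Lehner system `{w_Q}` on `Γ_H(N)`**, `N = M Q`, for `H` stable under the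
Atkin–Lehner involution -/
noncomputable def ihtwSysW (hQ0 : 0 < Q) (hst : IhtwStable N M Q hN H) :
    tdmCosetSys (ihfGammaH N H) Unit :=
  tdmCosetSys.ofInequiv (fun _ => t2wMat M Q a c)
    (fun _ => t2wMat_det_pos M Q hQ0 a c h)
    (fun _ _ _ _ => rfl)
    (fun δ _ => ⟨(), ihtw_W_ex hN a c h hst δ⟩)

@[simp] theorem ihtwSysW_rep (hQ0 : 0 < Q) (hst : IhtwStable N M Q hN H) (u : Unit) :
    (ihtwSysW hN a c h hQ0 hst).rep u = t2wMat M Q a c := rfl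

/-- `⊤` is stable -/
theorem ihtwStable_top : IhtwStable N M Q hN (⊤ : Subgroup (ZMod N)ˣ) :=
  fun _ _ _ _ _ => Subgroup.mem_top _

end SysW

end Fermat.Agent.Ihara
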