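/-
IHARA track, package [TWIST] (helper5), (Tw3), abstract form: **`W_{r²} ∘ Tw = Tw ∘ conj g₀`**.

Setting as in `UTw.lean`: a two-group coset system `Tw : Γ → Γ'` with representatives
`g i * [[r, u i], [0, r]]`.  Assume a bijection `star` of the index set with
`u i * u (star i) ≡ -1 mod r`, an element `g₀` normalising `Γ`, and
`g i * γ * (g (star i))⁻¹ * g₀⁻¹ ∈ Γ` for all `γ ∈ Γ₀(M₁ r)` with lower right entry `≡ u (star i) mod r`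
and `≡ r mod M₁`.  Then for a one-element coset system `W'` on `Γ'` with the Atkin–Lehner matrix
`W = [[r² a, 1], [M₁ r² b, r²]]` (`r² a - M₁ b = 1`) as representative:

  `W' (Tw.cor φ) = Tw.cor (φ ∘ conj g₀)`.

The reason is the matrix identity `[[r, u], [0, r]] * W = r • (γ * [[r, u*], [0, r]])` with
`γ = [[r a + u M₁ b, *], [r M₁ b, r - M₁ b u*]] ∈ Γ₀(M₁ r)`.
-/
import Mathlib
import Fermat.Agent.Lib.T2.AL.Basic
import Fermat.Agent.Lib.Ihara.Tw.SysGen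

set_option autoImplicit false
set_option linter.unusedSectionVars false
set_option linter.unusedVariables false

namespace Fermat.Agent.Ihara

open Matrix MatrixGroups CongruenceSubgroup ModularCurve ModularCurve.Period
open Fermat.Agent.T1 Fermat.Agent.T2

/-! ### Matrix identities -/

theorem ihtw_mat_congr {x y z w x' y' z' w' : ℤ} (h1 : x = x') (h2 : y = y') (h3 : z = z')
    (h4 : w = w') : (!![x, y; z, w] : Matrix (Fin 2) (Fin 2) ℤ) = !![x', y'; z', w'] := by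
  subst h1 h2 h3 h4; rfl

theorem ihtw_smul_fin_two (r a b c d : ℤ) :
    r • (!![a, b; c, d] : Matrix (Fin 2) (Fin 2) ℤ) = !![r * a, r * b; r * c, r * d] := by
  simp [Matrix.smul_of, Matrix.smul_cons]

/-- `[[r, u], [0, r]] * W = r • (γ * [[r, u*], [0, r]])` -/
theorem ihtw_mat (N' r a c u us t : ℤ)
    (ht : (r * a + u * N' * c) * us = 1 + r * t) :
    (!![r, u; 0, r] : Matrix (Fin 2) (Fin 2) ℤ) * !![(r * r) * a, 1; N' * (r * r) * c, r * r]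
      = r • ((!![r * a + u * N' * c, u - t; r * N' * c, r - N' * c * us] :
          Matrix (Fin 2) (Fin 2) ℤ) * !![r, us; 0, r]) := by
  rw [Matrix.mul_fin_two, Matrix.mul_fin_two, ihtw_smul_fin_two]
  refine ihtw_mat_congr ?_ ?_ ?_ ?_
  · ring
  · linear_combination (-r) * ht
  · ring
  · ring

theorem ihtw_det (N' r a c u us t : ℤ) (hbez : (r * r) * a - N' * c = 1)
    (ht : (r * a + u * N' * c) * us = 1 + r * t) :
    (!![r * a + u * N' * c, u - t; r * N' * c, r - N' * c * us] :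
      Matrix (Fin 2) (Fin 2) ℤ).det = 1 := by
  rw [Matrix.det_fin_two_of]
  linear_combination hbez - (N' * c) * ht

/-- existence of `t` -/
theorem ihtw_exists_t (N' r a c u us : ℤ) (hbez : (r * r) * a - N' * c = 1)
    (hu : r ∣ u * us + 1) : ∃ t : ℤ, (r * a + u * N' * c) * us = 1 + r * t := by
  obtain ⟨w, hw⟩ := hu
  refine ⟨a * us + r * a * u * us - w, ?_⟩
  linear_combination (-(u * us)) * hbez - hw

section UWTw

variable (M₁ r : ℕ) [hr : Fact r.Prime] (a b : ℤ)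
  (hab : ((r * r : ℕ) : ℤ) * a - (M₁ : ℤ) * b = 1)
variable {Γ Γ' : Subgroup SL(2, ℤ)} {ι : Type} [Fintype ι]
  (Tw : T2fSys₂ Γ Γ' ι)
  (g : ι → SL(2, ℤ)) (uu : ι → ℤ)
  (hTw : ∀ i, Tw.rep i
    = (g i : Matrix (Fin 2) (Fin 2) ℤ) * !![(r : ℤ), uu i; 0, (r : ℤ)])
  (star : ι → ι) (hstar : Function.Bijective star)
  (huu : ∀ i, (r : ℤ) ∣ uu i * uu (star i) + 1)
  (W' : tdmCosetSys Γ' Unit) (hW' : W'.rep () = t2wMat M₁ (r * r) a b)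
  (g₀ : SL(2, ℤ)) (hg₀ : ∀ γ ∈ Γ, g₀ * γ * g₀⁻¹ ∈ Γ) (hg₀' : ∀ γ ∈ Γ, g₀⁻¹ * γ * g₀ ∈ Γ)
  (hW : ∀ (i : ι) (γ : SL(2, ℤ)), γ ∈ Gamma0 (M₁ * r) → (r : ℤ) ∣ γ 1 1 - uu (star i) →
    (M₁ : ℤ) ∣ γ 1 1 - r → g i * γ * (g (star i))⁻¹ * g₀⁻¹ ∈ Γ)

include hab huu in
/-- the matrices `γ_i` -/
theorem ihtw_exists_gamma (i : ι) :
    ∃ γ : SL(2, ℤ), γ ∈ Gamma0 (M₁ * r) ∧ (r : ℤ) ∣ γ 1 1 - uu (star i) ∧
      (M₁ : ℤ) ∣ γ 1 1 - r ∧
      (!![(r : ℤ), uu i; 0, (r : ℤ)] : Matrix (Fin 2) (Fin 2) ℤ) * t2wMat M₁ (r * r) a b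
        = (r : ℤ) • ((γ : Matrix (Fin 2) (Fin 2) ℤ) * !![(r : ℤ), uu (star i); 0, (r : ℤ)]) := by
  have hbez := hab
  push_cast at hbez
  obtain ⟨t, ht⟩ := ihtw_exists_t (M₁ : ℤ) (r : ℤ) a b (uu i) (uu (star i)) hbez (huu i)
  set γ : SL(2, ℤ) := ⟨_, ihtw_det (M₁ : ℤ) (r : ℤ) a b (uu i) (uu (star i)) t hbez ht⟩ with hγ
  refine ⟨γ, ?_, ?_, ?_, ?_⟩
  · rw [tdm_mem_Gamma0_iff]
    show ((M₁ * r : ℕ) : ℤ) ∣ (r : ℤ) * M₁ * b
    push_cast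
    exact ⟨b, by ring⟩
  · show (r : ℤ) ∣ (r : ℤ) - M₁ * b * uu (star i) - uu (star i)
    exact ⟨1 - uu (star i) * r * a, by linear_combination (uu (star i)) * hbez⟩
  · show (M₁ : ℤ) ∣ (r : ℤ) - M₁ * b * uu (star i) - r
    exact ⟨-(b * uu (star i)), by ring⟩
  · have := ihtw_mat (M₁ : ℤ) (r : ℤ) a b (uu i) (uu (star i)) t ht
    rw [t2wMat]
    push_cast
    exact this

include hab hTw hstar huu hW' hW hg₀' in
/-- **(Tw3), abstract form: `W ∘ Tw = Tw ∘ conj g₀`** -/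
theorem ihtw_W_Tw {A : Type*} [AddCommGroup A] (φ φ' : Additive Γ →+ A)
    (hφ : ∀ γ : Γ, φ' (Additive.ofMul γ)
      = φ (Additive.ofMul ⟨g₀ * (γ : SL(2, ℤ)) * g₀⁻¹, hg₀ γ γ.2⟩)) :
    W'.hom A (Tw.cor A φ) = Tw.cor A φ' := by
  have hr0 : (r : ℤ) ≠ 0 := by exact_mod_cast hr.out.ne_zero
  rw [← ihtgOfSys_cor W']
  choose γ hγ1 hγ2 hγ4 hγ3 using ihtw_exists_gamma M₁ r a b hab uu star huu
  set f : ι × Unit → ι := fun x => star x.1 with hf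
  have hfb : Function.Bijective f := by
    refine ⟨?_, fun y => ?_⟩
    · rintro ⟨i, ⟨⟩⟩ ⟨i', ⟨⟩⟩ hx
      have : i = i' := hstar.1 hx
      rw [this]
    · obtain ⟨i, hi⟩ := hstar.2 y
      exact ⟨(i, ()), hi⟩
  set hh : ι × Unit → Γ := fun x => ⟨g x.1 * γ x.1 * (g (star x.1))⁻¹ * g₀⁻¹,
    hW x.1 (γ x.1) (hγ1 x.1) (hγ2 x.1) (hγ4 x.1)⟩ with hhh
  refine ihtg_cor_cor_eq_of_bij_conj Tw (ihtgOfSys W') Tw f hfb hh g₀ hg₀ hg₀' (r : ℤ) hr0 ?_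
    φ φ' hφ
  rintro ⟨i, ⟨⟩⟩
  rw [ihtgOfSys_rep, hW', hTw, hTw]
  show (g i : Matrix (Fin 2) (Fin 2) ℤ) * !![(r : ℤ), uu i; 0, (r : ℤ)]
      * t2wMat M₁ (r * r) a b
    = (r : ℤ) • (((g i * γ i * (g (star i))⁻¹ * g₀⁻¹ : SL(2, ℤ)) : Matrix (Fin 2) (Fin 2) ℤ)
      * (g₀ : Matrix (Fin 2) (Fin 2) ℤ)
      * ((g (star i) : Matrix (Fin 2) (Fin 2) ℤ) * !![(r : ℤ), uu (star i); 0, (r : ℤ)]))
  rw [Matrix.mul_assoc, hγ3 i, ← Matrix.SpecialLinearGroup.coe_mul, inv_mul_cancel_right,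
    ← Matrix.mul_assoc _ (g (star i) : Matrix (Fin 2) (Fin 2) ℤ),
    ← Matrix.SpecialLinearGroup.coe_mul, inv_mul_cancel_right,
    Matrix.SpecialLinearGroup.coe_mul, Matrix.mul_smul, Matrix.mul_assoc]

end UWTw

end Fermat.Agent.Ihara
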